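import Mathlib

/-!
# Commutative algebra for the avoidance of Ihara's lemma

Tools for comparing two actions of a polynomial ring on a free module over a parameter ring `S`:
`Six` packages the trace zero parts of inertia and Frobenius at a place; `false_of_small` is the
dimension bound (a domain integral over `S` along a chain of primes of length `r` cannot be
controlled by fewer than `r` elements); `mem_radical_of_entries` and `exists_prime_over` handle the
kernel of an action by matrices.
-/

set_option autoImplicit false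
set_option linter.style.haveILetI false
set_option linter.unusedSectionVars false
set_option linter.unusedVariables false

noncomputable section

namespace FLTAgent.Lower

open MvPolynomial (C)

/-- Six elements: trace-zero parts `(a b; c -a)` of inertia and `(A B; C -A)` of Frobenius. -/
structure Six (P : Type*) where
  a : P
  b : P
  c : P
  A : P
  B : P
  C : P

/-- The image of six elements. -/
def Six.map {P Q : Type*} (f : P → Q) (s : Six P) : Six Q :=
  ⟨f s.a, f s.b, f s.c, f s.A, f s.B, f s.C⟩

/-- The six elements, as a set. -/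
def Six.toSet {P : Type*} (s : Six P) : Set P := {s.a, s.b, s.c, s.A, s.B, s.C}

section Small

variable {S : Type*} [CommRing S] [IsLocalRing S] {D : Type*} [CommRing D] [IsDomain D]
  [IsNoetherianRing D] [Algebra S D] [Algebra.IsIntegral S D]

theorem exists_lift_chain {r : ℕ} (p : Fin (r + 1) → Ideal S) (hp : ∀ j, (p j).IsPrime)
    (hmono : StrictMono p) (h0 : RingHom.ker (algebraMap S D) = p 0) :
    ∀ j : Fin (r + 1), ∃ Q : Ideal D, ∃ hQ : Q.IsPrime, Q.comap (algebraMap S D) = p j ∧
      ((j : ℕ) : ℕ∞) ≤ Q.height := by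
  intro j
  induction j using Fin.induction with
  | zero => exact ⟨⊥, Ideal.isPrime_bot, h0, by simp⟩
  | succ j ih =>
    obtain ⟨Q, hQ, hQp, hQh⟩ := ih
    haveI := hp j.succ
    obtain ⟨Q', hle, hQ', hQ'p⟩ := Ideal.exists_ideal_over_prime_of_isIntegral (p j.succ) Q
      (hQp.le.trans (hmono (Fin.castSucc_lt_succ (i := j))).le)
    have hlt : Q < Q' := lt_of_le_of_ne hle fun h => by
      subst h
      exact (hmono (Fin.castSucc_lt_succ (i := j))).ne (hQp.symm.trans hQ'p)
    refine ⟨Q', hQ', hQ'p, ?_⟩
    have h1 := Ideal.height_add_one_le_of_lt_of_isPrime hlt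
    calc (((j.succ : Fin (r + 1)) : ℕ) : ℕ∞) = ((j.castSucc : Fin (r + 1)) : ℕ) + 1 := by simp
      _ ≤ Q.height + 1 := by gcongr
      _ ≤ Q'.height := h1

/-- A domain integral over `S` with kernel the bottom of a chain of length `r` has no ideal
generated by fewer than `r` elements of the radical whose radical contains the parameters. -/
theorem false_of_small {r : ℕ} (p : Fin (r + 1) → Ideal S) (hp : ∀ j, (p j).IsPrime)
    (hmono : StrictMono p) (htop : p (Fin.last r) = IsLocalRing.maximalIdeal S)
    (h0 : RingHom.ker (algebraMap S D) = p 0) (g : Set S)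
    (hgen : IsLocalRing.maximalIdeal S ≤ Ideal.span g)
    (L : Finset D) (hcard : L.card < r)
    (hL : ∀ Q : Ideal D, Q.IsPrime → Q.comap (algebraMap S D) = IsLocalRing.maximalIdeal S →
      ∀ v ∈ L, v ∈ Q)
    (hy : ∀ s ∈ g, algebraMap S D s ∈ (Ideal.span (L : Set D)).radical) : False := by
  obtain ⟨Q, hQ, hQp, hQh⟩ := exists_lift_chain p hp hmono h0 (Fin.last r)
  rw [htop] at hQp
  have hLQ : Ideal.span (L : Set D) ≤ Q := Ideal.span_le.2 fun v hv => hL Q hQ hQp v hv
  have hmem : Q ∈ (Ideal.span (L : Set D)).minimalPrimes := by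
    refine ⟨⟨hQ, hLQ⟩, fun Q' ⟨hQ', hLQ'⟩ hle => ?_⟩
    haveI := hQ'
    have hrad : (Ideal.span (L : Set D)).radical ≤ Q' := (Ideal.IsPrime.radical_le_iff hQ').2
      hLQ'
    have hmax : Q'.comap (algebraMap S D) = IsLocalRing.maximalIdeal S := by
      refine le_antisymm (IsLocalRing.le_maximalIdeal ?_) (hgen.trans (Ideal.span_le.2 ?_))
      · exact (Ideal.IsPrime.comap (algebraMap S D)).ne_top
      · exact fun s hs => hrad (hy s hs)
    haveI : (Q'.comap (algebraMap S D)).IsMaximal := hmax ▸ inferInstance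
    exact ((Ideal.isMaximal_of_isIntegral_of_isMaximal_comap (R := S) Q' inferInstance).eq_of_le
      hQ.ne_top hle).ge
  have := (hQh.trans (Ideal.height_le_card_of_mem_minimalPrimes_span_finset hmem))
  simp only [Fin.val_last, Nat.cast_le] at this
  omega

end Small

section Radical

variable {S : Type*} [CommRing S] {P : Type*} [CommRing P] [Algebra S P] {d : ℕ}
  (φ : P →ₐ[S] Matrix (Fin d) (Fin d) S)

/-- An element acting by a matrix with entries in `I` lies in the radical of `ker φ + I`. -/
theorem mem_radical_of_entries (I : Ideal S) {α : P} (h : ∀ i j, φ α i j ∈ I) :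
    α ∈ (RingHom.ker φ ⊔ I.map (algebraMap S P)).radical := by
  set M := φ α
  have hmap : M.map (Ideal.Quotient.mk I) = 0 := by
    ext i j
    simpa using Ideal.Quotient.eq_zero_iff_mem.2 (h i j)
  have hch : M.charpoly.map (Ideal.Quotient.mk I) = Polynomial.X ^ d := by
    rw [← Matrix.charpoly_map, hmap, Matrix.charpoly_zero]
    simp
  have hker : Polynomial.aeval α M.charpoly ∈ RingHom.ker φ := by
    rw [RingHom.mem_ker, ← Polynomial.aeval_algHom_apply]
    exact Matrix.aeval_self_charpoly M
  have hdiff : Polynomial.aeval α M.charpoly - α ^ d ∈ I.map (algebraMap S P) := by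
    have : ∀ i, (M.charpoly - Polynomial.X ^ d).coeff i ∈ I := fun i => by
      rw [← Ideal.Quotient.eq_zero_iff_mem, ← Polynomial.coeff_map, Polynomial.map_sub, hch,
        Polynomial.map_pow, Polynomial.map_X, sub_self, Polynomial.coeff_zero]
    have h2 : Polynomial.aeval α (M.charpoly - Polynomial.X ^ d) ∈ I.map (algebraMap S P) := by
      rw [Polynomial.aeval_eq_sum_range]
      refine Ideal.sum_mem _ fun i _ => ?_
      rw [Algebra.smul_def]
      exact Ideal.mul_mem_right _ _ (Ideal.mem_map_of_mem _ (this i))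
    simpa using h2
  refine ⟨d, ?_⟩
  have : α ^ d = Polynomial.aeval α M.charpoly - (Polynomial.aeval α M.charpoly - α ^ d) := by
    ring
  rw [this]
  exact sub_mem (Ideal.mem_sup_left hker) (Ideal.mem_sup_right hdiff)

theorem mem_of_entries (Q : Ideal P) [Q.IsPrime] (hker : RingHom.ker φ ≤ Q) (I : Ideal S)
    (hI : I ≤ Q.comap (algebraMap S P)) {α : P} (h : ∀ i j, φ α i j ∈ I) : α ∈ Q := by
  have := mem_radical_of_entries φ I h
  exact (Ideal.IsPrime.radical_le_iff ‹_›).2 (sup_le hker (Ideal.map_le_iff_le_comap.2 hI)) this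

theorem moduleFinite_quot_ker [IsNoetherianRing S] :
    Module.Finite S (P ⧸ RingHom.ker φ) :=
  Module.Finite.of_injective
    ((Submodule.liftQ ((RingHom.ker φ).restrictScalars S) φ.toLinearMap fun x hx => hx) :
      (P ⧸ (RingHom.ker φ).restrictScalars S) →ₗ[S] Matrix (Fin d) (Fin d) S)
    (LinearMap.ker_eq_bot.1 (Submodule.ker_liftQ_eq_bot _ _ _ fun _ hx => hx))

theorem exists_prime_over [IsNoetherianRing S] (Q : Ideal P) [Q.IsPrime]
    (hker : RingHom.ker φ ≤ Q) (q : Ideal S) [q.IsPrime] (hle : Q.comap (algebraMap S P) ≤ q) :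
    ∃ Q' : Ideal P, Q ≤ Q' ∧ Q'.IsPrime ∧ Q'.comap (algebraMap S P) = q := by
  let π := Ideal.Quotient.mk (RingHom.ker φ)
  haveI := moduleFinite_quot_ker φ
  haveI : Algebra.IsIntegral S (P ⧸ RingHom.ker φ) := Algebra.IsIntegral.of_finite _ _
  have hsurj : Function.Surjective π := Ideal.Quotient.mk_surjective
  haveI : (Q.map π).IsPrime := Ideal.map_isPrime_of_surjective hsurj (by
    rw [Ideal.mk_ker]; exact hker)
  have hQ : (Q.map π).comap π = Q := by
    rw [Ideal.comap_map_of_surjective _ hsurj, ← RingHom.ker_eq_comap_bot, Ideal.mk_ker,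
      sup_of_le_left hker]
  obtain ⟨Q₁, h1, h2, h3⟩ := Ideal.exists_ideal_over_prime_of_isIntegral q (Q.map π) (by
    intro s hs
    apply hle
    rw [← hQ]
    exact hs)
  exact ⟨Q₁.comap π, hQ ▸ Ideal.comap_mono h1, Ideal.IsPrime.comap π, h3⟩

end Radical

end FLTAgent.Lower
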