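import Mathlib
import Fermat.Prelude.Def_GaloisRep_Flat
import Fermat.Prelude.Def_GaloisRep_LocalConditions
import Fermat.Prelude.Def_CuspForm_HeckeGaloisRepDatum
import Fermat.Prelude.Def_GaloisRep_Residual
import Fermat.Prelude.Def_FLTPrelim_FreyPackage
import Fermat.Prelude.Def_FLTPrelim_ModularRep
import Fermat.Prelude.Def_FLTPrelim_Ramification

/-!
# Definitions for level lowering at odd primes

Setting: `p` odd, a level `M`, a set `Smin` of primes where the residual representation is
ramified (with unipotent inertia) and a set `Saux` of primes `l ≡ 1 mod p` where it is unramified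
with scalar Frobenius; `q` is one of the latter and `loc` is the condition at `p`.  `O` is a
complete discrete valuation ring with residue field that of the residual representation.
Defined here: `LocalType`, the deformation condition `Cond`, `GoodResidual`, `IsTWPrime`,
`IsInertiaGen`, and the automorphic data `Base` (level `M`) and `Level` (auxiliary primes).
-/

set_option autoImplicit false

noncomputable section

namespace FLTAgent.Lower

open scoped WeierstrassCurve.Affine
open IsLocalRing (ResidueField maximalIdeal)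
open Polynomial (X C)

local notation "ℚ̄" => AlgebraicClosure ℚ
local notation "Γℚ" => (AlgebraicClosure ℚ ≃ₐ[ℚ] AlgebraicClosure ℚ)

/-- The odd primes of the level. -/
def auxPrimes (M : ℕ) : Finset ℕ := M.primeFactors.erase 2

/-- The primes where ramification is allowed, with auxiliary primes `Qv`. -/
def ramSet (p : ℕ) (Smin Saux : Finset ℕ) {r : ℕ} (Qv : Fin r → ℕ) : Finset ℕ :=
  insert p (Smin ∪ Saux ∪ Finset.univ.image Qv)

/-- A local condition at `p`, stable under surjective base change. -/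
structure LocalType : Type 1 where
  /-- The condition. -/
  cond : ∀ {A : Type} [CommRing A] [IsLocalRing A], GaloisRepAdic A → Prop
  baseChange : ∀ {A B : Type} [CommRing A] [IsLocalRing A] [CommRing B] [IsLocalRing B]
    [Finite (ResidueField B)] (φ : A →+* B) (hφ : IsLocalHom φ) (ρ : GaloisRepAdic A),
    Function.Surjective φ → cond ρ → cond (ρ.baseChangeAlong φ hφ)

/-- The deformation condition: cyclotomic determinant, `loc` at `p`, unramified outside `S`,
unipotent on inertia at the primes of `Smin`. -/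
structure Cond {A : Type} [CommRing A] [IsLocalRing A] (loc : LocalType) (p : ℕ)
    (Smin S : Finset ℕ) (ρ : GaloisRepAdic A) : Prop where
  det : ρ.DetIsCyclotomic p
  local_p : loc.cond ρ
  unramified : ∀ q : ℕ, q.Prime → q ∉ S → ρ.IsUnramifiedAt q
  unipotent : ∀ q ∈ Smin, ρ.IsUnipotentOnInertiaAt q

/-- `ρbar` is the mod `p` representation of the Frey curve with coefficients in `k`. -/
def IsFreyRep (P : FreyPackage) {k : Type} [Field k] (ρbar : ResidualGaloisRep k) : Prop :=
  haveI : Fact P.p.Prime := ⟨P.pp⟩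
  ∃ (i : ZMod P.p →+* k) (hcard : Nat.card (Submodule.torsionBy ℤ
      ((P.freyCurve)⁄(AlgebraicClosure ℚ)).Point P.p) = P.p ^ 2)
    (hker : GaloisFactorsThroughFiniteLevel
      (WeierstrassCurve.Affine.Point.galoisRepModuleEnd (K := AlgebraicClosure ℚ) ℚ
        P.freyCurve P.p)),
    ρbar.IsEquiv ((P.freyCurve.residualGaloisRepOf P.p hcard hker).baseChangeAlong i)

/-- The residual hypotheses of the situation. -/
structure GoodResidual {k : Type} [Field k] (p : ℕ) (Smin Saux : Finset ℕ)
    (ρbar : ResidualGaloisRep k) : Prop where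
  absIrr : ρbar.IsAbsolutelyIrreducible
  det : (GaloisRepAdic.ofResidualGaloisRep ρbar).DetIsCyclotomic p
  split : ∀ σ : Γℚ, ∃ α β : k, LinearMap.charpoly (ρbar.ρ σ) = (X - C α) * (X - C β)
  big : ∀ (K : Type) [Field K] [Algebra k K] (G : Subgroup Γℚ), G.index = 2 →
    ∀ V : Submodule K (ρbar.baseChange K).V,
      (∀ σ ∈ G, ∀ x ∈ V, (ρbar.baseChange K).ρ σ x ∈ V) → V = ⊥ ∨ V = ⊤
  min_prime : ∀ l ∈ Smin, l.Prime ∧ l ≠ p
  ramified : ∀ l ∈ Smin, ¬ ρbar.IsUnramifiedAt l
  unipotent : ∀ l ∈ Smin, (GaloisRepAdic.ofResidualGaloisRep ρbar).IsUnipotentOnInertiaAt l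
  unramified : ∀ l : ℕ, l.Prime → l ∉ Smin → l ≠ p → ρbar.IsUnramifiedAt l
  aux_prime : ∀ l ∈ Saux, l.Prime ∧ l ≠ p ∧ l ∉ Smin
  one_mod : ∀ l ∈ Saux, p ∣ l - 1
  scalar : ∀ l ∈ Saux, ∀ A : ValuationSubring ℚ̄, A.LiesOverPrime l →
    ∀ τ ∈ A.decompositionSubgroup ℚ, ∃ c : k, ρbar.ρ τ = c • 1

/-- An auxiliary prime of depth `n`. -/
structure IsTWPrime {k : Type} [Field k] (p n : ℕ) (ρbar : ResidualGaloisRep k) (q : ℕ) :
    Prop where
  prime : q.Prime
  dvd : p ^ (n + 1) ∣ q - 1
  distinct : ∀ A : ValuationSubring ℚ̄, A.LiesOverPrime q → ∀ φ : Γℚ, A.IsFrobeniusAt φ q →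
    ∃ α β : k, α ≠ β ∧ LinearMap.charpoly (ρbar.ρ φ) = (X - C α) * (X - C β)

/-- `σ` is an inertia element at `q` that moves the subfield of degree `p` of `ℚ(μ_q)`. -/
structure IsInertiaGen (p q : ℕ) (A : ValuationSubring ℚ̄) (σ : Γℚ) : Prop where
  mem : σ ∈ A.inertiaSubgroupIn ℚ
  moves : ∀ μ : ℚ̄, IsPrimitiveRoot μ q → ∀ a : ℕ, σ μ = μ ^ a →
    (a : ZMod q) ^ ((q - 1) / p) ≠ 1

variable {O : Type} [CommRing O] [IsDomain O] [IsDiscreteValuationRing O]
  [IsAdicComplete (maximalIdeal O) O]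

/-- `((1 + X_j)^(p^n) - 1)_j`. -/
def levelIdeal (p n r : ℕ) (O : Type) [CommRing O] : Ideal (MvPowerSeries (Fin r) O) :=
  Ideal.span (Set.range fun j : Fin r =>
    ((1 + MvPowerSeries.X j) ^ (p ^ n) - 1 : MvPowerSeries (Fin r) O))

/-- The automorphic side at the minimal level `M`: the Hecke ring with its representation, a
faithful-enough free module in coordinates. -/
structure Base (p M : ℕ) [NeZero M] (ρbar : ResidualGaloisRep (ResidueField O)) : Type 1 where
  θ : CuspForm.heckeAlgebra M 2 (↑(insert p M.primeFactors) : Set ℕ) →+* ResidueField O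
  T₀ : Type
  [instCommRing : CommRing T₀]
  [instIsLocalRing : IsLocalRing T₀]
  [instIsNoetherianRing : IsNoetherianRing T₀]
  [instIsAdicComplete : IsAdicComplete (maximalIdeal T₀) T₀]
  [instAlgebra : Algebra O T₀]
  [instIsLocalHom : IsLocalHom (algebraMap O T₀)]
  [instFinite : Module.Finite O T₀]
  [instFree : Module.Free O T₀]
  H : CuspForm.HeckeGaloisRepDatum M (↑(insert p M.primeFactors) : Set ℕ) O θ T₀
  residual_isEquiv : H.ρ.residual.IsEquiv
    (ρbar.baseChangeAlong (ResidueField.map (algebraMap O T₀)))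
  d : ℕ
  d_ne_zero : d ≠ 0
  Φ : T₀ →ₐ[O] Matrix (Fin d) (Fin d) O

attribute [instance] Base.instCommRing Base.instIsLocalRing Base.instIsNoetherianRing
  Base.instIsAdicComplete Base.instAlgebra Base.instIsLocalHom Base.instFinite Base.instFree

/-- The automorphic side at level `M` with auxiliary primes of depth `n`: a Hecke ring `T` with
its representation, acting on two free modules over `O[[X]]/((1+X)^(p^n) - 1)` (trivial character
at `q` and nontrivial characters of `p`-power order at `q`) which agree modulo `ϖ` and reduce to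
the base. -/
structure Level {p M : ℕ} [NeZero M] {ρbar : ResidualGaloisRep (ResidueField O)}
    (loc : LocalType) (Smin Saux : Finset ℕ) (B : Base p M ρbar) (q : ℕ) (A : ValuationSubring ℚ̄) (σ₀ : Γℚ) (n : ℕ) {r : ℕ}
    (Qv : Fin r → ℕ) : Type 1 where
  T : Type
  [instCommRing : CommRing T]
  [instIsLocalRing : IsLocalRing T]
  [instAlgebra : Algebra O T]
  [instIsLocalHom : IsLocalHom (algebraMap O T)]
  [instFinite : Module.Finite O T]
  residue_surjective : Function.Surjective (IsLocalRing.residue T ∘ algebraMap O T)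
  ρ : GaloisRepAdic T
  residual_isEquiv : ρ.residual.IsEquiv
    (ρbar.baseChangeAlong (ResidueField.map (algebraMap O T)))
  cond : Cond loc p Smin (ramSet p Smin Saux Qv) ρ
  adjoin_trace : Algebra.adjoin O (Set.range ρ.trace) = ⊤
  /-- The restriction to the base. -/
  π : T →ₐ[O] B.T₀
  π_isLocalHom : IsLocalHom (π : T →+* B.T₀)
  π_isEquiv : (ρ.baseChangeAlong (π : T →+* B.T₀) π_isLocalHom).IsEquiv B.H.ρ
  /-- The action with trivial character at `q`. -/
  Ψ₁ : T →ₐ[O] Matrix (Fin B.d) (Fin B.d) (MvPowerSeries (Fin r) O ⧸ levelIdeal p n r O)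
  /-- The action with nontrivial characters of `p`-power order at `q`. -/
  Ψc : T →ₐ[O] Matrix (Fin B.d) (Fin B.d) (MvPowerSeries (Fin r) O ⧸ levelIdeal p n r O)
  congr_mod : ∀ t i j, Ψc t i j - Ψ₁ t i j ∈
    (maximalIdeal O).map (algebraMap O (MvPowerSeries (Fin r) O ⧸ levelIdeal p n r O))
  base_eq : ∀ t i j (f : MvPowerSeries (Fin r) O), Ideal.Quotient.mk _ f = Ψ₁ t i j →
    MvPowerSeries.constantCoeff f = B.Φ (π t) i j
  /-- The diamond variables are quadratic over `T`. -/
  tw_rel : ∀ i : Fin r, ∃ t ∈ maximalIdeal T,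
    Ψ₁ t * Matrix.scalar (Fin B.d) (Ideal.Quotient.mk (levelIdeal p n r O)
        (1 + MvPowerSeries.X i)) =
      Matrix.scalar (Fin B.d) (Ideal.Quotient.mk (levelIdeal p n r O)
        (MvPowerSeries.X i ^ 2))
  trace_one : ∀ l ∈ Saux, ∀ A' : ValuationSubring ℚ̄, A'.LiesOverPrime l →
    ∀ σ ∈ A'.inertiaSubgroupIn ℚ, Ψ₁ (ρ.trace σ) = 2
  trace_aux : ∀ l ∈ Saux, l ≠ q → ∀ A' : ValuationSubring ℚ̄, A'.LiesOverPrime l →
    ∀ σ ∈ A'.inertiaSubgroupIn ℚ, Ψc (ρ.trace σ) = 2
  /-- The eigenvalues at `σ₀` are nontrivial roots of unity congruent to one. -/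
  trace_q : A.LiesOverPrime q → ∃ s : Finset O,
    (∀ c ∈ s, c ^ (q - 1) = 1 ∧ c ≠ 1 ∧ c - 1 ∈ maximalIdeal O) ∧
      Ψc (∏ c ∈ s, (ρ.trace σ₀ - algebraMap O T (c + c ^ (q - 2)))) = 0

attribute [instance] Level.instCommRing Level.instIsLocalRing Level.instAlgebra
  Level.instIsLocalHom Level.instFinite

end FLTAgent.Lower
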