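import Mathlib
import Fermat.Agent.Lower.Defs
import Fermat.Agent.Lower.Iface.TamePair
import Fermat.Agent.GalCommon.Frobenius

/-!
# Matrices of an adic Galois representation

`matHom ρ b` gives the matrices in a basis, `unitHom` their reductions modulo powers of the maximal
ideal, which have finite level (`exists_level`).  For a tame pair `σ, φ` (`TameProp`) with
residually trivial inertia `tame_relation` proves `φ σ = σ ^ l φ` in matrices; `det_inertia` and
`det_frobenius` compute determinants of a representation with cyclotomic determinant.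
-/

set_option autoImplicit false
set_option linter.style.haveILetI false

noncomputable section

namespace FLTAgent.Lower

open IsLocalRing (maximalIdeal ResidueField)
open scoped TensorProduct

local notation "ℚ̄" => AlgebraicClosure ℚ
local notation "Γℚ" => (AlgebraicClosure ℚ ≃ₐ[ℚ] AlgebraicClosure ℚ)

section Congr

variable {R : Type*} [CommRing R] {ι : Type*} [Fintype ι] [DecidableEq ι] (I : Ideal R)

theorem entries_mem_mul {a b : ℕ} {M N : Matrix ι ι R} (hM : ∀ i j, M i j ∈ I ^ a)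
    (hN : ∀ i j, N i j ∈ I ^ b) : ∀ i j, (M * N) i j ∈ I ^ (a + b) := fun i j => by
  rw [Matrix.mul_apply, pow_add]
  exact Ideal.sum_mem _ fun k _ => Ideal.mul_mem_mul (hM i k) (hN k j)

/-- `u ≡ 1 mod I` implies `u^(p^j) ≡ 1 mod I^(j+1)` when `p ∈ I`. -/
theorem entries_pow_prime_pow {p : ℕ} (hp : (p : R) ∈ I) {u : Matrix ι ι R}
    (hu : ∀ i j, (u - 1) i j ∈ I) (n : ℕ) : ∀ i j, (u ^ p ^ n - 1) i j ∈ I ^ (n + 1) := by
  induction n with
  | zero => simpa using hu
  | succ n ih =>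
    set v := u ^ p ^ n with hv
    have hv1 : ∀ i j, (v - 1) i j ∈ I ^ 1 := fun i j =>
      (pow_one I).symm ▸ Ideal.pow_le_self (Nat.succ_ne_zero n) (ih i j)
    have hvi : ∀ (m : ℕ) i j, (v ^ m - 1) i j ∈ I ^ 1 := by
      intro m
      induction m with
      | zero => intro i j; simp
      | succ m ihm =>
        intro i j
        have h1 : v ^ (m + 1) - 1 = (v ^ m - 1) * (v - 1) + (v ^ m - 1) + (v - 1) := by
          rw [pow_succ]; noncomm_ring
        rw [h1]
        simp only [Matrix.add_apply]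
        exact add_mem (add_mem (Ideal.pow_le_pow_right (by norm_num)
          (entries_mem_mul I ihm hv1 i j)) (ihm i j)) (hv1 i j)
    have hgs : ∀ i j, (∑ m ∈ Finset.range p, v ^ m) i j ∈ I ^ 1 := fun i j => by
      have h1 : (∑ m ∈ Finset.range p, v ^ m) =
          (∑ m ∈ Finset.range p, (v ^ m - 1)) + (p : Matrix ι ι R) := by
        simp [Finset.sum_sub_distrib]
      rw [h1, Matrix.add_apply, Matrix.sum_apply]
      refine add_mem (Ideal.sum_mem _ fun m _ => hvi m i j) ?_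
      rw [pow_one, Matrix.natCast_apply]
      by_cases h : i = j
      · simpa [h] using hp
      · simp [h]
    intro i j
    rw [pow_succ p n, pow_mul, ← geom_sum_mul, show n + 1 + 1 = 1 + (n + 1) by ring]
    exact entries_mem_mul I hgs ih i j

end Congr

section Rep

variable {T : Type} [CommRing T] [IsLocalRing T]

/-- The matrices of `ρ` in a basis. -/
def matHom (ρ : GaloisRepAdic T) (b : Module.Basis (Fin 2) T ρ.V) :
    Γℚ →* Matrix (Fin 2) (Fin 2) T :=
  (LinearMap.toMatrixAlgEquiv b).toAlgHom.toRingHom.toMonoidHom.comp ρ.ρ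

theorem matHom_apply (ρ : GaloisRepAdic T) (b : Module.Basis (Fin 2) T ρ.V) (τ : Γℚ) (i j : Fin 2) :
    matHom ρ b τ i j = b.repr (ρ.ρ τ (b j)) i := by
  simp [matHom, LinearMap.toMatrixAlgEquiv_apply]

theorem trace_matHom (ρ : GaloisRepAdic T) (b : Module.Basis (Fin 2) T ρ.V) (τ : Γℚ) :
    (matHom ρ b τ).trace = ρ.trace τ := by
  rw [GaloisRepAdic.trace, LinearMap.trace_eq_matrix_trace T b]
  rfl

theorem det_matHom (ρ : GaloisRepAdic T) (b : Module.Basis (Fin 2) T ρ.V) (τ : Γℚ) :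
    (matHom ρ b τ).det = LinearMap.det (ρ.ρ τ) := by
  rw [← LinearMap.det_toMatrix b]
  rfl

theorem matHom_eq_smul_one {ρ : GaloisRepAdic T} {b : Module.Basis (Fin 2) T ρ.V} {τ : Γℚ} {c : T}
    (h : ρ.ρ τ = c • 1) : matHom ρ b τ = c • 1 := by
  ext i j
  rw [matHom_apply, h, LinearMap.smul_apply, Module.End.one_apply, map_smul]
  simp [Matrix.one_apply, Finsupp.single_apply, eq_comm]

theorem eq_smul_one_of_matHom {ρ : GaloisRepAdic T} {b : Module.Basis (Fin 2) T ρ.V} {τ : Γℚ}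
    {c : T} (h : matHom ρ b τ = c • 1) : ρ.ρ τ = c • 1 := by
  refine b.ext fun j => b.repr.injective (Finsupp.ext fun i => ?_)
  rw [← matHom_apply, h, LinearMap.smul_apply, Module.End.one_apply, map_smul]
  simp [Matrix.one_apply, Finsupp.single_apply, eq_comm]

theorem finite_quot_pow [Finite (ResidueField T)] [IsNoetherianRing T] (n : ℕ) :
    Finite (T ⧸ maximalIdeal T ^ n) := by
  haveI : Finite (T ⧸ maximalIdeal T) := ‹Finite (ResidueField T)›
  exact Ideal.finite_quotient_pow (IsNoetherian.noetherian _) n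

theorem eq_of_forall_mk [IsNoetherianRing T] {ι : Type*} [Fintype ι] [DecidableEq ι]
    {M N : Matrix ι ι T} (h : ∀ n, (Ideal.Quotient.mk (maximalIdeal T ^ n)).mapMatrix M =
      (Ideal.Quotient.mk (maximalIdeal T ^ n)).mapMatrix N) : M = N := by
  ext i j
  rw [← sub_eq_zero, ← Ideal.mem_bot, ← Ideal.iInf_pow_eq_bot_of_isLocalRing (maximalIdeal T)
    (IsLocalRing.maximalIdeal.isMaximal T).ne_top, Ideal.mem_iInf]
  intro n
  have := congrFun (congrFun (h n) i) j
  rwa [RingHom.mapMatrix_apply, RingHom.mapMatrix_apply, Matrix.map_apply, Matrix.map_apply,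
    Ideal.Quotient.mk_eq_mk_iff_sub_mem] at this

theorem exists_level (ρ : GaloisRepAdic T) (b : Module.Basis (Fin 2) T ρ.V) (n : ℕ) :
    ∃ L : IntermediateField ℚ ℚ̄, FiniteDimensional ℚ L ∧ ∀ τ : Γℚ, (∀ x ∈ L, τ x = x) →
      (Ideal.Quotient.mk (maximalIdeal T ^ n)).mapMatrix (matHom ρ b τ) = 1 := by
  obtain ⟨L, hL, h⟩ := ρ.isAdicContinuous n
  refine ⟨L, hL, fun τ hτ => ?_⟩
  ext i j
  have h1 : ∀ x ∈ maximalIdeal T ^ n • (⊤ : Submodule T ρ.V),
      b.repr x i ∈ maximalIdeal T ^ n := fun x hx => by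
    refine Submodule.smul_induction_on hx (fun c hc w _ => ?_) fun x y hx hy => ?_
    · rw [map_smul, Finsupp.smul_apply, smul_eq_mul]
      exact Ideal.mul_mem_right _ _ hc
    · rw [map_add, Finsupp.add_apply]; exact add_mem hx hy
  have h2 := h1 _ (h τ hτ (b j))
  rw [map_sub, Finsupp.sub_apply, ← matHom_apply, Module.Basis.repr_self] at h2
  rw [RingHom.mapMatrix_apply, Matrix.map_apply, (Ideal.Quotient.mk_eq_mk_iff_sub_mem _ _).2 h2,
    Matrix.one_apply, Finsupp.single_apply]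
  by_cases hij : i = j <;> simp [hij, eq_comm]

/-- The image of `ρ` modulo `𝔪ⁿ` in units, with its finite level. -/
def unitHom (ρ : GaloisRepAdic T) (b : Module.Basis (Fin 2) T ρ.V) (n : ℕ) :
    Γℚ →* (Matrix (Fin 2) (Fin 2) (T ⧸ maximalIdeal T ^ n))ˣ :=
  MonoidHom.toHomUnits
    ((Ideal.Quotient.mk (maximalIdeal T ^ n)).mapMatrix.toMonoidHom.comp (matHom ρ b))

theorem coe_unitHom (ρ : GaloisRepAdic T) (b : Module.Basis (Fin 2) T ρ.V) (n : ℕ) (τ : Γℚ) :
    (unitHom ρ b n τ : Matrix (Fin 2) (Fin 2) (T ⧸ maximalIdeal T ^ n)) =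
      (Ideal.Quotient.mk (maximalIdeal T ^ n)).mapMatrix (matHom ρ b τ) := rfl

/-- The conclusion of `exists_tamePair`, as a property of `σ` and `φ`. -/
def TameProp (p l : ℕ) (A : ValuationSubring ℚ̄) (σ φ : Γℚ) : Prop :=
  ∀ (G : Type) [Group G] [Finite G] (f : Γℚ →* G),
    (∃ L : IntermediateField ℚ ℚ̄, FiniteDimensional ℚ L ∧
      ∀ τ : Γℚ, (∀ x ∈ L, τ x = x) → f τ = 1) →
    (∀ τ ∈ A.inertiaSubgroupIn ℚ, ∃ j : ℕ, f τ ^ (p ^ j) = 1) →
    f (φ * σ * φ⁻¹) = f σ ^ l ∧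
    (∀ τ ∈ A.inertiaSubgroupIn ℚ, f τ ∈ Subgroup.zpowers (f σ)) ∧
    ∀ τ ∈ A.decompositionSubgroup ℚ, f τ ∈ Subgroup.closure {f σ, f φ}

variable [IsNoetherianRing T] [Finite (ResidueField T)] {p l : ℕ} {A : ValuationSubring ℚ̄}
  {σ φ : Γℚ} {ρ : GaloisRepAdic T} {b : Module.Basis (Fin 2) T ρ.V}

theorem tame_at_level (htame : TameProp p l A σ φ) (hpT : (p : T) ∈ maximalIdeal T)
    (hres : ∀ τ ∈ A.inertiaSubgroupIn ℚ, ∀ i j, (matHom ρ b τ - 1) i j ∈ maximalIdeal T) (n : ℕ) :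
    unitHom ρ b n (φ * σ * φ⁻¹) = unitHom ρ b n σ ^ l ∧
    (∀ τ ∈ A.inertiaSubgroupIn ℚ, unitHom ρ b n τ ∈ Subgroup.zpowers (unitHom ρ b n σ)) ∧
    ∀ τ ∈ A.decompositionSubgroup ℚ,
      unitHom ρ b n τ ∈ Subgroup.closure {unitHom ρ b n σ, unitHom ρ b n φ} := by
  haveI := finite_quot_pow (T := T) n
  refine htame _ (unitHom ρ b n) ?_ fun τ hτ => ⟨n, Units.ext ?_⟩
  · obtain ⟨L, hL, h⟩ := exists_level ρ b n
    exact ⟨L, hL, fun τ hτ => Units.ext (h τ hτ)⟩
  · rw [Units.val_pow_eq_pow_val, coe_unitHom, ← map_pow, Units.val_one]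
    ext i j
    have h1 := Ideal.pow_le_pow_right (Nat.le_succ n)
      (entries_pow_prime_pow (maximalIdeal T) hpT (hres τ hτ) n i j)
    rw [Matrix.sub_apply] at h1
    rw [RingHom.mapMatrix_apply, Matrix.map_apply, (Ideal.Quotient.mk_eq_mk_iff_sub_mem _ _).2 h1,
      Matrix.one_apply, Matrix.one_apply]
    split <;> simp

theorem tame_relation (htame : TameProp p l A σ φ) (hpT : (p : T) ∈ maximalIdeal T)
    (hres : ∀ τ ∈ A.inertiaSubgroupIn ℚ, ∀ i j, (matHom ρ b τ - 1) i j ∈ maximalIdeal T) :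
    matHom ρ b φ * matHom ρ b σ = matHom ρ b σ ^ l * matHom ρ b φ := by
  refine eq_of_forall_mk fun n => ?_
  have h := congrArg Units.val (congrArg (· * unitHom ρ b n φ) (tame_at_level htame hpT hres n).1)
  simp only [← map_mul, inv_mul_cancel_right, Units.val_mul, Units.val_pow_eq_pow_val,
    coe_unitHom] at h
  simp only [map_mul, map_pow] at h ⊢
  exact h

end Rep

section Det

variable {T : Type} [CommRing T] [IsLocalRing T] [IsNoetherianRing T] {p l : ℕ}
  {A : ValuationSubring ℚ̄} {ρ : GaloisRepAdic T}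

theorem det_eq_natCast_of_cyclotomic (hdet : ρ.DetIsCyclotomic p) (τ : Γℚ) (a : ℕ)
    (h : ∀ (n : ℕ) (μ : ℚ̄), μ ^ p ^ n = 1 → τ μ = μ ^ a) : LinearMap.det (ρ.ρ τ) = a := by
  rw [← sub_eq_zero, ← Ideal.mem_bot, ← Ideal.iInf_pow_eq_bot_of_isLocalRing (maximalIdeal T)
    (IsLocalRing.maximalIdeal.isMaximal T).ne_top, Ideal.mem_iInf]
  intro n
  refine (Ideal.span_singleton_le_iff_mem _).2 ?_ (hdet.2 n τ a (h n))
  rw [Nat.cast_pow]
  exact Ideal.pow_mem_pow hdet.1 n

theorem det_inertia (hp : p.Prime) (hl : l.Prime) (hlp : l ≠ p) (hA : A.LiesOverPrime l)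
    (hdet : ρ.DetIsCyclotomic p) {σ : Γℚ} (hσ : σ ∈ A.inertiaSubgroupIn ℚ) :
    LinearMap.det (ρ.ρ σ) = 1 := by
  rw [det_eq_natCast_of_cyclotomic hdet σ 1 fun n μ hμ => by
    rw [pow_one]
    exact FLTAgent.GalCommon.inertia_apply_of_pow_eq_one hl hA
      (fun h => hlp ((Nat.prime_dvd_prime_iff_eq hl hp).1 (hl.dvd_of_dvd_pow h))) hσ hμ]
  exact Nat.cast_one

theorem det_frobenius (hp : p.Prime) (hl : l.Prime) (hlp : l ≠ p) (hA : A.LiesOverPrime l)
    (hdet : ρ.DetIsCyclotomic p) {φ : Γℚ} (hφ : A.IsFrobeniusAt φ l) :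
    LinearMap.det (ρ.ρ φ) = l :=
  det_eq_natCast_of_cyclotomic hdet φ l fun _ _ hμ =>
    FLTAgent.GalCommon.frobenius_apply_of_pow_eq_one hl hA
      (fun h => hlp ((Nat.prime_dvd_prime_iff_eq hl hp).1 (hl.dvd_of_dvd_pow h))) hφ hμ

end Det

section BaseChange

variable {T B : Type} [CommRing T] [IsLocalRing T] [CommRing B] [IsLocalRing B] (f : T →+* B)
  (hf : IsLocalHom f) (ρ : GaloisRepAdic T) (b : Module.Basis (Fin 2) T ρ.V)

/-- The basis of the base change. -/
def basisBaseChange : Module.Basis (Fin 2) B (ρ.baseChangeAlong f hf).V :=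
  letI : Algebra T B := f.toAlgebra
  b.baseChange B

theorem matHom_baseChange (τ : Γℚ) :
    matHom (ρ.baseChangeAlong f hf) (basisBaseChange f hf ρ b) τ =
      f.mapMatrix (matHom ρ b τ) := by
  letI : Algebra T B := f.toAlgebra
  ext i j
  rw [matHom_apply, RingHom.mapMatrix_apply, Matrix.map_apply, matHom_apply]
  change (b.baseChange B).repr (((ρ.ρ τ).baseChange B) ((b.baseChange B) j)) i = _
  rw [Module.Basis.baseChange_apply, LinearMap.baseChange_tmul,
    Module.Basis.baseChange_repr_tmul, Algebra.smul_def, mul_one]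
  rfl

end BaseChange

end FLTAgent.Lower
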