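import Mathlib
import Fermat.Agent.Lower.Defs

/-!
# Flatness at `p` as a local type

`flatType p` is the `LocalType` given by flatness at `p`; the only verification is the stability
under surjective base change, `isFlatAt_baseChangeAlong`.
-/

set_option autoImplicit false
set_option linter.style.haveILetI false

noncomputable section

namespace FLTAgent.Lower

open scoped TensorProduct

theorem isFlatAt_baseChangeAlong {A B : Type} [CommRing A] [IsLocalRing A] [CommRing B]
    [IsLocalRing B] [Finite (IsLocalRing.ResidueField B)] (p : ℕ) (φ : A →+* B) (hφ : IsLocalHom φ)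
    (ρ : GaloisRepAdic A) (hs : Function.Surjective φ) (h : ρ.IsFlatAt p) :
    (ρ.baseChangeAlong φ hφ).IsFlatAt p := by
  refine ⟨inferInstance, fun I hI => ?_⟩
  letI : Algebra A B := φ.toAlgebra
  let J := I.comap φ
  haveI : Finite (A ⧸ J) := Finite.of_injective (Ideal.quotientMap I φ le_rfl)
    (Ideal.quotientMap_injective' le_rfl)
  obtain ⟨H, _, _, hfin, hflat, hco, e, hmul, hgal⟩ := h.2 J inferInstance
  let g : ρ.V →ₗ[A] (B ⊗[A] ρ.V) ⧸ (I • (⊤ : Submodule B (B ⊗[A] ρ.V))).restrictScalars A :=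
    (Submodule.mkQ _).comp (TensorProduct.mk A B ρ.V 1)
  have hone : ∀ z : B ⊗[A] ρ.V, ∃ v : ρ.V, (1 : B) ⊗ₜ[A] v = z := by
    intro z
    induction z using TensorProduct.induction_on with
    | zero => exact ⟨0, TensorProduct.tmul_zero _ _⟩
    | tmul b v =>
      obtain ⟨a, rfl⟩ := hs b
      refine ⟨a • v, ?_⟩
      rw [← TensorProduct.smul_tmul, Algebra.smul_def, mul_one]
      rfl
    | add x y hx hy =>
      obtain ⟨u, rfl⟩ := hx
      obtain ⟨w, rfl⟩ := hy
      exact ⟨u + w, TensorProduct.tmul_add _ _ _⟩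
  have hgJ : J • (⊤ : Submodule A ρ.V) ≤ LinearMap.ker g := by
    refine Submodule.smul_le.2 fun a ha v _ => ?_
    simp only [g, LinearMap.mem_ker, LinearMap.comp_apply, TensorProduct.mk_apply,
      Submodule.mkQ_apply, Submodule.Quotient.mk_eq_zero, Submodule.restrictScalars_mem]
    rw [← TensorProduct.smul_tmul, Algebra.smul_def, mul_one]
    rw [show (algebraMap A B a) ⊗ₜ[A] v = (φ a : B) • ((1 : B) ⊗ₜ[A] v) from by
      rw [TensorProduct.smul_tmul', smul_eq_mul, mul_one]; rfl]
    exact Submodule.smul_mem_smul ha Submodule.mem_top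
  let g' := Submodule.liftQ _ g hgJ
  have hsurj : Function.Surjective g' := by
    intro z
    obtain ⟨z, rfl⟩ := Submodule.Quotient.mk_surjective _ z
    obtain ⟨v, rfl⟩ := hone z
    exact ⟨Submodule.Quotient.mk v, rfl⟩
  have hinj : Function.Injective g' := by
    rw [← LinearMap.ker_eq_bot, Submodule.ker_liftQ_eq_bot']
    refine le_antisymm hgJ fun v hv => ?_
    simp only [g, LinearMap.mem_ker, LinearMap.comp_apply, TensorProduct.mk_apply,
      Submodule.mkQ_apply, Submodule.Quotient.mk_eq_zero, Submodule.restrictScalars_mem] at hv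
    let b := Module.Free.chooseBasis A ρ.V
    have hrepr : ∀ i, b.repr v i ∈ J := fun i => by
      have h1 : ∀ z ∈ I • (⊤ : Submodule B (B ⊗[A] ρ.V)), (b.baseChange B).repr z i ∈ I := by
        intro z hz
        refine Submodule.smul_induction_on hz (fun c hc w _ => ?_) fun x y hx hy => ?_
        · rw [map_smul, Finsupp.smul_apply, smul_eq_mul]
          exact I.mul_mem_right _ hc
        · rw [map_add, Finsupp.add_apply]; exact add_mem hx hy
      have h2 := h1 _ hv
      rw [Module.Basis.baseChange_repr_tmul, Algebra.smul_def, mul_one] at h2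
      exact h2
    rw [← b.linearCombination_repr v, Finsupp.linearCombination_apply]
    exact Submodule.sum_mem _ fun i _ => Submodule.smul_mem_smul (hrepr i) Submodule.mem_top
  let e' : (ρ.V ⧸ J • (⊤ : Submodule A ρ.V)) ≃ ((B ⊗[A] ρ.V) ⧸ I • (⊤ : Submodule B (B ⊗[A] ρ.V))) :=
    (Equiv.ofBijective g' ⟨hinj, hsurj⟩).trans (Equiv.refl _)
  refine ⟨H, inferInstance, inferInstance, hfin, hflat, hco, e.trans e', fun f g₂ => ?_,
    fun σ f g₂ hfg => ?_⟩
  · show g' (e (f * g₂)) = g' (e f) + g' (e g₂)
    rw [hmul, map_add]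
  · show g' (e g₂) = _
    rw [hgal σ f g₂ hfg]
    obtain ⟨v, hv⟩ := Submodule.Quotient.mk_surjective _ (e f)
    show g' (ρ.levelAction J σ (e f)) = (ρ.baseChangeAlong φ hφ).levelAction I σ (g' (e f))
    rw [← hv]
    rfl

/-- Flatness at `p`. -/
def flatType (p : ℕ) : LocalType where
  cond ρ := ρ.IsFlatAt p
  baseChange φ hφ ρ hs h := isFlatAt_baseChangeAlong p φ hφ ρ hs h

end FLTAgent.Lower
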