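import Fermat.Agent.Lower.LevelSystem
import Fermat.Agent.Lower.Iface.Point
import Fermat.Agent.Lower.Levels.TraceRep
import Fermat.Agent.Lower.Lift.Iface.MinimalLevels
import Fermat.Agent.Lower.Lift.Iface.TWPrimes
import Fermat.Agent.Reps.Coeff

/-!
# Level lowering at a scalar prime

`exists_prime_unramified_base`: levels at all sets of auxiliary primes give, by patching, a prime
of the base Hecke ring over zero at which the representation is unramified at `q`.
`exists_system_div`: hence, for squarefree `M` and the residual hypotheses `GoodResidual`, the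
residual representation also occurs in level `M / q`.
-/

set_option autoImplicit false
set_option linter.style.haveILetI false
set_option linter.unusedSectionVars false

noncomputable section

namespace FLTAgent.Lower.Lift

open IsLocalRing (ResidueField maximalIdeal)
open scoped Pointwise
open FLTAgent.Lower

local notation "ℚ̄" => AlgebraicClosure ℚ
local notation "Γℚ" => (AlgebraicClosure ℚ ≃ₐ[ℚ] AlgebraicClosure ℚ)

variable {O : Type} [CommRing O] [IsDomain O] [IsDiscreteValuationRing O]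
  [IsAdicComplete (maximalIdeal O) O] [Finite (ResidueField O)] [CharZero O]

/-- The trace of a residually given representation reduces to the residual trace. -/
theorem residue_trace_of_equiv {T : Type} [CommRing T] [IsLocalRing T] {k : Type} [Field k]
    (ρ : GaloisRepAdic T) (ρbar : ResidualGaloisRep k) (i : k →+* ResidueField T)
    (he : ρ.residual.IsEquiv (ρbar.baseChangeAlong i)) (τ : Γℚ) :
    IsLocalRing.residue T (ρ.trace τ) = i (LinearMap.trace k ρbar.V (ρbar.ρ τ)) := by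
  let c₀ := Module.finBasisOfFinrankEq k ρbar.V ρbar.finrank_eq
  obtain ⟨b, hb⟩ := exists_basis_residual ρ ρbar c₀ i he
  have h := congrArg Matrix.trace (hb τ)
  rw [← trace_matHom ρ b τ, LinearMap.trace_eq_matrix_trace k c₀]
  simp only [Matrix.trace_fin_two, RingHom.mapMatrix_apply, Matrix.map_apply] at h
  simp only [Matrix.trace_fin_two, map_add, LinearMap.toMatrix_apply]
  rw [h]
  rfl

/-- A representation with trivial inertia at one place over `l` is unramified at `l`. -/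
theorem isUnramifiedAt_of_place {T : Type} [CommRing T] [IsLocalRing T] (ρ : GaloisRepAdic T)
    {l : ℕ} (hl : l.Prime) {A : ValuationSubring ℚ̄} (hA : A.LiesOverPrime l)
    (h : ∀ τ ∈ A.inertiaSubgroupIn ℚ, ρ.ρ τ = 1) : ρ.IsUnramifiedAt l := by
  intro A' hA' σ hσ
  obtain ⟨g, rfl⟩ := GalCommon.exists_smul_eq_of_liesOverPrime hl hA hA'
  have h1 := GalCommon.mem_inertia_conj hσ g⁻¹
  rw [← mul_smul, inv_mul_cancel, one_smul, inv_inv] at h1
  calc ρ.ρ σ = ρ.ρ (g * (g⁻¹ * σ * g) * g⁻¹) := by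
        congr 1
        group
    _ = 1 := by rw [map_mul, map_mul, h _ h1, mul_one, ← map_mul, mul_inv_cancel, map_one]

/-- The entries vanishing make the representation unramified. -/
theorem eq_one_of_six {T : Type} [CommRing T] [IsDomain T] [IsLocalRing T]
    (h2 : IsUnit (2 : T)) {S : Matrix (Fin 2) (Fin 2) T} (hdet : S.det = 1)
    (hm : S 0 0 - 1 ∈ maximalIdeal T) (ha : S 0 0 - S 1 1 = 0) (hb : S 0 1 = 0) (hc : S 1 0 = 0) :
    S = 1 := by
  rw [Matrix.det_fin_two, hb, hc, mul_zero, sub_zero, ← sub_eq_zero.1 ha] at hdet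
  have h00 : S 0 0 = 1 := by
    rcases mul_self_eq_one_iff.1 hdet with h | h
    · exact h
    · refine absurd h2.neg ((IsLocalRing.mem_maximalIdeal _).1 ?_)
      rwa [h, show (-1 : T) - 1 = -2 by norm_num] at hm
  ext i j
  fin_cases i <;> fin_cases j <;>
    simp [hb, hc, h00, ← sub_eq_zero.1 ha]

/-- A base with all levels gives a prime of the base over zero at which `q` is unramified. -/
theorem exists_prime_unramified_base {p : ℕ} [Fact p.Prime] (hp2 : p ≠ 2)
    (hp : (p : O) ∈ maximalIdeal O) {hO : O} (hh : 2 * hO = 1) {M : ℕ} [NeZero M]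
    {Smin Saux : Finset ℕ} (hM : Saux ⊆ M.primeFactors)
    {ρbar : ResidualGaloisRep (ResidueField O)} (hgood : GoodResidual p Smin Saux ρbar)
    {loc : LocalType} (hloc : loc = flatType p ∨ loc = ordType p)
    (B : Base p M ρbar)
    (hB : ∀ q ∈ Saux, ∀ A : ValuationSubring ℚ̄, A.LiesOverPrime q →
      ∀ σ₀ : Γℚ, IsInertiaGen p q A σ₀ → ∀ (n r : ℕ) (Qv : Fin r → ℕ), Function.Injective Qv →
        (∀ i, IsTWPrime p n ρbar (Qv i) ∧ ¬ Qv i ∣ M ∧ Qv i ≠ p) →
          Nonempty (Level loc Smin Saux B q A σ₀ n Qv))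
    {q : ℕ} (hq : q ∈ Saux) (b₀ : Module.Basis (Fin 2) B.T₀ B.H.ρ.V) :
    ∃ (P₀ : Place p q) (Q : Ideal B.T₀), Q.IsPrime ∧ Q.comap (algebraMap O B.T₀) = ⊥ ∧
      ∀ v, baseEntries hO B b₀ P₀ v ∈ Q := by
  classical
  have hpp : p.Prime := Fact.out
  have hodd : Odd p := hpp.odd_of_ne_two hp2
  obtain ⟨ϖ, hϖ⟩ := IsDiscreteValuationRing.exists_irreducible O
  haveI : CharP (ResidueField O) p := (CharP.charP_iff_prime_eq_zero hpp).2 (by
    rw [← map_natCast (IsLocalRing.residue O), IsLocalRing.residue_eq_zero_iff]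
    exact hp)
  have hne : ∀ l ∈ Saux, l.Prime ∧ l ≠ p ∧ p ∣ l - 1 := fun l hl =>
    ⟨(hgood.aux_prime l hl).1, (hgood.aux_prime l hl).2.1, hgood.one_mod l hl⟩
  let P : ∀ l, l ∈ Saux → Place p l := fun l hl =>
    Classical.choice (nonempty_place hpp (hne l hl).1 (hne l hl).2.1 (hne l hl).2.2)
  let Af : ℕ → ValuationSubring ℚ̄ := fun l => if h : l ∈ Saux then (P l h).A else (P q hq).A
  have hAf : ∀ l (h : l ∈ Saux), Af l = (P l h).A := fun l h => dif_pos h
  -- the places, `q` first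
  let e := (Saux.erase q).equivFin
  let ls : Fin ((Saux.erase q).card + 1) → ℕ := Fin.cons q fun j => (e.symm j).1
  have hls : ∀ j, ls j ∈ Saux := Fin.cases hq fun j => Finset.mem_of_mem_erase (e.symm j).2
  have hls0 : ∀ j : Fin (Saux.erase q).card, ls j.succ ≠ ls 0 := fun j =>
    Finset.ne_of_mem_erase (e.symm j).2
  have hsurj : ∀ l ∈ Saux, ∃ j, ls j = l := fun l hl => by
    by_cases h : l = q
    · exact ⟨0, h.symm⟩
    · exact ⟨(e ⟨l, Finset.mem_erase.2 ⟨h, hl⟩⟩).succ, by simp [ls]⟩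
  let Pl : ∀ j, Place p (ls j) := fun j => P (ls j) (hls j)
  -- auxiliary primes
  obtain ⟨r, gf, go, gb, hgf, hgo, -, hTW⟩ := exists_twPrimes_three hp2 Smin Saux hgood.aux_prime
    ρbar ⟨hgood.absIrr, hgood.det, hgood.split, hgood.big, hgood.min_prime, hgood.ramified,
      hgood.unipotent, hgood.unramified⟩ Af
    (fun l hl => hAf l hl ▸ (P l hl).liesOver) (insert p M.primeFactors)
  have hsum : ∑ l ∈ Saux, placeWeight ρbar (Af l) = 3 * ((Saux.erase q).card + 1) := by
    rw [Finset.sum_congr rfl fun l hl => show placeWeight ρbar (Af l) = 3 from if_pos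
      (hgood.scalar l hl _ (hAf l hl ▸ (P l hl).liesOver)), Finset.sum_const, smul_eq_mul,
      Finset.card_erase_add_one hq, mul_comm]
  obtain ⟨g, hgr, hdet⟩ : ∃ g, g + 3 * ((Saux.erase q).card + 1) ≤ r ∧ ∀ n, ∃ Qv : Fin r → ℕ,
      Function.Injective Qv ∧
      (∀ i, IsTWPrime p n ρbar (Qv i) ∧ ¬ Qv i ∣ M ∧ Qv i ≠ p) ∧
      ∃ σ : Fin g → Γℚ, Detects loc p Smin Saux ρbar Af Qv σ := by
    have hQ : ∀ n (Qv : Fin r → ℕ),
        (∀ i, IsTWPrime p n ρbar (Qv i) ∧ Qv i ∉ insert p M.primeFactors ∧ Qv i ∉ Smin ∪ Saux) →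
        ∀ i, IsTWPrime p n ρbar (Qv i) ∧ ¬ Qv i ∣ M ∧ Qv i ≠ p := fun n Qv h i =>
      ⟨(h i).1, fun hd => (h i).2.1 (Finset.mem_insert_of_mem
        (Nat.mem_primeFactors.2 ⟨(h i).1.prime, hd, NeZero.ne M⟩)),
        fun he => (h i).2.1 (he ▸ Finset.mem_insert_self _ _)⟩
    rcases hloc with rfl | rfl
    · refine ⟨gf, hsum ▸ hgf, fun n => ?_⟩
      obtain ⟨Qv, hinj, h, hd, -, -⟩ := hTW n
      exact ⟨Qv, hinj, hQ n Qv h, hd⟩
    · refine ⟨go, hsum ▸ hgo, fun n => ?_⟩
      obtain ⟨Qv, hinj, h, -, hd, -⟩ := hTW n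
      exact ⟨Qv, hinj, hQ n Qv h, hd⟩
  refine ⟨Pl 0, ?_⟩
  have h4 : IsUnit (4 : O) := IsUnit.of_mul_eq_one (hO ^ 2) (by
    linear_combination (2 * hO + 1) * hh)
  have hlq : (ls 0).Prime ∧ ls 0 ≠ p ∧ p ∣ ls 0 - 1 := hne _ (hls 0)
  refine exists_prime_of_approx (r := r) (g := g) (k := (Saux.erase q).card)
    (constsOf ϖ hO (ls 0)) hϖ ?_ ?_ ?_ h4 hgr B.d_ne_zero B.Φ _ fun n => ?_
  · intro e he
    obtain ⟨c, hc, rfl⟩ := List.mem_map.1 he
    obtain ⟨-, -, -, -, h1, h2⟩ := charRoots_spec hh hlq.1.two_le (Finset.mem_toList.1 hc)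
    exact ⟨h1, h2⟩
  · refine mul_ne_zero (mul_ne_zero two_ne_zero (sub_ne_zero.2 fun h => ?_))
      (Nat.cast_ne_zero.2 hlq.1.ne_zero)
    exact hlq.1.ne_one (Nat.cast_injective (h.symm.trans Nat.cast_one.symm))
  · have h1 := natCast_sub_one_mem hpp hp hlq
    rw [hϖ.maximalIdeal_eq, Ideal.mem_span_singleton] at h1
    exact dvd_pow (dvd_sub_comm.1 h1) two_ne_zero
  · obtain ⟨Qv, hinj, hQv, σ, hσ⟩ := hdet n
    obtain ⟨L⟩ := hB (ls 0) (hls 0) (Pl 0).A (Pl 0).liesOver (Pl 0).σ (Pl 0).gen n r Qv hinj hQv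
    refine approx_of_level hpp hodd hp hϖ hh B b₀ ls hls hls0 hgood Pl L σ
      fun ρ' he hc hs ht τ => hσ ρ' he hc (fun l hl => ?_) ht τ
    obtain ⟨j, rfl⟩ := hsurj l hl
    refine ⟨Module.finBasisOfFinrankEq _ _ ρ'.finrank_eq, fun τ' hτ' i i' => ?_⟩
    obtain ⟨c, hc'⟩ := hs j τ' (hAf _ hl ▸ hτ')
    rw [matHom_eq_smul_one hc', Matrix.smul_apply, smul_eq_mul, Matrix.one_apply]
    split <;> simp [TrivSqZeroExt.algebraMap_eq_inl]

/-- **Level lowering at a scalar prime.** -/
theorem exists_system_div {p : ℕ} [Fact p.Prime] (hp2 : p ≠ 2)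
    (hp : (p : O) ∈ maximalIdeal O) {M : ℕ} [NeZero M] (hM : Squarefree M)
    {Smin Saux : Finset ℕ} (hprimes : Smin ∪ Saux = M.primeFactors.erase p)
    (hroot : ∀ q ∈ Saux, ∃ c : O, IsPrimitiveRoot c (p ^ padicValNat p (q - 1)))
    {ρbar : ResidualGaloisRep (ResidueField O)} (hgood : GoodResidual p Smin Saux ρbar)
    {loc : LocalType} (hloc : LevelCase p M ρbar loc) (hsys : HasSystem p M ρbar)
    {q : ℕ} (hq : q ∈ Saux) [NeZero (M / q)] :
    ∃ (k' : Type) (_ : Field k') (j : ResidueField O →+* k')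
      (θ' : CuspForm.heckeAlgebra (M / q) 2 (↑(levelPrimes p M) : Set ℕ) →+* k'),
      ∀ (l : ℕ) (hl : l.Prime) (hlM : ¬ l ∣ M / q) (hlS : l ∉ (↑(levelPrimes p M) : Set ℕ))
        (A : ValuationSubring ℚ̄) (φ : Γℚ), A.LiesOverPrime l → A.IsFrobeniusAt φ l →
        θ' (CuspForm.heckeAlgebra.T hl hlM hlS) =
          j (LinearMap.trace (ResidueField O) ρbar.V (ρbar.ρ φ)) := by
  classical
  have hpp : p.Prime := Fact.out
  have hauxM : Saux ⊆ M.primeFactors := fun l hl =>
    (Finset.mem_erase.1 (hprimes ▸ Finset.mem_union_right _ hl)).2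
  obtain ⟨B, hB⟩ := exists_base_levels_general hp2 hp hM hprimes hroot ρbar hgood hloc hsys
  obtain ⟨hO, hh⟩ : ∃ hO : O, 2 * hO = 1 := by
    have h2 : IsUnit (2 : O) := by
      by_contra h
      obtain ⟨w, hw⟩ := hpp.odd_of_ne_two hp2
      have h1 : ((2 * w + 1 : ℕ) : O) - 2 * (w : O) ∈ maximalIdeal O :=
        sub_mem (hw ▸ hp) (Ideal.mul_mem_right _ _ ((IsLocalRing.mem_maximalIdeal _).2 h))
      push_cast at h1
      rw [add_sub_cancel_left] at h1
      exact (IsLocalRing.maximalIdeal.isMaximal O).ne_top ((Ideal.eq_top_iff_one _).2 h1)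
    obtain ⟨u, hu⟩ := h2.exists_right_inv
    exact ⟨u, hu⟩
  let b₀ := Module.finBasisOfFinrankEq B.T₀ B.H.ρ.V B.H.ρ.finrank_eq
  obtain ⟨P₀, Q, hQ, hQ0, hQt⟩ := exists_prime_unramified_base hp2 hp hh hauxM hgood
    (by cases hloc; exacts [Or.inl rfl, Or.inr rfl]) B hB hq b₀
  -- a point through `Q`
  haveI := hQ
  let D := B.T₀ ⧸ Q
  have hinjD : Function.Injective (algebraMap O D) := by
    rw [RingHom.injective_iff_ker_eq_bot, ← hQ0]
    ext x
    rw [RingHom.mem_ker, Ideal.mem_comap, ← Ideal.Quotient.eq_zero_iff_mem]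
    rfl
  have hfinD : RingHom.Finite (algebraMap O D) := RingHom.finite_algebraMap.mpr inferInstance
  obtain ⟨O', _, _, _, _, _, _, _, hfin', hloc', hinj', χ, hχ⟩ :=
    Reps.exists_dvr_extension (algebraMap O D) hinjD hfinD (RingHom.id O)
  haveI := hloc'
  let ψ : B.T₀ →ₐ[O] O' :=
    { χ.comp (Ideal.Quotient.mk Q) with
      commutes' := fun a => RingHom.congr_fun hχ a }
  have hψ : IsLocalHom (ψ : B.T₀ →+* O') := by
    refine ⟨fun x hx => ?_⟩
    by_contra hxu
    haveI : ((maximalIdeal O').comap (ψ : B.T₀ →+* O')).IsPrime := Ideal.IsPrime.comap _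
    haveI : Algebra.IsIntegral O B.T₀ := Algebra.IsIntegral.of_finite O B.T₀
    have hc : ((maximalIdeal O').comap (ψ : B.T₀ →+* O')).comap (algebraMap O B.T₀) =
        maximalIdeal O := by
      ext a
      simp only [Ideal.mem_comap, RingHom.coe_coe, AlgHom.commutes, IsLocalRing.mem_maximalIdeal,
        mem_nonunits_iff, isUnit_map_iff]
    haveI : (((maximalIdeal O').comap (ψ : B.T₀ →+* O')).comap (algebraMap O B.T₀)).IsMaximal :=
      hc ▸ inferInstance
    have hmax := IsLocalRing.eq_maximalIdeal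
      (Ideal.isMaximal_of_isIntegral_of_isMaximal_comap (R := O)
        ((maximalIdeal O').comap (ψ : B.T₀ →+* O')) inferInstance)
    have : x ∈ (maximalIdeal O').comap (ψ : B.T₀ →+* O') :=
      hmax ▸ (IsLocalRing.mem_maximalIdeal _).2 hxu
    exact (IsLocalRing.mem_maximalIdeal _).1 this hx
  haveI := hψ
  have hres : ∀ t, IsLocalRing.residue O' (ψ t) =
      ResidueField.map (ψ : B.T₀ →+* O') (IsLocalRing.residue B.T₀ t) := fun t => rfl
  have hjc : ∀ c : ResidueField O, ResidueField.map (ψ : B.T₀ →+* O')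
      (ResidueField.map (algebraMap O B.T₀) c) = ResidueField.map (algebraMap O O') c := by
    intro c
    obtain ⟨a, rfl⟩ := IsLocalRing.residue_surjective c
    rw [ResidueField.map_residue, ResidueField.map_residue, ResidueField.map_residue,
      RingHom.coe_coe, AlgHom.commutes]
  haveI : IsNoetherianRing O' := inferInstance
  have hp' : (p : O') ∈ maximalIdeal O' := by
    rw [← map_natCast (algebraMap O O')]
    exact map_nonunit (algebraMap O O') _ hp
  haveI : CharZero B.T₀ := charZero_of_injective_algebraMap (R := O) (A := B.T₀)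
    (fun a b h => by
      let v := Module.Free.chooseBasis O B.T₀
      obtain ⟨i₀⟩ := v.index_nonempty
      have h1 : (a • v i₀ : B.T₀) = b • v i₀ := by rw [Algebra.smul_def, Algebra.smul_def, h]
      simpa using congrArg (fun z => v.repr z i₀) h1)
  haveI : Finite (ResidueField B.T₀) :=
    Finite.of_surjective (ResidueField.map (algebraMap O B.T₀)) fun z => by
      obtain ⟨a, rfl⟩ := B.H.residue_surjective z
      exact ⟨IsLocalRing.residue O a, by simp [ResidueField.map_residue]⟩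
  have hdetT : B.H.ρ.DetIsCyclotomic p := Levels.detIsCyclotomic_of_attached (π := B.H.π)
    ⟨Finset.mem_insert_self _ _,
      fun l hl hlM => Finset.mem_insert_of_mem (Nat.mem_primeFactors.2 ⟨hl, hlM, NeZero.ne M⟩),
      Reps.natCast_mem_maximalIdeal hp, B.H.charpoly_frob⟩
  -- unramified at `q`
  have hqp : q.Prime ∧ q ≠ p ∧ q ∉ Smin := hgood.aux_prime q hq
  have hunr : (B.H.ρ.baseChangeAlong (ψ : B.T₀ →+* O') hψ).IsUnramifiedAt q := by
    refine isUnramifiedAt_of_place _ hqp.1 P₀.liesOver fun τ hτ => ?_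
    let ρ' := B.H.ρ.baseChangeAlong (ψ : B.T₀ →+* O') hψ
    let b' := basisBaseChange (ψ : B.T₀ →+* O') hψ B.H.ρ b₀
    have hm : ∀ τ ∈ P₀.A.inertiaSubgroupIn ℚ, ∀ i j,
        (matHom ρ' b' τ - 1) i j ∈ maximalIdeal O' := fun τ hτ i j => by
      have h1 := entries_sub_one_inertia B.residual_isEquiv b₀
        (hgood.unramified q hqp.1 hqp.2.2 hqp.2.1) P₀.liesOver τ hτ i j
      have h2 : (matHom ρ' b' τ - 1) i j = ψ ((matHom B.H.ρ b₀ τ - 1) i j) := by
        rw [Matrix.sub_apply, Matrix.sub_apply, map_sub, matHom_baseChange, RingHom.mapMatrix_apply,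
          Matrix.map_apply, RingHom.coe_coe]
        simp [Matrix.one_apply, apply_ite ψ]
      rw [h2]
      exact map_nonunit (ψ : B.T₀ →+* O') _ h1
    have hzero : ∀ v, ψ (baseEntries hO B b₀ P₀ v) = 0 := fun v => by
      show χ (Ideal.Quotient.mk Q _) = 0
      rw [Ideal.Quotient.eq_zero_iff_mem.2 (hQt v), map_zero]
    have h2' : IsUnit (2 : O') := by
      rw [← map_ofNat (algebraMap O O') 2]
      exact (IsUnit.of_mul_eq_one hO hh).map _
    have hh' : algebraMap O O' hO ≠ 0 := fun h => one_ne_zero (α := O') (by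
      rw [← map_one (algebraMap O O'), ← hh, map_mul, h, mul_zero])
    have hσ : matHom ρ' b' P₀.σ = 1 := by
      refine eq_one_of_six h2' ?_ (by simpa using hm _ P₀.gen.mem 0 0) ?_ ?_ ?_
      · rw [det_matHom]
        refine det_inertia hpp hqp.1 hqp.2.1 P₀.liesOver ?_ P₀.gen.mem
        exact detIsCyclotomic_baseChangeAlong _ hψ hdetT
      all_goals rw [matHom_baseChange]
      · refine (mul_eq_zero.1 ?_).resolve_left hh'
        have h0 := hzero 0
        simp only [baseEntries, placeSix, sixOf, Six.get] at h0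
        simpa [RingHom.mapMatrix_apply, map_mul, map_sub] using h0
      · simpa [baseEntries, placeSix, sixOf, Six.get, RingHom.mapMatrix_apply] using hzero 1
      · simpa [baseEntries, placeSix, sixOf, Six.get, RingHom.mapMatrix_apply] using hzero 2
    have h1 : matHom ρ' b' τ = (1 : O') • 1 := by
      rw [one_smul]
      refine eq_of_forall_mk fun n => ?_
      obtain ⟨m, hm'⟩ := (tame_at_level (b := b') P₀.tame hp' hm n).2.1 τ hτ
      have hσ1 : unitHom ρ' b' n P₀.σ = 1 := Units.ext (by rw [coe_unitHom, hσ, map_one]; rfl)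
      have hone : unitHom ρ' b' n τ = 1 := by
        rw [← hm']
        exact (congrArg (· ^ m) hσ1).trans (one_zpow m)
      rw [← coe_unitHom, hone, map_one]
      rfl
    simpa using eq_smul_one_of_matHom h1
  -- the system
  have hqM : q ∣ M := Nat.dvd_of_mem_primeFactors (hauxM hq)
  obtain ⟨K, _, _, i, χK, hχK⟩ := exists_eigensystem_div_of_unramified hpp hp
    (S := levelPrimes p M) (Finset.mem_insert_self _ _)
    (fun l hl hlM => Finset.mem_insert_of_mem (Nat.mem_primeFactors.2 ⟨hl, hlM, NeZero.ne M⟩))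
    B.H B.H.residual_absIrr hqp.1 hqp.2.1 hqM
    (fun h => hqp.1.not_isUnit (hM q ((sq q).symm ▸ h))) O' ψ hψ hunr
  have hi : Function.Injective i := by
    rw [RingHom.injective_iff_ker_eq_bot]
    by_contra hne
    haveI : (RingHom.ker i).IsPrime := RingHom.ker_isPrime i
    have hmax : RingHom.ker i = maximalIdeal O' :=
      IsLocalRing.eq_maximalIdeal (Ideal.IsPrime.isMaximal inferInstance hne)
    have hp0 : (p : K) = 0 := by
      rw [← map_natCast i]; exact RingHom.mem_ker.1 (hmax ▸ hp')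
    exact hpp.ne_zero (Nat.cast_eq_zero.1 hp0)
  let H' := CuspForm.heckeAlgebra (M / q) 2 (↑(levelPrimes p M) : Set ℕ)
  have hdvd : M / q ∣ M := Nat.div_dvd_of_dvd hqM
  have hrange : ∀ t : H', χK t ∈ i.range := by
    rintro ⟨t, ht⟩
    induction ht using Algebra.adjoin_induction with
    | mem x hx =>
      rcases hx with ⟨l, hl, hlN, hlS, rfl⟩ | ⟨l, hlN, hl, hlS, rfl⟩
      · have hlM : ¬ l ∣ M := fun h => hlS (Finset.mem_coe.2 (Finset.mem_insert_of_mem
          (Nat.mem_primeFactors.2 ⟨hl, h, NeZero.ne M⟩)))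
        exact ⟨_, (hχK l hl hlM hlS).symm⟩
      · exact absurd (Finset.mem_coe.2 (Finset.mem_insert_of_mem
          (Nat.mem_primeFactors.2 ⟨hl, hlN.trans hdvd, NeZero.ne M⟩))) hlS
    | algebraMap r =>
      rw [show (⟨_, Subalgebra.algebraMap_mem _ r⟩ : H') = ((r : ℤ) : H') from
        Subtype.ext (by simp [eq_intCast]), map_intCast]
      exact intCast_mem _ r
    | add x y hx hy ihx ihy =>
      rw [show (⟨x + y, add_mem hx hy⟩ : H') = ⟨x, hx⟩ + ⟨y, hy⟩ from rfl, map_add]
      exact add_mem ihx ihy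
    | mul x y hx hy ihx ihy =>
      rw [show (⟨x * y, mul_mem hx hy⟩ : H') = ⟨x, hx⟩ * ⟨y, hy⟩ from rfl, map_mul]
      exact mul_mem ihx ihy
  let e : O' ≃+* i.range := RingEquiv.ofBijective i.rangeRestrict
    ⟨fun a b h => hi (congrArg Subtype.val h), i.rangeRestrict_surjective⟩
  refine ⟨ResidueField O', inferInstance, ResidueField.map (algebraMap O O'),
    (IsLocalRing.residue O').comp (e.symm.toRingHom.comp (χK.codRestrict _ hrange)),
    fun l hl hlN hlS A φ hA hφ => ?_⟩
  have hlM : ¬ l ∣ M := fun h => hlS (Finset.mem_coe.2 (Finset.mem_insert_of_mem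
    (Nat.mem_primeFactors.2 ⟨hl, h, NeZero.ne M⟩)))
  have he : e.symm (χK.codRestrict _ hrange (CuspForm.heckeAlgebra.T hl hlN hlS)) =
      ψ (B.H.π (CuspForm.heckeAlgebra.T hl hlM hlS)) :=
    e.symm_apply_eq.2 (Subtype.ext (hχK l hl hlM hlS))
  change IsLocalRing.residue O' (e.symm _) = _
  rw [he, hres, B.H.residue_π, hjc]
  refine congrArg _ ?_
  refine (ResidueField.map (algebraMap O B.T₀)).injective ?_
  rw [← residue_trace_of_equiv _ _ _ B.residual_isEquiv, ← B.H.residue_π]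
  refine congrArg _ ?_
  exact (Reps.trace_det_of_charpoly_eq B.H.ρ.finrank_eq
    (B.H.charpoly_frob l hl hlM hlS A hA φ hφ)).1.symm

end FLTAgent.Lower.Lift
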