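import Mathlib
import Fermat.Agent.Lower.Galois

/-!
# Bases and residual representations

`exists_lift_basis` lifts a basis along a surjection of local rings; `residual_isEquiv_of_matrix`
gives an equivalence from equal matrices (`resMat`); `exists_basis_residual` chooses a basis of an
adic representation whose matrices reduce to those of the given residual representation.
-/

set_option autoImplicit false
set_option linter.style.haveILetI false

noncomputable section

namespace FLTAgent.Lower

open IsLocalRing (maximalIdeal ResidueField)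
open scoped TensorProduct

local notation "ℚ̄" => AlgebraicClosure ℚ
local notation "Γℚ" => (AlgebraicClosure ℚ ≃ₐ[ℚ] AlgebraicClosure ℚ)

/-- A basis of a base change along a surjection of local rings lifts. -/
theorem exists_lift_basis {T B : Type} [CommRing T] [IsLocalRing T] [CommRing B] [IsLocalRing B]
    [Algebra T B] [IsLocalHom (algebraMap T B)] (hs : Function.Surjective (algebraMap T B))
    {V : Type} [AddCommGroup V] [Module T V] [Module.Free T V] [Module.Finite T V]
    (hr : Module.finrank T V = 2) (b' : Module.Basis (Fin 2) B (B ⊗[T] V)) :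
    ∃ b : Module.Basis (Fin 2) T V, ∀ j, (1 : B) ⊗ₜ[T] b j = b' j := by
  have hmk : ∀ z : B ⊗[T] V, ∃ v : V, (1 : B) ⊗ₜ[T] v = z := by
    intro z
    induction z using TensorProduct.induction_on with
    | zero => exact ⟨0, TensorProduct.tmul_zero _ _⟩
    | tmul c v =>
      obtain ⟨a, rfl⟩ := hs c
      exact ⟨a • v, by rw [← TensorProduct.smul_tmul, Algebra.smul_def, mul_one]⟩
    | add x y hx hy =>
      obtain ⟨u, rfl⟩ := hx
      obtain ⟨w, rfl⟩ := hy
      exact ⟨u + w, TensorProduct.tmul_add _ _ _⟩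
  choose v hv using fun j => hmk (b' j)
  have hspan : ⊤ ≤ Submodule.span T (Set.range v) := by
    refine Submodule.le_of_le_smul_of_le_jacobson_bot (Module.Finite.fg_top)
      (IsLocalRing.maximalIdeal_le_jacobson _) fun x _ => ?_
    have hcoef : ∀ j, ∃ a : T, algebraMap T B a = b'.repr ((1 : B) ⊗ₜ[T] x) j := fun j => hs _
    choose a ha using hcoef
    have h1 : (1 : B) ⊗ₜ[T] (x - ∑ j, a j • v j) = 0 := by
      rw [TensorProduct.tmul_sub, TensorProduct.tmul_sum, sub_eq_zero]
      conv_lhs => rw [← b'.sum_repr ((1 : B) ⊗ₜ[T] x)]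
      refine Finset.sum_congr rfl fun j _ => ?_
      rw [← ha, ← hv, algebraMap_smul, TensorProduct.tmul_smul]
    have hker : x - ∑ j, a j • v j ∈ maximalIdeal T • (⊤ : Submodule T V) := by
      let bV := Module.Free.chooseBasis T V
      haveI : Finite (Module.Free.ChooseBasisIndex T V) := inferInstance
      rw [← bV.linearCombination_repr (x - ∑ j, a j • v j), Finsupp.linearCombination_apply]
      refine Submodule.sum_mem _ fun i _ => Submodule.smul_mem_smul ?_ Submodule.mem_top
      have h2 := congrArg (fun z => (bV.baseChange B).repr z i) h1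
      simp only [Module.Basis.baseChange_repr_tmul, map_zero, Finsupp.zero_apply, Algebra.smul_def,
        mul_one] at h2
      rw [IsLocalRing.mem_maximalIdeal, mem_nonunits_iff]
      intro hu
      exact not_isUnit_zero (h2 ▸ hu.map (algebraMap T B))
    refine Submodule.mem_sup.2 ⟨∑ j, a j • v j, Submodule.sum_mem _ fun j _ =>
      Submodule.smul_mem _ _ (Submodule.subset_span ⟨j, rfl⟩), _, hker, by abel⟩
  have hcard : Fintype.card (Fin 2) = Module.finrank T V := by rw [hr, Fintype.card_fin]
  refine ⟨basisOfTopLeSpanOfCardEqFinrank v hspan hcard, fun j => ?_⟩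
  rw [coe_basisOfTopLeSpanOfCardEqFinrank, hv]

variable {k : Type} [Field k]

/-- Equal matrices give equivalent residual representations. -/
theorem residual_isEquiv_of_matrix (ρ₁ ρ₂ : ResidualGaloisRep k) (b₁ : Module.Basis (Fin 2) k ρ₁.V)
    (b₂ : Module.Basis (Fin 2) k ρ₂.V)
    (h : ∀ τ i j, b₁.repr (ρ₁.ρ τ (b₁ j)) i = b₂.repr (ρ₂.ρ τ (b₂ j)) i) : ρ₁.IsEquiv ρ₂ := by
  refine ⟨⟨b₁.equiv b₂ (Equiv.refl _), fun τ x => ?_⟩⟩
  suffices h1 : (b₁.equiv b₂ (Equiv.refl _)).toLinearMap ∘ₗ ρ₁.ρ τ =
      ρ₂.ρ τ ∘ₗ (b₁.equiv b₂ (Equiv.refl _)).toLinearMap from LinearMap.congr_fun h1 x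
  refine b₁.ext fun j => ?_
  simp only [LinearMap.comp_apply, LinearEquiv.coe_coe, Module.Basis.equiv_apply,
    Equiv.refl_apply]
  rw [← b₁.sum_repr (ρ₁.ρ τ (b₁ j)), map_sum, ← b₂.sum_repr (ρ₂.ρ τ (b₂ j))]
  refine Finset.sum_congr rfl fun i _ => ?_
  rw [map_smul, Module.Basis.equiv_apply, Equiv.refl_apply, h]

/-- The matrices of a residual representation. -/
def resMat (ρ : ResidualGaloisRep k) (b : Module.Basis (Fin 2) k ρ.V) (τ : Γℚ) :
    Matrix (Fin 2) (Fin 2) k :=
  Matrix.of fun i j => b.repr (ρ.ρ τ (b j)) i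

/-- A basis lifting a residual equivalence. -/
theorem exists_basis_residual {T : Type} [CommRing T] [IsLocalRing T] (ρ : GaloisRepAdic T)
    (ρbar : ResidualGaloisRep k) (c₀ : Module.Basis (Fin 2) k ρbar.V)
    (i : k →+* ResidueField T) (he : ρ.residual.IsEquiv (ρbar.baseChangeAlong i)) :
    ∃ b : Module.Basis (Fin 2) T ρ.V, ∀ τ,
      (IsLocalRing.residue T).mapMatrix (matHom ρ b τ) = i.mapMatrix (resMat ρbar c₀ τ) := by
  obtain ⟨e⟩ := he
  letI : Algebra k (ResidueField T) := i.toAlgebra
  let b' : Module.Basis (Fin 2) (ResidueField T) (ResidueField T ⊗[T] ρ.V) :=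
    (c₀.baseChange (ResidueField T)).map e.toLinearEquiv.symm
  haveI : IsLocalHom (algebraMap T (ResidueField T)) :=
    IsLocalHom.of_surjective _ IsLocalRing.residue_surjective
  obtain ⟨b, hb⟩ := exists_lift_basis (T := T) (B := ResidueField T)
    IsLocalRing.residue_surjective ρ.finrank_eq b'
  refine ⟨b, fun τ => ?_⟩
  ext r s
  rw [RingHom.mapMatrix_apply, RingHom.mapMatrix_apply, Matrix.map_apply, Matrix.map_apply,
    matHom_apply, resMat, Matrix.of_apply]
  have hrepr : ∀ (v : ρ.V) (r : Fin 2),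
      b'.repr ((1 : ResidueField T) ⊗ₜ[T] v) r = IsLocalRing.residue T (b.repr v r) := fun v r => by
    conv_lhs => rw [← b.sum_repr v]
    rw [TensorProduct.tmul_sum, map_sum, Finsupp.finsetSum_apply]
    have h2 : ∀ x : Fin 2, (1 : ResidueField T) ⊗ₜ[T] (b.repr v x • b x) =
        IsLocalRing.residue T (b.repr v x) • b' x := fun x => by
      rw [TensorProduct.tmul_smul, hb, algebra_compatible_smul (ResidueField T)]
      rfl
    simp only [h2, map_smul, Finsupp.smul_apply, Module.Basis.repr_self, Finsupp.single_apply,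
      smul_eq_mul, mul_ite, mul_one, mul_zero, Finset.sum_ite_eq', Finset.mem_univ, if_true]
  rw [← hrepr]
  have h1 : (1 : ResidueField T) ⊗ₜ[T] (ρ.ρ τ (b s)) =
      (ρ.residual.ρ τ) ((1 : ResidueField T) ⊗ₜ[T] b s) := rfl
  rw [h1, hb]
  change (c₀.baseChange (ResidueField T)).repr (e.toLinearEquiv (ρ.residual.ρ τ
    (e.toLinearEquiv.symm ((c₀.baseChange (ResidueField T)) s)))) r = _
  rw [e.map_apply]
  erw [LinearEquiv.apply_symm_apply]
  change (c₀.baseChange (ResidueField T)).repr
    (((ρbar.ρ τ).baseChange (ResidueField T)) ((c₀.baseChange (ResidueField T)) s)) r = _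
  rw [Module.Basis.baseChange_apply, LinearMap.baseChange_tmul,
    Module.Basis.baseChange_repr_tmul, Algebra.smul_def, mul_one]
  rfl

theorem resMat_of_scalar {ρbar : ResidualGaloisRep k} (b : Module.Basis (Fin 2) k ρbar.V)
    {τ : Γℚ} {c : k} (h : ρbar.ρ τ = c • 1) : resMat ρbar b τ = c • 1 := by
  ext i j
  rw [resMat, Matrix.of_apply, h, LinearMap.smul_apply, Module.End.one_apply, map_smul]
  simp [Matrix.one_apply, Finsupp.single_apply, eq_comm]

end FLTAgent.Lower
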