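import Mathlib

/-!
# A compactness lemma for congruence conditions

`exists_forall_of_congruence`: a decreasing sequence of conditions on finite tuples of elements of
an `I`-adically precomplete ring with finite quotients by the powers of `I`, each depending only
on the classes modulo the corresponding power and each satisfiable, has a common solution.
-/

set_option autoImplicit false

noncomputable section

namespace FLTAgent.Lower

variable {S : Type*} [CommRing S]

/-- A sequence of congruence conditions each of which is satisfiable is jointly satisfiable. -/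
theorem exists_forall_of_congruence (I : Ideal S) [IsPrecomplete I S]
    (hfin : ∀ n : ℕ, Finite (S ⧸ I ^ n)) {ι : Type*} [Finite ι] (C : ℕ → (ι → S) → Prop)
    (hdown : ∀ n x, C (n + 1) x → C n x)
    (hcongr : ∀ n x x', (∀ i, x i - x' i ∈ I ^ n) → C n x → C n x')
    (hne : ∀ n, ∃ x, C n x) : ∃ x, ∀ n, C n x := by
  classical
  have hdown' : ∀ {n m} x, n ≤ m → C m x → C n x := fun {n m} x hnm h => by
    induction hnm with
    | refl => exact h
    | step _ ih => exact ih (hdown _ _ h)
  let good : ℕ → (ι → S) → Prop := fun n x =>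
    ∀ m, n ≤ m → ∃ y, C m y ∧ ∀ i, y i - x i ∈ I ^ n
  have h0 : ∃ x, good 0 x := ⟨0, fun m _ => by
    obtain ⟨y, hy⟩ := hne m
    exact ⟨y, hy, fun i => by simp⟩⟩
  have hstep : ∀ n x, good n x → ∃ x', good (n + 1) x' ∧ ∀ i, x' i - x i ∈ I ^ n := by
    intro n x hx
    choose y hyC hy using fun m : {m // n + 1 ≤ m} => hx m.1 ((Nat.le_succ n).trans m.2)
    have := hfin (n + 1)
    have : Infinite {m : ℕ // n + 1 ≤ m} := Infinite.of_injective
      (fun m => (⟨n + 1 + m, by omega⟩ : {m : ℕ // n + 1 ≤ m})) fun a b h => by simpa using h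
    obtain ⟨c, hc⟩ := Finite.exists_infinite_fiber
      (fun m : {m // n + 1 ≤ m} => fun i => Ideal.Quotient.mk (I ^ (n + 1)) (y m i))
    obtain ⟨m₀⟩ := hc.nonempty
    refine ⟨y m₀.1, fun m hm => ?_, hy _⟩
    obtain ⟨m₁, hm₁⟩ : ∃ m₁ : {m' // n + 1 ≤ m'},
        (fun i => Ideal.Quotient.mk (I ^ (n + 1)) (y m₁ i)) = c ∧ m ≤ m₁.1 := by
      by_contra hcon
      simp only [not_exists, not_and, not_le] at hcon
      exact Set.infinite_coe_iff.1 hc ((Set.finite_Iio m).preimage
        Subtype.val_injective.injOn |>.subset fun m' hm' => hcon m' hm')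
    refine ⟨y m₁, hdown' _ hm₁.2 (hyC m₁), fun i => ?_⟩
    rw [← Ideal.Quotient.mk_eq_mk_iff_sub_mem]
    exact congrFun (hm₁.1.trans m₀.2.symm) i
  choose g hg using hstep
  obtain ⟨x₀, hx₀⟩ := h0
  let z : ∀ n, {x // good n x} := fun n => Nat.rec ⟨x₀, hx₀⟩
    (fun n x => ⟨g n x.1 x.2, (hg n x.1 x.2).1⟩) n
  have hz : ∀ n i, (z (n + 1)).1 i - (z n).1 i ∈ I ^ n := fun n i =>
    (hg n (z n).1 (z n).2).2 i
  have hz' : ∀ {a b}, a ≤ b → ∀ i, (z b).1 i - (z a).1 i ∈ I ^ a := fun {a b} hab => by
    induction hab with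
    | refl => intro i; simp
    | step h ih =>
      intro i
      have := add_mem (Ideal.pow_le_pow_right h (hz _ i)) (ih i)
      rwa [sub_add_sub_cancel] at this
  have hlim : ∀ i, ∃ L : S, ∀ n, (z n).1 i - L ∈ I ^ n := fun i => by
    obtain ⟨L, hL⟩ := IsPrecomplete.prec (I := I) inferInstance (f := fun n => (z n).1 i)
      (fun {a b} hab => by
        rw [SModEq.sub_mem, smul_eq_mul, Ideal.mul_top, ← neg_mem_iff, neg_sub]
        exact hz' hab i)
    exact ⟨L, fun n => by simpa [SModEq.sub_mem, Ideal.mul_top] using hL n⟩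
  choose L hL using hlim
  refine ⟨L, fun n => ?_⟩
  obtain ⟨y, hyC, hy⟩ := (z n).2 n le_rfl
  exact hcongr n y L (fun i => by
    have := add_mem (hy i) (hL i n)
    rwa [sub_add_sub_cancel] at this) hyC

end FLTAgent.Lower
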