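import Mathlib
import Fermat.Agent.Lower.Algebra

/-!
# The algebraic core of the avoidance of Ihara's lemma

`exists_prime_unramified`: given two matrix actions congruent modulo the prime element `π` of a
parameter ring (`ParamRing`), one satisfying at a place the relations of nontrivial characters
(`CharRels`), the other those of the trivial character, there is over every prime of `S` a prime
of the second action at which the place is unramified.  Idea: `exists_prime_special` finds such a
prime over `(π)` for the first action by counting dimensions (`false_of_two`), and the congruence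
moves it to the second.
-/

set_option autoImplicit false
set_option linter.style.haveILetI false
set_option linter.unusedSectionVars false

noncomputable section

namespace FLTAgent.Lower

open IsLocalRing (maximalIdeal)
open scoped Matrix

/-- The parameter data of `S`: `π`, parameters and a chain of primes from `(π)` to the top. -/
structure ParamRing (S : Type*) [CommRing S] [IsLocalRing S] (r : ℕ) where
  π : S
  π_prime : Prime π
  y : Fin r → S
  gen : maximalIdeal S ≤ Ideal.span (insert π (Set.range y))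
  p : Fin (r + 1) → Ideal S
  p_prime : ∀ j, (p j).IsPrime
  p_mono : StrictMono p
  p_zero : p 0 = Ideal.span {π}
  p_last : p (Fin.last r) = maximalIdeal S

variable {S : Type*} [CommRing S] [IsDomain S] [IsNoetherianRing S] [IsLocalRing S]
  {r : ℕ} (PR : ParamRing S r)
  {P : Type*} [CommRing P] [Algebra S P]
  {d : ℕ} (φc φ₁ : P →ₐ[S] Matrix (Fin d) (Fin d) S)
  {g k : ℕ} (x : Fin g → P) (pl : Fin k → Six P) (s₀ : Six P)

/-- The generators. -/
def gens : Set P := Set.range x ∪ s₀.toSet ∪ ⋃ j, (pl j).toSet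

/-- The relations of the action with nontrivial characters at the place `s₀`; `es` lists the
possible halves of differences of the eigenvalues. -/
structure CharRels (es : List S) (N' : ℕ) : Prop where
  nil : ∀ v ∈ gens x pl s₀, ∃ n : ℕ, ∀ i j, φc (v ^ n) i j ∈ maximalIdeal S
  ysq : ∀ i, ∃ z ∈ Ideal.span (insert (algebraMap S P PR.π) (gens x pl s₀)),
    ∀ a b, PR.π ∣ φc (algebraMap S P (PR.y i) ^ 2 - z) a b
  quad : φc (es.map fun e => s₀.a ^ 2 + s₀.b * s₀.c - algebraMap S P (e ^ 2)).prod = 0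
  minor₁ : φc ((s₀.b * s₀.C - s₀.c * s₀.B) ^ N') = 0
  minor₂ : φc ((s₀.a * s₀.B - s₀.b * s₀.A) ^ N') = 0
  minor₃ : φc ((s₀.c * s₀.A - s₀.a * s₀.C) ^ N') = 0
  quad' : ∀ l i j, PR.π ∣ φc ((pl l).a ^ 2 + (pl l).b * (pl l).c) i j
  minor₁' : ∀ l i j, PR.π ∣ φc ((pl l).b * (pl l).C - (pl l).c * (pl l).B) i j
  minor₂' : ∀ l i j, PR.π ∣ φc ((pl l).a * (pl l).B - (pl l).b * (pl l).A) i j
  minor₃' : ∀ l i j, PR.π ∣ φc ((pl l).c * (pl l).A - (pl l).a * (pl l).C) i j

variable {PR φc φ₁ x pl s₀}

/-- Over a domain with kernel `(π)`, the place `s₀` cannot be controlled by two elements. -/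
theorem false_of_two {es : List S} {N' : ℕ} (hrel : CharRels PR φc x pl s₀ es N') (hr : g + 3 * (k + 1) ≤ r)
    {D : Type*} [CommRing D] [IsDomain D] [IsNoetherianRing D] [Algebra S D]
    [Algebra.IsIntegral S D] (h : P →ₐ[S] D) (hker : RingHom.ker φc ≤ RingHom.ker h)
    (h0 : RingHom.ker (algebraMap S D) = Ideal.span {PR.π}) (u v : D)
    (hu : u ∈ h '' s₀.toSet) (hv : v ∈ h '' s₀.toSet)
    (huv : ∀ w ∈ s₀.toSet, h w ∈ (Ideal.span {u, v}).radical) : False := by
  classical
  let m : Fin k → Six D := fun j => (pl j).map h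
  haveI : (RingHom.ker h).IsPrime := RingHom.ker_isPrime h
  have hzero : ∀ α : P, (∀ i j, PR.π ∣ φc α i j) → h α = 0 := fun α hα => by
    refine mem_of_entries φc (RingHom.ker h) hker (Ideal.span {PR.π}) (fun s hs => ?_)
      (fun i j => Ideal.mem_span_singleton.2 (hα i j))
    rw [← h0, RingHom.mem_ker] at hs
    simpa [RingHom.mem_ker] using hs
  let T : Fin k → Finset D := fun j =>
    if (m j).a = 0 ∧ (m j).b = 0 ∧ (m j).c = 0 then {(m j).A, (m j).B, (m j).C}
    else {(m j).b, (m j).C, (m j).c - (m j).B}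
  let L : Finset D := Finset.univ.image (fun i => h (x i)) ∪ Finset.univ.biUnion T ∪ {u, v}
  have hT : ∀ j, (T j).card ≤ 3 := fun j => by
    simp only [T]; split <;> exact Finset.card_le_three
  have hcard : L.card < r := by
    have h1 := Finset.card_union_le (Finset.univ.image (fun i => h (x i)) ∪ Finset.univ.biUnion T)
      {u, v}
    have h2 := Finset.card_union_le (Finset.univ.image (fun i => h (x i))) (Finset.univ.biUnion T)
    have h3 : (Finset.univ.image (fun i => h (x i))).card ≤ g :=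
      Finset.card_image_le.trans (by simp)
    have h4 : (Finset.univ.biUnion T).card ≤ k * 3 :=
      (Finset.card_biUnion_le_card_mul _ _ 3 fun j _ => hT j).trans (by simp)
    have h5 : ({u, v} : Finset D).card ≤ 2 := Finset.card_le_two
    simp only [L]
    omega
  have hsub : ∀ w ∈ gens x pl s₀, h w ∈ (Ideal.span (L : Set D)).radical := by
    have hLm : ∀ w ∈ L, w ∈ (Ideal.span (L : Set D)).radical := fun w hw =>
      Ideal.le_radical (Ideal.subset_span hw)
    rintro w ((⟨i, rfl⟩ | hw) | hw)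
    · exact hLm _ (by simp [L])
    · exact Ideal.radical_mono (Ideal.span_mono (by simp [L, Set.insert_subset_iff])) (huv w hw)
    · obtain ⟨j, hj⟩ := Set.mem_iUnion.1 hw
      set I := (Ideal.span (L : Set D)).radical with hI
      have hrad : ∀ z : D, z ^ 2 ∈ I → z ∈ I := fun z hz => by
        rw [hI, ← Ideal.radical_idem]; exact ⟨2, hz⟩
      have hTL : ∀ z ∈ T j, z ∈ I := fun z hz => hLm z (by
        simp only [L, Finset.mem_union, Finset.mem_biUnion, Finset.mem_univ, true_and]
        exact Or.inl (Or.inr ⟨j, hz⟩))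
      have e1 : (m j).a ^ 2 + (m j).b * (m j).c = 0 := by
        simpa [m, Six.map] using hzero _ (hrel.quad' j)
      have e2 : (m j).b * (m j).C - (m j).c * (m j).B = 0 := by
        simpa [m, Six.map] using hzero _ (hrel.minor₁' j)
      have e3 : (m j).a * (m j).B - (m j).b * (m j).A = 0 := by
        simpa [m, Six.map] using hzero _ (hrel.minor₂' j)
      have e4 : (m j).c * (m j).A - (m j).a * (m j).C = 0 := by
        simpa [m, Six.map] using hzero _ (hrel.minor₃' j)
      have key : (m j).a ∈ I ∧ (m j).b ∈ I ∧ (m j).c ∈ I ∧ (m j).A ∈ I ∧ (m j).B ∈ I ∧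
          (m j).C ∈ I := by
        by_cases hz : (m j).a = 0 ∧ (m j).b = 0 ∧ (m j).c = 0
        · simp only [T, if_pos hz] at hTL
          simp only [Finset.mem_insert, Finset.mem_singleton, forall_eq_or_imp, forall_eq] at hTL
          exact ⟨hz.1 ▸ zero_mem _, hz.2.1 ▸ zero_mem _, hz.2.2 ▸ zero_mem _, hTL⟩
        · simp only [T, if_neg hz] at hTL
          simp only [Finset.mem_insert, Finset.mem_singleton, forall_eq_or_imp, forall_eq] at hTL
          obtain ⟨hb, hC, hcB⟩ := hTL
          have hn : (m j).A ^ 2 + (m j).B * (m j).C = 0 := by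
            by_cases ha : (m j).a = 0
            · rcases mul_eq_zero.1 (show (m j).b * (m j).c = 0 by linear_combination e1 -
                  (m j).a * ha) with hb0 | hc0
              · have hc : (m j).c ≠ 0 := fun hc => hz ⟨ha, hb0, hc⟩
                have hA : (m j).A = 0 := (mul_eq_zero.1 (show (m j).c * (m j).A = 0 by
                  linear_combination e4 + (m j).C * ha)).resolve_left hc
                have hB : (m j).B = 0 := (mul_eq_zero.1 (show (m j).c * (m j).B = 0 by
                  linear_combination (m j).C * hb0 - e2)).resolve_left hc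
                rw [hA, hB]; ring
              · have hbne : (m j).b ≠ 0 := fun hb0 => hz ⟨ha, hb0, hc0⟩
                have hA : (m j).A = 0 := (mul_eq_zero.1 (show (m j).b * (m j).A = 0 by
                  linear_combination (m j).B * ha - e3)).resolve_left hbne
                have hC' : (m j).C = 0 := (mul_eq_zero.1 (show (m j).b * (m j).C = 0 by
                  linear_combination e2 + (m j).B * hc0)).resolve_left hbne
                rw [hA, hC']; ring
            · refine (mul_eq_zero.1 (show (m j).a ^ 2 * ((m j).A ^ 2 + (m j).B * (m j).C) = 0 by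
                linear_combination (m j).A ^ 2 * e1 + (m j).a * (m j).C * e3 -
                  (m j).b * (m j).A * e4)).resolve_left (pow_ne_zero 2 ha)
          have hc : (m j).c ∈ I := hrad _ (by
            have : (m j).c ^ 2 = (m j).c * ((m j).c - (m j).B) + (m j).b * (m j).C := by
              linear_combination -e2
            rw [this]
            exact add_mem (Ideal.mul_mem_left _ _ hcB) (Ideal.mul_mem_right _ _ hb))
          have hB : (m j).B ∈ I := by simpa using sub_mem hc hcB
          refine ⟨hrad _ ?_, hb, hc, hrad _ ?_, hB, hC⟩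
          · rw [show (m j).a ^ 2 = -((m j).b * (m j).c) by linear_combination e1]
            exact neg_mem (Ideal.mul_mem_right _ _ hb)
          · rw [show (m j).A ^ 2 = -((m j).B * (m j).C) by linear_combination hn]
            exact neg_mem (Ideal.mul_mem_right _ _ hB)
      obtain ⟨k1, k2, k3, k4, k5, k6⟩ := key
      simp only [Six.toSet, Set.mem_insert_iff, Set.mem_singleton_iff] at hj
      rcases hj with rfl | rfl | rfl | rfl | rfl | rfl
      · exact k1
      · exact k2
      · exact k3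
      · exact k4
      · exact k5
      · exact k6
  refine false_of_small (D := D) PR.p PR.p_prime PR.p_mono PR.p_last (by rw [h0, PR.p_zero])
    _ PR.gen L hcard ?_ ?_
  · intro Q hQ hQm w hw
    have hgQ : ∀ z ∈ gens x pl s₀, h z ∈ Q := fun z hz => by
      obtain ⟨n, hn⟩ := hrel.nil z hz
      refine (Ideal.IsPrime.mem_of_pow_mem (I := Q.comap (h : P →+* D)) (Ideal.IsPrime.comap _) n
        (mem_of_entries φc (Q.comap (h : P →+* D)) (hker.trans fun a ha => ?_) (maximalIdeal S)
          (fun s hs => ?_) hn) :)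
      · simp only [RingHom.mem_ker] at ha
        simp [Ideal.mem_comap, ha]
      · rw [← hQm] at hs
        simpa [Ideal.mem_comap] using hs
    have hplQ : ∀ j, ∀ z ∈ (pl j).toSet, h z ∈ Q := fun j z hz =>
      hgQ z (Or.inr (Set.mem_iUnion.2 ⟨j, hz⟩))
    simp only [L, Finset.mem_union, Finset.mem_image, Finset.mem_univ, true_and,
      Finset.mem_biUnion, Finset.mem_insert, Finset.mem_singleton] at hw
    rcases hw with (⟨i, rfl⟩ | ⟨j, hj⟩) | rfl | rfl
    · exact hgQ _ (Or.inl (Or.inl ⟨i, rfl⟩))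
    · simp only [T] at hj
      split at hj <;>
        simp only [Finset.mem_insert, Finset.mem_singleton, m, Six.map] at hj <;>
        rcases hj with rfl | rfl | rfl <;>
        first
          | exact hplQ j _ (by simp [Six.toSet])
          | exact sub_mem (hplQ j _ (by simp [Six.toSet])) (hplQ j _ (by simp [Six.toSet]))
    · obtain ⟨z, hz, rfl⟩ := hu; exact hgQ _ (Or.inl (Or.inr hz))
    · obtain ⟨z, hz, rfl⟩ := hv; exact hgQ _ (Or.inl (Or.inr hz))
  · intro s hs
    rcases hs with rfl | ⟨i, rfl⟩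
    · have : algebraMap S D PR.π = 0 := by
        rw [← RingHom.mem_ker, h0]; exact Ideal.mem_span_singleton_self _
      rw [this]; exact zero_mem _
    · obtain ⟨z, hz, hyz⟩ := hrel.ysq i
      have h1 : h (algebraMap S P (PR.y i) ^ 2) = h z := by
        rw [← sub_eq_zero, ← map_sub]
        exact hzero _ hyz
      have h2 : h z ∈ (Ideal.span (L : Set D)).radical := by
        have := Ideal.mem_map_of_mem (h : P →+* D) hz
        rw [Ideal.map_span] at this
        refine Ideal.span_le.2 ?_ this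
        rintro _ ⟨w, rfl | hw, rfl⟩
        · have : (h : P →+* D) (algebraMap S P PR.π) = 0 := by
            simp only [RingHom.coe_coe, AlgHom.commutes]
            rw [← RingHom.mem_ker, h0]; exact Ideal.mem_span_singleton_self _
          rw [this]; exact zero_mem _
        · exact hsub w hw
      rw [← Ideal.radical_idem]
      refine ⟨2, ?_⟩
      rw [← h1, map_pow, AlgHom.commutes] at h2
      exact h2

/-- An element is integral if it is so both generically and after inverting `π`. -/
theorem isIntegral_quot {e : S} {u₀ : Sˣ} {N : ℕ} (he : e ^ 2 = u₀ * PR.π ^ N)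
    (α₀ : P) (hα₀ : α₀ ∉ RingHom.ker φc) (C₀ : Ideal P)
    (hC₀ : ∀ β, β ∈ C₀ ↔ β * α₀ ∈ RingHom.ker φc)
    {K : Type*} [Field K] [Algebra S K] (f : P →ₐ[S] K) (hf : RingHom.ker f = C₀)
    {u w : P} {s : S} (hs : ¬ PR.π ∣ s)
    (hw : algebraMap S P s * u - algebraMap S P (e ^ 2) * w ∈ C₀)
    (hE : algebraMap S K (e ^ 2) ≠ 0) : IsIntegral S (f u / algebraMap S K (e ^ 2)) := by
  classical
  let M' : Submodule S (Fin d → S) :=
    { carrier := {m | ∀ β ∈ C₀, φc β *ᵥ m = 0}
      add_mem' := fun {a b} ha hb β hβ => by rw [Matrix.mulVec_add, ha β hβ, hb β hβ, add_zero]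
      zero_mem' := fun β _ => Matrix.mulVec_zero _
      smul_mem' := fun c m hm β hβ => by rw [Matrix.mulVec_smul, hm β hβ, smul_zero] }
  have he0 : e ^ 2 ≠ 0 := by
    rw [he]; exact mul_ne_zero u₀.ne_zero (pow_ne_zero _ PR.π_prime.ne_zero)
  have hsc : ∀ (c : S) (v : Fin d → S), φc (algebraMap S P c) *ᵥ v = c • v := fun c v => by
    rw [AlgHom.commutes, Algebra.algebraMap_eq_smul_one, Matrix.smul_mulVec, Matrix.one_mulVec]
  have hdiv : ∀ m : M', ∃ m' : M', φc u *ᵥ (m : Fin d → S) = e ^ 2 • (m' : Fin d → S) := by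
    rintro ⟨m, hm⟩
    have h1 : s • (φc u *ᵥ m) = e ^ 2 • (φc w *ᵥ m) := by
      have := hm _ hw
      rw [map_sub, map_mul, map_mul, Matrix.sub_mulVec, ← Matrix.mulVec_mulVec,
        ← Matrix.mulVec_mulVec, hsc, hsc, sub_eq_zero] at this
      exact this
    have h2 : ∀ i, e ^ 2 ∣ (φc u *ᵥ m) i := fun i => by
      have h3 : PR.π ^ N ∣ s * (φc u *ᵥ m) i := by
        refine ⟨u₀ * (φc w *ᵥ m) i, ?_⟩
        have := congrFun h1 i
        simp only [Pi.smul_apply, smul_eq_mul] at this
        rw [this, he]; ring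
      rw [he, mul_comm]
      exact Units.mul_right_dvd.2 (PR.π_prime.pow_dvd_of_dvd_mul_left _ hs h3)
    choose m' hm' using h2
    have hu : φc u *ᵥ m = e ^ 2 • m' := funext fun i => by simp [hm' i]
    refine ⟨⟨m', fun β hβ => ?_⟩, hu⟩
    have : e ^ 2 • (φc β *ᵥ m') = 0 := by
      rw [← Matrix.mulVec_smul, ← hu, Matrix.mulVec_mulVec, ← map_mul]
      exact hm _ (C₀.mul_mem_right u hβ)
    exact (smul_eq_zero.1 this).resolve_left he0
  choose τ hτ using hdiv
  have hinj : ∀ {a b : M'}, e ^ 2 • (a : Fin d → S) = e ^ 2 • (b : Fin d → S) → a = b :=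
    fun h => Subtype.ext (smul_right_injective _ he0 h)
  let T : M' →ₗ[S] M' :=
    { toFun := τ
      map_add' := fun a b => hinj (by
        simp only [Submodule.coe_add, smul_add, ← hτ]
        rw [← Matrix.mulVec_add])
      map_smul' := fun c a => hinj (by
        simp only [SetLike.val_smul, RingHom.id_apply, smul_comm (e ^ 2) c, ← hτ]
        rw [← Matrix.mulVec_smul]) }
  obtain ⟨q, hq, hq0⟩ := LinearMap.exists_monic_and_aeval_eq_zero S T
  have hpow : ∀ (n : ℕ) (m : M'), φc (u ^ n) *ᵥ (m : Fin d → S) =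
      (e ^ 2) ^ n • ((T ^ n) m : Fin d → S) := by
    intro n
    induction n with
    | zero => intro m; simp
    | succ n ih =>
      intro m
      rw [pow_succ u, map_mul, ← Matrix.mulVec_mulVec, hτ, Matrix.mulVec_smul,
        show τ m = T m from rfl, ih, smul_smul, ← pow_succ']
      simp [pow_succ T n]
  let α : P := ∑ i ∈ Finset.range (q.natDegree + 1),
    algebraMap S P (q.coeff i * (e ^ 2) ^ (q.natDegree - i)) * u ^ i
  have hkill : ∀ m : M', φc α *ᵥ (m : Fin d → S) = 0 := by
    intro m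
    have h1 : φc α *ᵥ (m : Fin d → S) =
        (e ^ 2) ^ q.natDegree • ((Polynomial.aeval T q) m : Fin d → S) := by
      simp only [α, map_sum, Matrix.sum_mulVec, Polynomial.aeval_eq_sum_range,
        LinearMap.sum_apply, Submodule.coe_sum, Finset.smul_sum]
      refine Finset.sum_congr rfl fun i hi => ?_
      rw [map_mul, ← Matrix.mulVec_mulVec, hpow, hsc, LinearMap.smul_apply, SetLike.val_smul,
        smul_smul, smul_smul]
      congr 1
      rw [mul_assoc, ← pow_add, Nat.sub_add_cancel (Finset.mem_range_succ_iff.1 hi), mul_comm]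
    rw [h1, hq0]
    simp
  have hαC : α ∈ C₀ := (hC₀ α).2 (by
    rw [RingHom.mem_ker]
    refine Matrix.ext_of_mulVec_single fun i => ?_
    rw [map_mul, ← Matrix.mulVec_mulVec, Matrix.zero_mulVec]
    refine hkill ⟨φc α₀ *ᵥ Pi.single i 1, fun β hβ => ?_⟩
    rw [Matrix.mulVec_mulVec, ← map_mul, (hC₀ β).1 hβ |> RingHom.mem_ker.1, Matrix.zero_mulVec])
  refine ⟨q, hq, ?_⟩
  have h0 : f α = 0 := by rw [← RingHom.mem_ker, hf]; exact hαC
  set E := algebraMap S K (e ^ 2)
  have h1 : f α = E ^ q.natDegree * Polynomial.aeval (f u / E) q := by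
    simp only [α, map_sum, Polynomial.aeval_eq_sum_range, Finset.mul_sum]
    refine Finset.sum_congr rfl fun i hi => ?_
    rw [map_mul, AlgHom.commutes, map_mul, map_pow (algebraMap S K) (e ^ 2), map_pow f,
      Algebra.smul_def, div_pow, show algebraMap S K (e ^ 2) = E from rfl]
    have : E ^ q.natDegree = E ^ (q.natDegree - i) * E ^ i := by
      rw [← pow_add, Nat.sub_add_cancel (Finset.mem_range_succ_iff.1 hi)]
    rw [this]
    field_simp
  rw [h1, mul_eq_zero] at h0
  exact h0.resolve_left (pow_ne_zero _ hE)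

theorem exists_mem_of_list_prod_mem {R ι : Type*} [CommRing R] {C : Ideal R} [hC : C.IsPrime]
    (f : ι → R) : ∀ {l : List ι}, (l.map f).prod ∈ C → ∃ i ∈ l, f i ∈ C
  | [], h => absurd ((Ideal.eq_top_iff_one _).2 (by simpa using h)) hC.ne_top
  | i :: l, h => by
    rw [List.map_cons, List.prod_cons] at h
    rcases hC.mem_or_mem h with h | h
    · exact ⟨i, List.mem_cons_self, h⟩
    · obtain ⟨j, hj, hj'⟩ := exists_mem_of_list_prod_mem f h
      exact ⟨j, List.mem_cons_of_mem _ hj, hj'⟩

/-- A prime of `P` over `(π)` containing the kernel at which the place is unramified. -/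
theorem exists_prime_special {es : List S} {N' : ℕ} (hrel : CharRels PR φc x pl s₀ es N')
    (hr : g + 3 * (k + 1) ≤ r) (hd : d ≠ 0)
    (hes : ∀ e ∈ es, ∃ (u₀ : Sˣ) (N : ℕ), N ≠ 0 ∧ e ^ 2 = u₀ * PR.π ^ N) :
    ∃ Q : Ideal P, Q.IsPrime ∧ RingHom.ker φc ≤ Q ∧
      Q.comap (algebraMap S P) = Ideal.span {PR.π} ∧ s₀.a ∈ Q ∧ s₀.b ∈ Q ∧ s₀.c ∈ Q := by
  classical
  haveI : Nonempty (Fin d) := ⟨⟨0, Nat.pos_of_ne_zero hd⟩⟩
  haveI : (Ideal.span {PR.π}).IsPrime :=
    (Ideal.span_singleton_prime PR.π_prime.ne_zero).2 PR.π_prime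
  haveI := moduleFinite_quot_ker φc
  haveI : IsNoetherianRing (P ⧸ RingHom.ker φc) := IsNoetherianRing.of_finite S _
  haveI : Nontrivial (P ⧸ RingHom.ker φc) := Ideal.Quotient.nontrivial_iff.2 fun h => by
    have h1 : φc 1 = 0 := RingHom.mem_ker.1 (h ▸ Submodule.mem_top)
    rw [map_one] at h1
    exact one_ne_zero h1
  -- an associated prime
  obtain ⟨C₀, hC₀mem⟩ := associatedPrimes.nonempty (P ⧸ RingHom.ker φc) (P ⧸ RingHom.ker φc)
  obtain ⟨hC₀prime, ā, hā⟩ := isAssociatedPrime_iff.1 hC₀mem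
  obtain ⟨α₀, rfl⟩ := Ideal.Quotient.mk_surjective ā
  let C : Ideal P := C₀.comap (Ideal.Quotient.mk _)
  haveI : C.IsPrime := Ideal.IsPrime.comap _
  have hC : ∀ β, β ∈ C ↔ β * α₀ ∈ RingHom.ker φc := fun β => by
    rw [Ideal.mem_comap, hā, Submodule.mem_colon_singleton, Submodule.mem_bot, smul_eq_mul,
      ← map_mul, Ideal.Quotient.eq_zero_iff_mem]
  have hα₀ : α₀ ∉ RingHom.ker φc := fun h =>
    (inferInstance : C.IsPrime).ne_top ((Ideal.eq_top_iff_one _).2 ((hC 1).2 (by simpa using h)))
  have hkC : RingHom.ker φc ≤ C := fun β hβ => (hC β).2 (Ideal.mul_mem_right _ _ hβ)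
  have hCS : ∀ s : S, algebraMap S P s ∈ C → s = 0 := fun s hs => by
    by_contra h
    refine hα₀ (RingHom.mem_ker.2 ?_)
    have := (hC _).1 hs
    rw [RingHom.mem_ker, map_mul, AlgHom.commutes, ← Algebra.smul_def] at this
    exact (smul_eq_zero.1 this).resolve_left h
  by_contra hno
  simp only [not_exists, not_and] at hno
  obtain ⟨e, hemem, he'⟩ := exists_mem_of_list_prod_mem (C := C) _ (hkC hrel.quad)
  obtain ⟨u₀, N, hN, he⟩ := hes e hemem
  have he0 : e ^ 2 ≠ 0 := by
    rw [he]; exact mul_ne_zero u₀.ne_zero (pow_ne_zero _ PR.π_prime.ne_zero)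
  obtain ⟨a, b, c, A, B, D⟩ := s₀
  have q1 : a ^ 2 + b * c - algebraMap S P (e ^ 2) ∈ C := he'
  have q2 : b * D - c * B ∈ C :=
    (inferInstance : C.IsPrime).mem_of_pow_mem N' (hkC hrel.minor₁)
  have q3 : a * B - b * A ∈ C :=
    (inferInstance : C.IsPrime).mem_of_pow_mem N' (hkC hrel.minor₂)
  have q4 : c * A - a * D ∈ C :=
    (inferInstance : C.IsPrime).mem_of_pow_mem N' (hkC hrel.minor₃)
  set u : P := a * A + b * D
  set E : P := algebraMap S P (e ^ 2)
  -- `e²` divides `u` away from `(π)`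
  obtain ⟨s, hs, w, hw⟩ : ∃ s : S, ¬ PR.π ∣ s ∧ ∃ w, algebraMap S P s * u - E * w ∈ C := by
    by_contra hcon
    simp only [not_exists, not_and] at hcon
    let J : Ideal P :=
      { carrier := {β | ∃ w, β * u - E * w ∈ C}
        add_mem' := by
          rintro β β' ⟨w, hw⟩ ⟨w', hw'⟩
          refine ⟨w + w', ?_⟩
          convert add_mem hw hw' using 1; ring
        zero_mem' := ⟨0, by simp⟩
        smul_mem' := by
          rintro γ β ⟨w, hw⟩
          refine ⟨γ * w, ?_⟩
          convert C.mul_mem_left γ hw using 1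
          simp only [smul_eq_mul]; ring }
    let M : Submonoid P := (Ideal.span {PR.π}).primeCompl.map (algebraMap S P)
    have hdisj : Disjoint (J : Set P) (M : Set P) := by
      rw [Set.disjoint_left]
      rintro _ ⟨w, hw⟩ ⟨s, hs, rfl⟩
      exact hcon s (fun h => hs (Ideal.mem_span_singleton.2 h)) w hw
    obtain ⟨Q, hQ, hJQ, hQM⟩ := Ideal.exists_le_prime_disjoint J M hdisj
    have hmem : ∀ {β : P} (w : P), β * u - E * w ∈ C → β ∈ Q := fun w h => hJQ ⟨w, h⟩
    have hEQ : E ∈ Q := hmem u (by simp)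
    have hcomap : Q.comap (algebraMap S P) = Ideal.span {PR.π} := by
      have hle : Q.comap (algebraMap S P) ≤ Ideal.span {PR.π} := fun s hs => by
        by_contra h
        exact Set.disjoint_left.1 hQM hs ⟨s, h, rfl⟩
      refine le_antisymm hle ((Ideal.span_singleton_le_iff_mem _).2 ?_)
      have hπN : u₀ * PR.π ^ N ∈ Q.comap (algebraMap S P) := by
        rw [← he]; exact hEQ
      exact (Ideal.IsPrime.comap (algebraMap S P)).mem_of_pow_mem N
        ((Ideal.unit_mul_mem_iff_mem _ u₀.isUnit).1 hπN)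
    refine hno Q hQ (hkC.trans fun β hβ => hmem 0 ?_) hcomap (hmem A ?_) (hmem B ?_) (hmem D ?_)
    · simpa using C.mul_mem_right u hβ
    · convert add_mem (C.mul_mem_left A q1) (C.mul_mem_left b (neg_mem q4)) using 1
      simp only [u]; ring
    · convert add_mem (C.mul_mem_left B q1) (add_mem (C.mul_mem_left a (neg_mem q3))
        (C.mul_mem_left b q2)) using 1
      simp only [u]; ring
    · convert add_mem (C.mul_mem_left D q1) (C.mul_mem_left a q4) using 1
      simp only [u]; ring
  -- the domain generated by the image and `u / e²`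
  let K := FractionRing (P ⧸ C)
  let f : P →ₐ[S] K := (IsScalarTower.toAlgHom S (P ⧸ C) K).comp (Ideal.Quotient.mkₐ S C)
  have hf : RingHom.ker f = C := by
    ext β
    rw [RingHom.mem_ker]
    change algebraMap (P ⧸ C) K (Ideal.Quotient.mk C β) = 0 ↔ _
    rw [map_eq_zero_iff _ (IsFractionRing.injective _ _), Ideal.Quotient.eq_zero_iff_mem]
  have hinjS : Function.Injective (algebraMap S K) := by
    rw [injective_iff_map_eq_zero]
    intro s hs
    refine hCS s ?_
    rw [← hf, RingHom.mem_ker, f.commutes]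
    exact hs
  have hE : algebraMap S K (e ^ 2) ≠ 0 := fun h => he0 (hinjS (by rw [h, map_zero]))
  set t := f u / algebraMap S K (e ^ 2)
  have hint : IsIntegral S t := isIntegral_quot he α₀ hα₀ C hC f hf hs hw hE
  have hfint : ∀ β, IsIntegral S (f β) := fun β => by
    have h1 : IsIntegral S (Ideal.Quotient.mk (RingHom.ker φc) β) := Algebra.IsIntegral.isIntegral _
    exact h1.map (Ideal.Quotient.liftₐ _ f fun x hx => by
      rw [← RingHom.mem_ker, hf]; exact hkC hx)
  let D' : Subalgebra S K := f.range ⊔ Algebra.adjoin S {t}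
  haveI hD'int : Algebra.IsIntegral S D' := ⟨fun z => by
    have : D' ≤ integralClosure S K := sup_le (by rintro _ ⟨β, rfl⟩; exact hfint β)
      (Algebra.adjoin_le (by
        rintro _ rfl
        exact hint))
    exact (isIntegral_algHom_iff D'.val Subtype.coe_injective).1 (this z.2)⟩
  haveI : IsNoetherianRing D' := by
    haveI : Module.Finite S f.range := by
      refine Module.Finite.of_surjective
        ((Ideal.Quotient.liftₐ (RingHom.ker φc) f.rangeRestrict fun x hx =>
          Subtype.ext (RingHom.mem_ker.1 (hf.ge (hkC hx)))).toLinearMap) ?_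
      rintro ⟨_, β, rfl⟩
      exact ⟨Ideal.Quotient.mk _ β, rfl⟩
    haveI : Module.Finite S (Algebra.adjoin S ({t} : Set K)) :=
      Module.Finite.iff_fg.2 hint.fg_adjoin_singleton
    haveI : Module.Finite S D' := Subalgebra.finite_sup _ _
    exact IsNoetherianRing.of_finite S D'
  obtain ⟨Q', -, hQ', hQ'c⟩ := Ideal.exists_ideal_over_prime_of_isIntegral
    (Ideal.span {PR.π}) (⊥ : Ideal D') (fun s hs => by
      have h0 : algebraMap S D' s = 0 := hs
      have : algebraMap S K s = 0 := congrArg Subtype.val h0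
      rw [hinjS (this.trans (map_zero _).symm)]
      exact zero_mem _)
  let t' : D' := ⟨t, le_sup_right (α := Subalgebra S K) (Algebra.self_mem_adjoin_singleton S t)⟩
  let f' : P →ₐ[S] D' := (Subalgebra.inclusion le_sup_left).comp f.rangeRestrict
  let h : P →ₐ[S] D' ⧸ Q' := (Ideal.Quotient.mkₐ S Q').comp f'
  have hCh : C ≤ RingHom.ker h := fun β hβ => by
    rw [RingHom.mem_ker]
    have : f' β = 0 := Subtype.ext (RingHom.mem_ker.1 (hf.ge hβ))
    simp [h, this]
  have hkh : RingHom.ker φc ≤ RingHom.ker h := hkC.trans hCh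
  have hmul : ∀ {z Z : P}, z * u - E * Z ∈ C → h Z = h z * Ideal.Quotient.mk Q' t' := by
    intro z Z hzZ
    have h1 : f' Z = f' z * t' := Subtype.ext <| by
      change f Z = f z * t
      have := RingHom.mem_ker.1 (hf.ge hzZ)
      simp only [map_sub, map_mul, E, f.commutes] at this
      change f Z = f z * (f u / algebraMap S K (e ^ 2))
      rw [mul_div_assoc', eq_div_iff hE]
      linear_combination -this
    simp [h, h1]
  have hA : h A = h a * Ideal.Quotient.mk Q' t' := hmul (by
    convert add_mem (C.mul_mem_left A q1) (C.mul_mem_left b (neg_mem q4)) using 1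
    simp only [u]; ring)
  have hB : h B = h b * Ideal.Quotient.mk Q' t' := hmul (by
    convert add_mem (C.mul_mem_left B q1) (add_mem (C.mul_mem_left a (neg_mem q3))
      (C.mul_mem_left b q2)) using 1
    simp only [u]; ring)
  have hD : h D = h c * Ideal.Quotient.mk Q' t' := hmul (by
    convert add_mem (C.mul_mem_left D q1) (C.mul_mem_left a q4) using 1
    simp only [u]; ring)
  haveI : Algebra.IsIntegral S (D' ⧸ Q') := ⟨fun z => by
    obtain ⟨z, rfl⟩ := Ideal.Quotient.mk_surjective z
    exact (Algebra.IsIntegral.isIntegral z).map (Ideal.Quotient.mkₐ S Q')⟩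
  have hk0 : RingHom.ker (algebraMap S (D' ⧸ Q')) = Ideal.span {PR.π} := by
    rw [← hQ'c]
    ext s
    rw [RingHom.mem_ker, Ideal.mem_comap, ← Ideal.Quotient.eq_zero_iff_mem]
    rfl
  refine false_of_two hrel hr h hkh hk0 (h b) (h c) ⟨b, by simp [Six.toSet], rfl⟩
    ⟨c, by simp [Six.toSet], rfl⟩ ?_
  set I := (Ideal.span {h b, h c}).radical with hI
  have hb : h b ∈ I := Ideal.le_radical (Ideal.subset_span (by simp))
  have hc : h c ∈ I := Ideal.le_radical (Ideal.subset_span (by simp))
  have hE0 : h E = 0 := by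
    rw [← RingHom.mem_ker]
    have : algebraMap S (D' ⧸ Q') (e ^ 2) = 0 := by
      rw [← RingHom.mem_ker, hk0, he, Ideal.mem_span_singleton]
      exact Dvd.dvd.mul_left (dvd_pow_self _ hN) _
    rw [RingHom.mem_ker, show E = algebraMap S P (e ^ 2) from rfl, h.commutes]
    exact this
  have ha : h a ∈ I := by
    rw [hI, ← Ideal.radical_idem]
    refine ⟨2, ?_⟩
    have hq := RingHom.mem_ker.1 (hCh q1)
    simp only [map_sub, map_add, map_mul, map_pow, hE0] at hq
    rw [← hI, show h a ^ 2 = -(h b * h c) by linear_combination hq]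
    exact neg_mem (Ideal.mul_mem_right _ _ hb)
  simp only [Six.toSet, Set.mem_insert_iff, Set.mem_singleton_iff]
  rintro w (rfl | rfl | rfl | rfl | rfl | rfl)
  · exact ha
  · exact hb
  · exact hc
  · rw [hA]; exact Ideal.mul_mem_right _ _ ha
  · rw [hB]; exact Ideal.mul_mem_right _ _ hb
  · rw [hD]; exact Ideal.mul_mem_right _ _ hc

/-- The main algebraic theorem. -/
theorem exists_prime_unramified {es : List S} {N' : ℕ} (hrel : CharRels PR φc x pl s₀ es N')
    (hr : g + 3 * (k + 1) ≤ r) (hd : d ≠ 0)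
    (hes : ∀ e ∈ es, ∃ (u₀ : Sˣ) (N : ℕ), N ≠ 0 ∧ e ^ 2 = u₀ * PR.π ^ N) (h4 : IsUnit (4 : S))
    (hcong : ∀ α i j, PR.π ∣ φc α i j - φ₁ α i j)
    {κ c₀ : S} (hκ : κ ≠ 0) (hc₀ : PR.π ∣ c₀)
    (htriv : ∀ v ∈ ({s₀.a, s₀.b, s₀.c} : Set P),
      φ₁ (v * (algebraMap S P κ * (algebraMap S P c₀ - 4 * (s₀.A ^ 2 + s₀.B * s₀.C)))) = 0)
    (𝔞 : Ideal S) [𝔞.IsPrime] :
    ∃ Q : Ideal P, Q.IsPrime ∧ RingHom.ker φ₁ ≤ Q ∧ Q.comap (algebraMap S P) = 𝔞 ∧
      s₀.a ∈ Q ∧ s₀.b ∈ Q ∧ s₀.c ∈ Q := by
  classical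
  obtain ⟨Q₁, hQ₁, hkQ₁, hQ₁c, haQ, hbQ, hcQ⟩ := exists_prime_special hrel hr hd hes
  have hk1 : RingHom.ker φ₁ ≤ Q₁ := fun α hα => by
    refine mem_of_entries φc Q₁ hkQ₁ (Ideal.span {PR.π}) hQ₁c.ge fun i j => ?_
    have := hcong α i j
    rw [RingHom.mem_ker] at hα
    rw [hα] at this
    simpa [Ideal.mem_span_singleton] using this
  -- `c₀ - 4 (A² + BC)` is not in `Q₁`
  have hf₀ : algebraMap S P c₀ - 4 * (s₀.A ^ 2 + s₀.B * s₀.C) ∉ Q₁ := by
    intro hf
    haveI := moduleFinite_quot_ker φc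
    haveI : Algebra.IsIntegral S (P ⧸ RingHom.ker φc) := Algebra.IsIntegral.of_finite _ _
    haveI : Module.Finite S (P ⧸ Q₁) := Module.Finite.of_surjective
      (Ideal.Quotient.factorₐ S hkQ₁).toLinearMap (Ideal.Quotient.factor_surjective hkQ₁)
    haveI : IsNoetherianRing (P ⧸ Q₁) := IsNoetherianRing.of_finite S _
    haveI : Algebra.IsIntegral S (P ⧸ Q₁) := Algebra.IsIntegral.of_finite _ _
    let h := Ideal.Quotient.mkₐ S Q₁
    have hk0 : RingHom.ker (algebraMap S (P ⧸ Q₁)) = Ideal.span {PR.π} := by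
      rw [← hQ₁c]
      ext s
      rw [RingHom.mem_ker, Ideal.mem_comap, ← Ideal.Quotient.eq_zero_iff_mem]
      rfl
    refine false_of_two hrel hr h (fun α hα => ?_) hk0 (h s₀.B) (h s₀.C)
      ⟨_, by simp [Six.toSet], rfl⟩ ⟨_, by simp [Six.toSet], rfl⟩ ?_
    · rw [RingHom.mem_ker]; exact Ideal.Quotient.eq_zero_iff_mem.2 (hkQ₁ hα)
    set I := (Ideal.span {h s₀.B, h s₀.C}).radical with hI
    have hB : h s₀.B ∈ I := Ideal.le_radical (Ideal.subset_span (by simp))
    have hn : s₀.A ^ 2 + s₀.B * s₀.C ∈ Q₁ := by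
      have h0 : algebraMap S P c₀ ∈ Q₁ := hQ₁c.ge (Ideal.mem_span_singleton.2 hc₀)
      have h' : 4 * (s₀.A ^ 2 + s₀.B * s₀.C) ∈ Q₁ := by simpa using sub_mem h0 hf
      have h4' : IsUnit (4 : P) := by simpa [map_ofNat] using h4.map (algebraMap S P)
      exact (Ideal.unit_mul_mem_iff_mem _ h4').1 h'
    have hA : h s₀.A ∈ I := by
      rw [hI, ← Ideal.radical_idem]
      refine ⟨2, ?_⟩
      have hn' : h s₀.A ^ 2 + h s₀.B * h s₀.C = 0 := by
        rw [← map_pow, ← map_mul, ← map_add]
        exact Ideal.Quotient.eq_zero_iff_mem.2 hn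
      rw [← hI, show h s₀.A ^ 2 = -(h s₀.B * h s₀.C) by linear_combination hn']
      exact neg_mem (Ideal.mul_mem_right _ _ hB)
    simp only [Six.toSet, Set.mem_insert_iff, Set.mem_singleton_iff]
    rintro w (rfl | rfl | rfl | rfl | rfl | rfl)
    · rw [show h s₀.a = 0 from Ideal.Quotient.eq_zero_iff_mem.2 haQ]; exact zero_mem _
    · rw [show h s₀.b = 0 from Ideal.Quotient.eq_zero_iff_mem.2 hbQ]; exact zero_mem _
    · rw [show h s₀.c = 0 from Ideal.Quotient.eq_zero_iff_mem.2 hcQ]; exact zero_mem _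
    · exact hA
    · exact hB
    · exact Ideal.le_radical (Ideal.subset_span (by simp))
  -- a prime below `Q₁` meeting `S` only in zero
  let M : Submonoid P := Q₁.primeCompl ⊔ (nonZeroDivisors S).map (algebraMap S P)
  have hdisj : Disjoint (RingHom.ker φ₁ : Set P) (M : Set P) := by
    rw [Set.disjoint_left]
    intro β hβ hβM
    obtain ⟨t, ht, _, ⟨s, hs, rfl⟩, rfl⟩ := Submonoid.mem_sup.1 hβM
    rw [SetLike.mem_coe, RingHom.mem_ker, map_mul, AlgHom.commutes, ← Algebra.commutes,
      ← Algebra.smul_def] at hβ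
    exact ht (hk1 (RingHom.mem_ker.2
      ((smul_eq_zero.1 hβ).resolve_left (nonZeroDivisors.ne_zero hs))))
  obtain ⟨C', hC', hkC', hC'M⟩ := Ideal.exists_le_prime_disjoint _ M hdisj
  have hC'Q : C' ≤ Q₁ := fun β hβ => by
    by_contra h
    exact Set.disjoint_left.1 hC'M hβ (le_sup_left (α := Submonoid P) h)
  have hC'S : C'.comap (algebraMap S P) = ⊥ := by
    rw [eq_bot_iff]
    intro s hs
    by_contra h
    exact Set.disjoint_left.1 hC'M hs (le_sup_right (α := Submonoid P)
      ⟨s, mem_nonZeroDivisors_of_ne_zero h, rfl⟩)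
  obtain ⟨Q, hle, hQ, hQc⟩ := exists_prime_over φ₁ C' hkC' 𝔞 (by rw [hC'S]; exact bot_le)
  have hmem : ∀ v ∈ ({s₀.a, s₀.b, s₀.c} : Set P), v ∈ Q := fun v hv => by
    refine hle ((hC'.mem_or_mem (hkC' (RingHom.mem_ker.2 (htriv v hv)))).resolve_right fun h => ?_)
    rcases hC'.mem_or_mem h with h | h
    · exact hκ (by simpa [Ideal.mem_bot] using hC'S.le h)
    · exact hf₀ (hC'Q h)
  exact ⟨Q, hQ, hkC'.trans hle, hQc, hmem _ (by simp), hmem _ (by simp), hmem _ (by simp)⟩

end FLTAgent.Lower
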