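import Fermat.Agent.Lower.Lift.Lowering
import Fermat.Agent.Lower.Lift.Residual
import Fermat.Agent.Lower.Lift.Coeff
import Fermat.Prelude.Def_FreyPackage_IsConductorLevel

/-!
# Level lowering at odd primes for the Frey curve

`level_lowering_odd` (the content of statement S43): if the mod `p` representation of a Frey
curve is irreducible, modular of conductor level `N` and unramified at the prime `q ≠ p`, it is
modular of a level dividing `N` and prime to `q`.  The representation is moved to the integral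
model (`modTr_eq_of_model`) and fed to the lowering theorem of `Lower.Lift.Lowering`.
-/

set_option autoImplicit false
set_option linter.style.haveILetI false
set_option linter.unusedSectionVars false

noncomputable section

open WeierstrassCurve
open scoped WeierstrassCurve.Affine

namespace FLTAgent.Lower

open FLTAgent.MazurP (TorsSpace modRep modTr CurvePoint)
open FLTAgent.Lower.Lift

local notation "Qb" => AlgebraicClosure ℚ
local notation "Γℚ" => (AlgebraicClosure ℚ ≃ₐ[ℚ] AlgebraicClosure ℚ)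

/-- The `p`-torsion of an integral model is that of the Frey curve. -/
theorem exists_torsEquiv (P : FreyPackage) [Fact P.p.Prime] {W : WeierstrassCurve ℤ}
    (hW : W.IsIntegralModelOf P.freyCurve) :
    W.Δ ≠ 0 ∧ ∃ e : Submodule.torsionBy ℤ (P.freyCurve⁄Qb).Point P.p ≃ₗ[ZMod P.p]
        TorsSpace W P.p, ∀ (σ : Γℚ) x, e (σ • x) = σ • e x := by
  obtain ⟨C, hC⟩ := hW
  haveI : P.freyCurve.IsElliptic :=
    EllP.frey_map_eq P ▸ EllTorsion.isElliptic_map_rat (EllP.frey_Δ_ne_zero P)
  have hΔ : W.Δ ≠ 0 := by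
    intro h
    have h1 : (C • P.freyCurve).Δ ≠ 0 := (C • P.freyCurve).isUnit_Δ.ne_zero
    rw [hC, map_Δ, h, map_zero] at h1
    exact h1 rfl
  refine ⟨hΔ, ?_⟩
  haveI := EllTorsion.isElliptic_map_rat hΔ
  have hQ : (C.map (algebraMap ℚ Qb)) • (P.freyCurve⁄Qb) =
      ((W.map (Int.castRingHom ℚ))⁄Qb) := by
    show (C.map (algebraMap ℚ Qb)) • P.freyCurve.map (algebraMap ℚ Qb) = _
    rw [map_variableChange, hC]
    rfl
  let φ : (P.freyCurve⁄Qb).Point →+ CurvePoint W :=
    (EllLocal.castPoint hQ).comp (EllLocal.vcPoint (P.freyCurve⁄Qb) (C.map (algebraMap ℚ Qb)))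
  have hinj : Function.Injective φ :=
    (EllLocal.castPoint_injective hQ).comp (EllLocal.vcPoint_injective _)
  have heq : ∀ (σ : Γℚ) (x : (P.freyCurve⁄Qb).Point), φ (σ • x) = σ • φ x := by
    intro σ x
    rcases x with _ | ⟨x, y, hns⟩
    · exact (map_zero φ).trans
        (((congrArg (σ • ·) (map_zero φ)).trans (smul_zero (A := CurvePoint W) σ)).symm)
    · have hσC : (C.map (algebraMap ℚ Qb)).map (σ : Qb →+* Qb) = C.map (algebraMap ℚ Qb) := by
        rw [VariableChange.map_map]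
        congr 1
        exact RingHom.ext fun q => σ.commutes q
      show φ (Affine.Point.some (σ x) (σ y) _) = σ • φ (Affine.Point.some x y hns)
      show EllLocal.castPoint hQ (Affine.Point.some (EllLocal.vcX (C.map (algebraMap ℚ Qb)) (σ x))
          (EllLocal.vcY (C.map (algebraMap ℚ Qb)) (σ x) (σ y)) _) =
        σ • EllLocal.castPoint hQ (Affine.Point.some (EllLocal.vcX (C.map (algebraMap ℚ Qb)) x)
          (EllLocal.vcY (C.map (algebraMap ℚ Qb)) x y) _)
      rw [EllLocal.castPoint_some, EllLocal.castPoint_some]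
      show Affine.Point.some _ _ _ = Affine.Point.some (σ (EllLocal.vcX _ x))
        (σ (EllLocal.vcY _ x y)) _
      congr 1
      · exact (EllLocal.map_vcX (σ := (σ : Qb →+* Qb)) (C := C.map (algebraMap ℚ Qb)) hσC x).symm
      · exact (EllLocal.map_vcY (σ := (σ : Qb →+* Qb)) (C := C.map (algebraMap ℚ Qb)) hσC x y).symm
  let V := Submodule.torsionBy ℤ (P.freyCurve⁄Qb).Point P.p
  let ψ : V →ₗ[ZMod P.p] TorsSpace W P.p :=
    { toFun := fun x => ⟨φ x, by
        rw [Submodule.mem_torsionBy_iff, ← map_zsmul, (Submodule.mem_torsionBy_iff _ _).mp x.2,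
          map_zero]⟩
      map_add' := fun x y => Subtype.ext (map_add φ _ _)
      map_smul' := fun c x => ZMod.map_smul
        (f := (AddMonoidHom.mk' (fun x : V => (⟨φ x, by
          rw [Submodule.mem_torsionBy_iff, ← map_zsmul, (Submodule.mem_torsionBy_iff _ _).mp x.2,
            map_zero]⟩ : TorsSpace W P.p)) fun x y => Subtype.ext (map_add φ _ _))) c x }
  have hψ : Function.Injective ψ := fun x y h => Subtype.ext (hinj (congrArg Subtype.val h))
  have hbij : Function.Bijective ψ := by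
    haveI : Finite (TorsSpace W P.p) :=
      EllTorsion.finite_torsionBy_rat (W.map (Int.castRingHom ℚ)) P.p P.pp.ne_zero
    refine hψ.bijective_of_nat_card_le ?_
    rw [EllTorsion.natCard_torsionBy_rat (W.map (Int.castRingHom ℚ)) P.p P.pp.ne_zero,
      EllTorsion.natCard_torsionBy_rat P.freyCurve P.p P.pp.ne_zero]
  exact ⟨LinearEquiv.ofBijective ψ hbij, fun σ x => Subtype.ext (heq σ x)⟩

/-- The integral Frey model is a model of the Frey curve. -/
theorem freyInt_isModel (P : FreyPackage) : P.freyCurveInt.IsIntegralModelOf P.freyCurve :=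
  ⟨1, by rw [one_smul, EllP.frey_map_eq]⟩

/-- All models have the same traces modulo `p`. -/
theorem modTr_eq_of_model (P : FreyPackage) [Fact P.p.Prime] {W : WeierstrassCurve ℤ}
    (hW : W.IsIntegralModelOf P.freyCurve) (σ : Γℚ) :
    modTr W P.p σ = modTr P.freyCurveInt P.p σ := by
  obtain ⟨-, e₁, h₁⟩ := exists_torsEquiv P hW
  obtain ⟨-, e₂, h₂⟩ := exists_torsEquiv P (freyInt_isModel P)
  let e := e₂.symm.trans e₁
  have h : modRep W P.p σ = e.conj (modRep P.freyCurveInt P.p σ) := by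
    refine LinearMap.ext fun x => ?_
    obtain ⟨y, rfl⟩ := e.surjective x
    rw [LinearEquiv.conj_apply_apply, LinearEquiv.symm_apply_apply]
    obtain ⟨z, rfl⟩ := e₂.surjective y
    change σ • e (e₂ z) = e (σ • e₂ z)
    simp only [e, LinearEquiv.trans_apply, ← h₂, LinearEquiv.symm_apply_apply, h₁]
  rw [modTr, modTr, h, LinearMap.trace_conj']

/-- Residual modularity of the integral model from modularity of the representation. -/
theorem isResiduallyModular_freyInt (P : FreyPackage) [Fact P.p.Prime]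
    (hirr : P.freyCurveInt.ModRepIsIrreducible P.p) {N : ℕ} [NeZero N]
    (hmod : P.ModularRepOfLevel N) : P.freyCurveInt.IsResiduallyModularOfLevel P.p N := by
  obtain ⟨f, W, 𝔪, hf, hW, h𝔪, hp𝔪, hcong⟩ := hmod
  have hΔW := (exists_torsEquiv P hW).1
  have hΔ := EllP.frey_Δ_ne_zero P
  have hp2 : P.p ≠ 2 := by have := P.hp5; omega
  refine isResiduallyModularOfLevel_of_congr hΔ hp2 hirr hf h𝔪 hp𝔪 W.Δ.natAbs.primeFactors
    fun l hl hlW hgood hlN hlp => ?_
  have hgoodW : W.IsGoodPrimeFor l := fun h =>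
    hlW (Nat.mem_primeFactors.2 ⟨hl, Int.natCast_dvd.1 h, Int.natAbs_ne_zero.2 hΔW⟩)
  obtain ⟨a, ha, hmem⟩ := hcong l hl hgoodW hlN hlp
  obtain ⟨A, hA, τ, hτ⟩ := GalCommon.exists_place_frobenius hl
  have h : (W.apOfModel l : ZMod P.p) = (P.freyCurveInt.apOfModel l : ZMod P.p) := by
    rw [← MazurP.modTr_frobenius hΔW hp2 hl hgoodW hlp hA hτ,
      ← MazurP.modTr_frobenius hΔ hp2 hl hgood hlp hA hτ, modTr_eq_of_model P hW]
  obtain ⟨c, hc⟩ := (ZMod.intCast_eq_intCast_iff_dvd_sub _ _ _).1 h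
  refine ⟨a, ha, ?_⟩
  have h2 : ((P.freyCurveInt.apOfModel l : ℤ) : integralClosure ℤ ℂ) -
      ((W.apOfModel l : ℤ) : integralClosure ℤ ℂ) ∈ 𝔪 := by
    rw [← Int.cast_sub, hc, Int.cast_mul, Int.cast_natCast]
    exact Ideal.mul_mem_right _ _ hp𝔪
  simpa using sub_mem hmem h2

/-- **Level lowering at odd primes.** -/
theorem level_lowering_odd (P : FreyPackage) {N q : ℕ} (hcond : P.IsConductorLevel N)
    (hq : q.Prime) (hqp : q ≠ P.p) (hirr : Affine.Point.GaloisRepIsIrreducible (K := Qb) ℚ P.freyCurve P.p)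
    (hmod : P.ModularRepOfLevel N) (hunr : P.GaloisRepUnramifiedAt q) :
    ∃ M : ℕ, M ∣ N ∧ ¬ q ∣ M ∧ P.ModularRepOfLevel M := by
  haveI : Fact P.p.Prime := ⟨P.pp⟩
  haveI : NeZero N := ⟨hcond.pos.ne'⟩
  have hp2 : P.p ≠ 2 := by have := P.hp5; omega
  set W := P.freyCurveInt
  have hΔ : W.Δ ≠ 0 := EllP.frey_Δ_ne_zero P
  have hW := EllP.frey_isSemistableModel P
  have hirrW : W.ModRepIsIrreducible P.p :=
    MazurP.modRepIsIrreducible_of_frey P (freyInt_isModel P) hirr
  have hresN : W.IsResiduallyModularOfLevel P.p N := isResiduallyModular_freyInt P hirrW hmod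
  -- the starting level
  obtain ⟨M₀, _, hM₀, hmodM₀, hmin₀, htype⟩ : ∃ (M₀ : ℕ) (_ : NeZero M₀), Squarefree M₀ ∧
      W.IsResiduallyModularOfLevel P.p M₀ ∧
      (P.p ∣ M₀ → ∀ M' : ℕ, 0 < M' → Squarefree M' → ¬ P.p ∣ M' →
        ¬ W.IsResiduallyModularOfLevel P.p M') ∧
      (M₀ = N ∨ ¬ P.p ∣ M₀) := by
    by_cases h : ∃ M' : ℕ, 0 < M' ∧ Squarefree M' ∧ ¬ P.p ∣ M' ∧
        W.IsResiduallyModularOfLevel P.p M'
    · obtain ⟨M', h0, hsf, hpM', hmod'⟩ := h
      exact ⟨M', ⟨h0.ne'⟩, hsf, hmod', fun hd => absurd hd hpM', Or.inr hpM'⟩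
    · exact ⟨N, inferInstance, hcond.squarefree, hresN,
        fun _ M' h0 hsf hpM' hm => h ⟨M', h0, hsf, hpM', hm⟩, Or.inl rfl⟩
  -- coefficients and the representation
  obtain ⟨O, _, _, _, _, _, _, hpO, hroot, hsplit⟩ := exists_coeffRing P.p M₀.primeFactors
  haveI : CharP (IsLocalRing.ResidueField O) P.p := (CharP.charP_iff_prime_eq_zero P.pp).2 (by
    rw [← map_natCast (IsLocalRing.residue O), IsLocalRing.residue_eq_zero_iff]
    exact hpO)
  let i := ZMod.castHom (dvd_refl P.p) (IsLocalRing.ResidueField O)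
  obtain ⟨ρbar, hmr⟩ := ResidualSetup.exists_isModRep (W := W) hΔ i
  have hR := residual_of_isModRep hΔ hW hp2 hirrW (fun a b => hsplit a b i) hmr
  obtain ⟨M, _, hMM₀, -, hsub, hmodM, -, -⟩ := exists_minimal_level_of_residual hp2 hΔ hW hirrW
    hM₀ hmin₀ hmodM₀ hpO (fun l hl _ => hroot l hl) hmr hR
  -- `q` is not ramified
  have hqmin : q ∉ minPrimes W P.p := fun hmem => by
    refine hR.ramified q hmem fun A hA σ hσ => (hmr.eq_one_iff hΔ σ).2 fun x => ?_
    obtain ⟨-, e, he⟩ := exists_torsEquiv P (freyInt_isModel P)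
    obtain ⟨y, rfl⟩ := e.surjective x
    exact (he σ y).symm.trans (congrArg e (hunr A hA σ hσ y))
  refine ⟨M, ?_, fun hd => ?_, ?_⟩
  · rcases htype with rfl | hp
    · exact hMM₀
    · refine (Nat.prod_primeFactors_of_squarefree (hM₀.squarefree_of_dvd hMM₀)).symm.dvd.trans ?_
      refine (Finset.prod_dvd_prod_of_subset _ _ (fun l : ℕ => l) fun l hl => ?_).trans
        (Nat.prod_primeFactors_dvd N)
      rcases Finset.mem_insert.1 (hsub hl) with rfl | h
      · exact absurd ((Nat.dvd_of_mem_primeFactors hl).trans hMM₀) hp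
      · exact minPrimes_subset_primeFactors hΔ hp2 hirrW hmr hR hresN h
  · exact hqmin ((Finset.mem_insert.1
      (hsub (Nat.mem_primeFactors.2 ⟨hq, hd, NeZero.ne M⟩))).resolve_left hqp)
  · obtain ⟨f, 𝔪, hf, h𝔪, hp𝔪, hc⟩ := hmodM
    exact ⟨f, W, 𝔪, hf, freyInt_isModel P, h𝔪, hp𝔪, hc⟩

end FLTAgent.Lower
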