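import Mathlib
import Fermat.Agent.Lower.Core

/-!
# Identities for a tame pair of two by two matrices

For matrices `S`, `Φ` with `Φ S = S ^ l Φ` and `det S = 1`, `sixOf` gives their trace zero parts.
`pow_eq_of_trace_two` (unipotent case), `pow_eq_self_of_dvd` (semisimple case), `minors_of_commute`
and `triv_rel` produce the polynomial relations between the six entries used by `Lower.Core`.
-/

set_option autoImplicit false

noncomputable section

namespace FLTAgent.Lower

open Matrix

variable {R : Type*} [CommRing R]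

/-- The six entries of the trace-zero parts of inertia `Σ` and Frobenius `Φ`, given `h = 1/2`. -/
def sixOf (h : R) (S Φ : Matrix (Fin 2) (Fin 2) R) : Six R :=
  ⟨h * (S 0 0 - S 1 1), S 0 1, S 1 0, h * (Φ 0 0 - Φ 1 1), Φ 0 1, Φ 1 0⟩

theorem sixOf_map {R' : Type*} [CommRing R'] (f : R →+* R') (h : R)
    (S Φ : Matrix (Fin 2) (Fin 2) R) :
    sixOf (f h) (f.mapMatrix S) (f.mapMatrix Φ) = (sixOf h S Φ).map f := by
  simp [sixOf, Six.map, RingHom.mapMatrix_apply]

theorem sq_add_mul_eq {h : R} (hh : 2 * h = 1) (S Φ : Matrix (Fin 2) (Fin 2) R) :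
    (sixOf h S Φ).a ^ 2 + (sixOf h S Φ).b * (sixOf h S Φ).c = (h * S.trace) ^ 2 - S.det := by
  simp only [sixOf, Matrix.det_fin_two, Matrix.trace_fin_two]
  linear_combination (-(S 0 0 * S 1 1) * (2 * h + 1)) * hh

theorem sq_add_mul_eq' {h : R} (hh : 2 * h = 1) (S Φ : Matrix (Fin 2) (Fin 2) R) :
    (sixOf h S Φ).A ^ 2 + (sixOf h S Φ).B * (sixOf h S Φ).C = (h * Φ.trace) ^ 2 - Φ.det := by
  simp only [sixOf, Matrix.det_fin_two, Matrix.trace_fin_two]
  linear_combination (-(Φ 0 0 * Φ 1 1) * (2 * h + 1)) * hh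

/-- Cayley–Hamilton for a matrix of determinant one. -/
theorem mul_self_eq_smul_sub_one {S : Matrix (Fin 2) (Fin 2) R} (hdet : S.det = 1) :
    S * S = S.trace • S - 1 := by
  rw [Matrix.det_fin_two] at hdet
  ext i j
  fin_cases i <;> fin_cases j <;>
    simp [Matrix.mul_apply, Fin.sum_univ_two, Matrix.trace_fin_two]
  · linear_combination -hdet
  · ring
  · ring
  · linear_combination -hdet

/-- Unipotent case: `Σ^l = l Σ - (l - 1)`. -/
theorem pow_eq_of_trace_two {S : Matrix (Fin 2) (Fin 2) R} (hdet : S.det = 1)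
    (htr : S.trace = 2) (l : ℕ) : S ^ l = (l : R) • S - ((l : R) - 1) • 1 := by
  have h2 := mul_self_eq_smul_sub_one hdet
  rw [htr] at h2
  induction l with
  | zero => simp
  | succ l ih =>
    rw [pow_succ, ih, sub_mul, smul_mul_assoc, h2, smul_mul_assoc, one_mul]
    push_cast
    module

/-- Semisimple case: if `X^l - X` is divisible by `X² - τ X + 1` then `Σ^l = Σ`. -/
theorem pow_eq_self_of_dvd {S : Matrix (Fin 2) (Fin 2) R} (hdet : S.det = 1) {l : ℕ}
    (hdvd : (Polynomial.X ^ 2 - Polynomial.C S.trace * Polynomial.X + 1 : Polynomial R) ∣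
      Polynomial.X ^ l - Polynomial.X) : S ^ l = S := by
  obtain ⟨Q, hQ⟩ := hdvd
  have h := congrArg (Polynomial.aeval S) hQ
  simp only [map_sub, map_pow, Polynomial.aeval_X, map_mul, map_add, Polynomial.aeval_C,
    map_one] at h
  rw [pow_two, mul_self_eq_smul_sub_one hdet, ← Algebra.smul_def] at h
  simpa [sub_eq_zero] using h

/-- Commuting matrices have proportional trace-zero parts. -/
theorem minors_of_commute {h : R} (hh : 2 * h = 1) {S Φ : Matrix (Fin 2) (Fin 2) R}
    (hc : Φ * S = S * Φ) :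
    (sixOf h S Φ).b * (sixOf h S Φ).C = (sixOf h S Φ).c * (sixOf h S Φ).B ∧
    (sixOf h S Φ).a * (sixOf h S Φ).B = (sixOf h S Φ).b * (sixOf h S Φ).A ∧
    (sixOf h S Φ).c * (sixOf h S Φ).A = (sixOf h S Φ).a * (sixOf h S Φ).C := by
  have e00 := congrFun (congrFun hc 0) 0
  have e01 := congrFun (congrFun hc 0) 1
  have e10 := congrFun (congrFun hc 1) 0
  simp only [Matrix.mul_apply, Fin.sum_univ_two] at e00 e01 e10
  simp only [sixOf]
  refine ⟨by linear_combination -e00, by linear_combination -h * e01,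
    by linear_combination -h * e10⟩

/-- The relation for the trivial character: `(a, b, c) · κ (c₀ - 4 n) = 0`. -/
theorem triv_rel {h : R} (hh : 2 * h = 1) {S Φ : Matrix (Fin 2) (Fin 2) R} (q : ℕ)
    (hdetS : S.det = 1) (htr : S.trace = 2) (hdetΦ : Φ.det = (q : R))
    (hrel : Φ * S = S ^ q * Φ) :
    ∀ v ∈ ({(sixOf h S Φ).a, (sixOf h S Φ).b, (sixOf h S Φ).c} : Set R),
      v * ((2 * (1 - (q : R)) * (q : R)) * ((1 - (q : R)) ^ 2 -
        4 * ((sixOf h S Φ).A ^ 2 + (sixOf h S Φ).B * (sixOf h S Φ).C))) = 0 := by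
  rw [pow_eq_of_trace_two hdetS htr] at hrel
  have e00 := congrFun (congrFun hrel 0) 0
  have e01 := congrFun (congrFun hrel 0) 1
  have e10 := congrFun (congrFun hrel 1) 0
  have e11 := congrFun (congrFun hrel 1) 1
  simp only [Matrix.mul_apply, Fin.sum_univ_two, Matrix.sub_apply, Matrix.smul_apply,
    smul_eq_mul, Matrix.one_apply_eq, Matrix.one_apply_ne (show (0 : Fin 2) ≠ 1 by decide),
    Matrix.one_apply_ne (show (1 : Fin 2) ≠ 0 by decide)] at e00 e01 e10 e11
  rw [Matrix.trace_fin_two] at htr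
  have hn := sq_add_mul_eq' hh S Φ
  rw [hdetΦ, Matrix.trace_fin_two] at hn
  simp only [sixOf] at hn ⊢
  set a := h * (S 0 0 - S 1 1) with ha
  set A := h * (Φ 0 0 - Φ 1 1) with hA
  set x := h * (Φ 0 0 + Φ 1 1) with hx
  set b := S 0 1
  set c := S 1 0
  set B := Φ 0 1
  set C := Φ 1 0
  have s00 : S 0 0 = 1 + a := by
    rw [ha]; linear_combination (1 - S 0 0) * hh + h * htr
  have s11 : S 1 1 = 1 - a := by
    rw [ha]; linear_combination (1 - S 1 1) * hh + h * htr
  have f00 : Φ 0 0 = x + A := by rw [hx, hA]; linear_combination -(Φ 0 0) * hh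
  have f11 : Φ 1 1 = x - A := by rw [hx, hA]; linear_combination -(Φ 1 1) * hh
  rw [s00, f00, f11] at e01
  rw [s00, f00] at e00
  rw [s11, f11] at e11
  rw [s11, f00, f11] at e10
  rw [s11] at e01
  rw [s00] at e10
  set u := 1 - (q : R) with hu
  set v' := 1 + (q : R) with hv
  have E11 : x * a * u + a * A * u + B * c - (q : R) * b * C = 0 := by
    rw [hu]; linear_combination e00
  have E22 : -x * a * u + a * A * u + b * C - (q : R) * c * B = 0 := by
    rw [hu]; linear_combination e11
  have E12 : x * b * u + v' * (A * b - a * B) = 0 := by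
    rw [hu, hv]; linear_combination e01
  have E21 : x * c * u + v' * (a * C - A * c) = 0 := by
    rw [hu, hv]; linear_combination e10
  intro w hw
  simp only [Set.mem_insert_iff, Set.mem_singleton_iff] at hw
  rcases hw with rfl | rfl | rfl
  · linear_combination (x * u ^ 2) * (E11 - E22) - u * v' * B * E21 + u * v' * C * E12 -
      v' ^ 2 * A * (E11 + E22) + (-2 * a * u * u ^ 2) * (-hn)
  · linear_combination u * (2 * x * u - 2 * v' * A) * E12 + u * v' * B * (E11 - E22) -
      v' ^ 2 * B * (E11 + E22) + (-2 * b * u * u ^ 2) * (-hn)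
  · linear_combination u * (2 * x * u + 2 * v' * A) * E21 - u * v' * C * (E11 - E22) -
      v' ^ 2 * C * (E11 + E22) + (-2 * c * u * u ^ 2) * (-hn)

end FLTAgent.Lower
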