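import Mathlib
import Fermat.Agent.Lower.Bases
import Fermat.Agent.GalCommon.Basic

/-!
# Places and tame pairs at the auxiliary primes

`Place p l` bundles a place over `l` with an inertia and a Frobenius element forming a tame pair
(`nonempty_place`).  `entries_sub_scalar` and `entries_sub_one_inertia`: for a deformation, the
matrices at such a place are residually scalar, respectively trivial on inertia.
-/

set_option autoImplicit false
set_option linter.style.haveILetI false

noncomputable section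

namespace FLTAgent.Lower

open IsLocalRing (maximalIdeal ResidueField)

local notation "ℚ̄" => AlgebraicClosure ℚ
local notation "Γℚ" => (AlgebraicClosure ℚ ≃ₐ[ℚ] AlgebraicClosure ℚ)

/-- A place over `l` with a tame pair. -/
structure Place (p l : ℕ) where
  A : ValuationSubring ℚ̄
  σ : Γℚ
  φ : Γℚ
  liesOver : A.LiesOverPrime l
  gen : IsInertiaGen p l A σ
  frob : A.IsFrobeniusAt φ l
  tame : TameProp p l A σ φ

theorem nonempty_place {p l : ℕ} (hp : p.Prime) (hl : l.Prime) (hlp : l ≠ p) (hdvd : p ∣ l - 1) :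
    Nonempty (Place p l) := by
  obtain ⟨A, hA⟩ := FLTAgent.GalCommon.exists_liesOverPrime hl
  obtain ⟨σ, φ, hgen, hfrob, htame⟩ := exists_tamePair hp hl hlp hdvd A hA
  exact ⟨⟨A, σ, φ, hA, hgen, hfrob, fun G _ _ f => htame G f⟩⟩

variable {O : Type} [CommRing O] [IsLocalRing O] {T : Type} [CommRing T] [IsLocalRing T]
  [Algebra O T] [IsLocalHom (algebraMap O T)] {ρ : GaloisRepAdic T}
  {ρbar : ResidualGaloisRep (ResidueField O)}

theorem entries_sub_scalar
    (he : ρ.residual.IsEquiv (ρbar.baseChangeAlong (ResidueField.map (algebraMap O T))))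
    (b : Module.Basis (Fin 2) T ρ.V) {τ : Γℚ} {c : ResidueField O} (hc : ρbar.ρ τ = c • 1) {a : T}
    (ha : IsLocalRing.residue T a = ResidueField.map (algebraMap O T) c) :
    ∀ i j, (matHom ρ b τ - a • 1) i j ∈ maximalIdeal T := by
  let c₀ := Module.finBasisOfFinrankEq (ResidueField O) ρbar.V ρbar.finrank_eq
  obtain ⟨b', hb'⟩ := exists_basis_residual ρ ρbar c₀ _ he
  have h1 : ∀ i j, b'.repr ((ρ.ρ τ - a • 1) (b' j)) i ∈ maximalIdeal T := fun i j => by
    have h := congrFun (congrFun (hb' τ) i) j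
    rw [resMat_of_scalar c₀ hc, RingHom.mapMatrix_apply, RingHom.mapMatrix_apply, Matrix.map_apply,
      Matrix.map_apply, matHom_apply] at h
    rw [← IsLocalRing.residue_eq_zero_iff, LinearMap.sub_apply, map_sub, Finsupp.sub_apply,
      map_sub, h, LinearMap.smul_apply, Module.End.one_apply, map_smul, Module.Basis.repr_self]
    by_cases hij : i = j <;> simp [hij, ha]
  have h2 : ∀ (w : ρ.V) i, b'.repr ((ρ.ρ τ - a • 1) w) i ∈ maximalIdeal T := fun w i => by
    rw [← b'.sum_repr w, map_sum, map_sum, Finsupp.finsetSum_apply]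
    refine Ideal.sum_mem _ fun j _ => ?_
    rw [map_smul, map_smul, Finsupp.smul_apply, smul_eq_mul]
    exact Ideal.mul_mem_left _ _ (h1 i j)
  intro i j
  have h3 : (matHom ρ b τ - a • 1) i j = b.repr ((ρ.ρ τ - a • 1) (b j)) i := by
    rw [Matrix.sub_apply, matHom_apply, LinearMap.sub_apply, map_sub, Finsupp.sub_apply,
      LinearMap.smul_apply, Module.End.one_apply, map_smul, Module.Basis.repr_self]
    simp [Matrix.one_apply, Finsupp.single_apply, eq_comm]
  rw [h3, ← b'.sum_repr ((ρ.ρ τ - a • 1) (b j)), map_sum, Finsupp.finsetSum_apply]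
  refine Ideal.sum_mem _ fun l _ => ?_
  rw [map_smul, Finsupp.smul_apply, smul_eq_mul]
  exact Ideal.mul_mem_right _ _ (h2 _ l)

theorem entries_sub_one_inertia
    (he : ρ.residual.IsEquiv (ρbar.baseChangeAlong (ResidueField.map (algebraMap O T))))
    (b : Module.Basis (Fin 2) T ρ.V) {l : ℕ} (hunr : ρbar.IsUnramifiedAt l)
    {A : ValuationSubring ℚ̄} (hA : A.LiesOverPrime l) :
    ∀ τ ∈ A.inertiaSubgroupIn ℚ, ∀ i j, (matHom ρ b τ - 1) i j ∈ maximalIdeal T := by
  intro τ hτ i j
  have h := entries_sub_scalar he b (c := 1) (a := 1)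
    (by rw [hunr A hA τ hτ, one_smul]) (by rw [map_one, map_one]) i j
  rwa [one_smul] at h

end FLTAgent.Lower
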