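import Mathlib
import Fermat.Agent.Lower.Places
import Fermat.Agent.Lower.Mat2

/-!
# Generators of the maximal ideal of a Hecke ring

`exists_generators`: if every deformation to the dual numbers with scalar decomposition groups at
the chosen places and prescribed test traces is trivial (the tangent bound), then the maximal
ideal of a ring generated by the traces is generated by the prime element of `O`, the test traces
and the six entries at each place (`placeSix`): otherwise the quotient would give a nontrivial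
deformation (`exists_hom_dualNumber`).
-/

set_option autoImplicit false
set_option linter.style.haveILetI false

noncomputable section

namespace FLTAgent.Lower

open IsLocalRing (maximalIdeal ResidueField)

local notation "ℚ̄" => AlgebraicClosure ℚ
local notation "Γℚ" => (AlgebraicClosure ℚ ≃ₐ[ℚ] AlgebraicClosure ℚ)

theorem detIsCyclotomic_baseChangeAlong {A B : Type} [CommRing A] [IsLocalRing A] [CommRing B]
    [IsLocalRing B] {p : ℕ} (f : A →+* B) (hf : IsLocalHom f) {ρ : GaloisRepAdic A}
    (h : ρ.DetIsCyclotomic p) : (ρ.baseChangeAlong f hf).DetIsCyclotomic p := by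
  refine ⟨by simpa using map_nonunit f (p : A) h.1, fun n σ a ha => ?_⟩
  letI : Algebra A B := f.toAlgebra
  obtain ⟨c, hc⟩ := Ideal.mem_span_singleton'.1 (h.2 n σ a ha)
  refine Ideal.mem_span_singleton'.2 ⟨f c, ?_⟩
  change f c * ((p ^ n : ℕ) : B) = LinearMap.det ((ρ.ρ σ).baseChange B) - (a : B)
  rw [LinearMap.det_baseChange, ← map_natCast f, ← map_mul, hc, map_sub, map_natCast]
  rfl

theorem cond_baseChangeAlong {A B : Type} [CommRing A] [IsLocalRing A] [CommRing B]
    [IsLocalRing B] [Finite (ResidueField B)] {loc : LocalType} {p : ℕ} {Smin S : Finset ℕ}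
    (f : A →+* B) (hf : IsLocalHom f) (hs : Function.Surjective f) {ρ : GaloisRepAdic A}
    (h : Cond loc p Smin S ρ) : Cond loc p Smin S (ρ.baseChangeAlong f hf) := by
  refine ⟨detIsCyclotomic_baseChangeAlong f hf h.det, loc.baseChange f hf ρ hs h.local_p,
    fun q hq hqS P hP σ hσ => ?_, fun q hq P hP σ hσ => ?_⟩
  · letI : Algebra A B := f.toAlgebra
    change (ρ.ρ σ).baseChange B = 1
    rw [h.unramified q hq hqS P hP σ hσ, LinearMap.baseChange_one]
  · letI : Algebra A B := f.toAlgebra
    change LinearMap.charpoly ((ρ.ρ σ).baseChange B) = _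
    rw [LinearMap.charpoly_baseChange, h.unipotent q hq P hP σ hσ]
    simp

variable {O : Type} [CommRing O] [IsDomain O] [IsDiscreteValuationRing O]
  [Finite (ResidueField O)]
  {T : Type} [CommRing T] [IsLocalRing T] [Algebra O T] [IsLocalHom (algebraMap O T)]
  [Module.Finite O T]

local notation "k" => ResidueField O

theorem isUnit_two_residue {p : ℕ} (hp2 : Odd p) (hpO : (p : O) ∈ maximalIdeal O) :
    (2 : k) ≠ 0 := by
  intro h
  obtain ⟨r, hr⟩ := hp2
  have h1 : (p : k) = 0 := by
    rw [← map_natCast (IsLocalRing.residue O), IsLocalRing.residue_eq_zero_iff]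
    exact hpO
  rw [hr] at h1
  push_cast at h1
  rw [h, zero_mul, zero_add] at h1
  exact one_ne_zero h1

/-- A quotient `T → k[ε]` killing a proper subideal of the maximal ideal containing `ϖ`. -/
theorem exists_hom_dualNumber (hres : Function.Surjective (IsLocalRing.residue T ∘ algebraMap O T))
    (J : Ideal T) (hJ : J ≤ maximalIdeal T)
    (hϖJ : ∀ a ∈ maximalIdeal O, algebraMap O T a ∈ J) (hne : J ≠ maximalIdeal T) :
    ∃ f : T →+* DualNumber k, Function.Surjective f ∧ (∀ t ∈ J, f t = 0) ∧
      (∀ a, f (algebraMap O T a) = TrivSqZeroExt.inl (IsLocalRing.residue O a)) ∧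
      ∀ t, ResidueField.map (algebraMap O T) (TrivSqZeroExt.fst (f t)) = IsLocalRing.residue T t := by
  classical
  haveI : IsNoetherianRing T := IsNoetherianRing.of_finite O T
  set m := maximalIdeal T
  have hlt : J ⊔ m * m < m := by
    refine lt_of_le_of_ne (sup_le hJ Ideal.mul_le_left) fun h => hne (le_antisymm hJ ?_)
    exact Submodule.le_of_le_smul_of_le_jacobson_bot (IsNoetherian.noetherian m)
      (IsLocalRing.maximalIdeal_le_jacobson _) h.ge
  obtain ⟨K, ⟨hKle, hKlt⟩, hKmax⟩ := set_has_maximal_iff_noetherian.2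
    (inferInstance : IsNoetherian T T) {K : Ideal T | J ⊔ m * m ≤ K ∧ K < m} ⟨_, le_rfl, hlt⟩
  obtain ⟨v, hvm, hvK⟩ := SetLike.exists_of_lt hKlt
  have hJK : J ≤ K := le_sup_left.trans hKle
  have hmm : ∀ {a b : T}, a ∈ m → b ∈ m → a * b ∈ K := fun ha hb =>
    hKle (Ideal.mem_sup_right (Ideal.mul_mem_mul ha hb))
  -- the relation
  let R : T → k → k → Prop := fun t c d => ∃ a e : O, IsLocalRing.residue O a = c ∧
    IsLocalRing.residue O e = d ∧ t - algebraMap O T a - algebraMap O T e * v ∈ K
  have htot : ∀ t, ∃ c d, R t c d := fun t => by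
    obtain ⟨a, ha⟩ := hres (IsLocalRing.residue T t)
    have htm : t - algebraMap O T a ∈ m := Ideal.Quotient.eq.1 ha.symm
    have hspan : K ⊔ Ideal.span {v} = m := by
      by_contra hh
      refine hKmax _ ⟨hKle.trans le_sup_left, lt_of_le_of_ne
        (sup_le hKlt.le ((Ideal.span_singleton_le_iff_mem _).2 hvm)) hh⟩ (lt_of_le_of_ne
          le_sup_left fun h => hvK (h ▸ Ideal.mem_sup_right (Ideal.mem_span_singleton_self v)))
    rw [← hspan] at htm
    obtain ⟨κ, hκ, w, hw, hsum⟩ := Submodule.mem_sup.1 htm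
    obtain ⟨s, rfl⟩ := Ideal.mem_span_singleton'.1 hw
    obtain ⟨e, he⟩ := hres (IsLocalRing.residue T s)
    refine ⟨_, _, a, e, rfl, rfl, ?_⟩
    rw [← hsum, show κ + s * v - algebraMap O T e * v = κ + (s - algebraMap O T e) * v by ring]
    exact add_mem hκ (hmm (Ideal.Quotient.eq.1 he.symm) hvm)
  have huniq : ∀ {t c d c' d'}, R t c d → R t c' d' → c = c' ∧ d = d' := by
    rintro t c d c' d' ⟨a, e, rfl, rfl, h⟩ ⟨a', e', rfl, rfl, h'⟩
    have h2 := sub_mem h' h
    have hsub : algebraMap O T (a - a') ∈ m := by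
      have h4 := hKlt.le h2
      rw [map_sub]
      have : algebraMap O T a - algebraMap O T a' =
          (t - algebraMap O T a' - algebraMap O T e' * v -
            (t - algebraMap O T a - algebraMap O T e * v)) -
          (algebraMap O T e - algebraMap O T e') * v := by ring
      rw [this]
      exact sub_mem h4 (Ideal.mul_mem_left _ _ hvm)
    have haa : a - a' ∈ maximalIdeal O := by
      rw [IsLocalRing.mem_maximalIdeal, mem_nonunits_iff]
      exact fun hu => hsub (hu.map (algebraMap O T))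
    refine ⟨Ideal.Quotient.eq.2 haa, Ideal.Quotient.eq.2 ?_⟩
    rw [IsLocalRing.mem_maximalIdeal, mem_nonunits_iff]
    intro hu
    refine hvK ((Ideal.unit_mul_mem_iff_mem K (hu.map (algebraMap O T))).1 ?_)
    rw [show algebraMap O T (e - e') * v =
      (t - algebraMap O T a' - algebraMap O T e' * v -
        (t - algebraMap O T a - algebraMap O T e * v)) - algebraMap O T (a - a') by
          simp only [map_sub]; ring]
    exact sub_mem h2 (hJK (hϖJ _ haa))
  choose c d hcd using htot
  have heq : ∀ {t c' d'}, R t c' d' → c t = c' ∧ d t = d' := fun h => huniq (hcd _) h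
  let F : T → DualNumber k := fun t => TrivSqZeroExt.inl (c t) + TrivSqZeroExt.inr (d t)
  have hF : ∀ {t c' d'}, R t c' d' → F t = TrivSqZeroExt.inl c' + TrivSqZeroExt.inr d' := fun h => by
    simp only [F, (heq h).1, (heq h).2]
  have hFalg : ∀ a : O, F (algebraMap O T a) = TrivSqZeroExt.inl (IsLocalRing.residue O a) := fun a => by
    rw [hF (c' := IsLocalRing.residue O a) (d' := 0) ⟨a, 0, rfl, map_zero _, by simp⟩,
      TrivSqZeroExt.inr_zero, add_zero]
  have hadd : ∀ s t, F (s + t) = F s + F t := fun s t => by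
    obtain ⟨a, e, ha, he, h⟩ := hcd s
    obtain ⟨a', e', ha', he', h'⟩ := hcd t
    rw [hF (c' := c s + c t) (d' := d s + d t) ⟨a + a', e + e', by rw [map_add, ha, ha'],
      by rw [map_add, he, he'], by
        convert add_mem h h' using 1
        simp only [map_add]; ring⟩]
    simp only [F, TrivSqZeroExt.inl_add, TrivSqZeroExt.inr_add]
    abel
  have hmul : ∀ s t, F (s * t) = F s * F t := fun s t => by
    obtain ⟨a, e, ha, he, h⟩ := hcd s
    obtain ⟨a', e', ha', he', h'⟩ := hcd t
    rw [hF (c' := c s * c t) (d' := c s * d t + d s * c t)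
      ⟨a * a', a * e' + e * a', by rw [map_mul, ha, ha'],
        by rw [map_add, map_mul, map_mul, ha, he, ha', he'], by
        set κ := s - algebraMap O T a - algebraMap O T e * v
        set κ' := t - algebraMap O T a' - algebraMap O T e' * v
        have : s * t - algebraMap O T (a * a') - algebraMap O T (a * e' + e * a') * v =
            κ * t + (algebraMap O T a + algebraMap O T e * v) * κ' +
              algebraMap O T e * algebraMap O T e' * (v * v) := by
          simp only [κ, κ', map_add, map_mul]; ring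
        rw [this]
        exact add_mem (add_mem (Ideal.mul_mem_right _ K h) (Ideal.mul_mem_left K _ h'))
          (Ideal.mul_mem_left K _ (hmm hvm hvm))⟩]
    ext <;> simp [F]
  let f : T →+* DualNumber k :=
    { toFun := F
      map_one' := by rw [← map_one (algebraMap O T), hFalg, map_one, TrivSqZeroExt.inl_one]
      map_mul' := hmul
      map_zero' := by rw [← map_zero (algebraMap O T), hFalg, map_zero, TrivSqZeroExt.inl_zero]
      map_add' := hadd }
  refine ⟨f, fun z => ?_, fun t ht => ?_, hFalg, fun t => ?_⟩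
  · obtain ⟨a, ha⟩ := IsLocalRing.residue_surjective (TrivSqZeroExt.fst z)
    obtain ⟨e, he⟩ := IsLocalRing.residue_surjective (TrivSqZeroExt.snd z)
    refine ⟨algebraMap O T a + algebraMap O T e * v, ?_⟩
    change F _ = z
    rw [hF (c' := TrivSqZeroExt.fst z) (d' := TrivSqZeroExt.snd z)
      ⟨a, e, ha, he, by simp⟩, TrivSqZeroExt.inl_fst_add_inr_snd_eq]
  · change F t = 0
    rw [hF (c' := 0) (d' := 0) ⟨0, 0, map_zero _, map_zero _, by simpa using hJK ht⟩,
      TrivSqZeroExt.inl_zero, TrivSqZeroExt.inr_zero, add_zero]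
  · obtain ⟨a, e, ha, he, h⟩ := hcd t
    have h1 : TrivSqZeroExt.fst (f t) = IsLocalRing.residue O a := by simp [f, F, ha]
    rw [h1, ResidueField.map_residue]
    refine (Ideal.Quotient.eq.2 ?_).symm
    have h2 := add_mem (hKlt.le h) (m.mul_mem_left (algebraMap O T e) hvm)
    rwa [sub_add_cancel] at h2

/-- The six entries of `ρ` at a place, in the basis `b`. -/
def placeSix {p l : ℕ} (h : T) (ρ : GaloisRepAdic T) (b : Module.Basis (Fin 2) T ρ.V)
    (Pl : Place p l) : Six T :=
  sixOf h (matHom ρ b Pl.σ) (matHom ρ b Pl.φ)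

theorem placeSix_mem {p l : ℕ} (h : T) {ρ : GaloisRepAdic T} {b : Module.Basis (Fin 2) T ρ.V}
    {ρbar : ResidualGaloisRep k} (Pl : Place p l)
    (he : ρ.residual.IsEquiv (ρbar.baseChangeAlong (ResidueField.map (algebraMap O T))))
    (hunr : ρbar.IsUnramifiedAt l)
    (hsc : ∀ τ ∈ Pl.A.decompositionSubgroup ℚ, ∃ c : k, ρbar.ρ τ = c • 1) :
    ∀ t ∈ (placeSix h ρ b Pl).toSet, t ∈ maximalIdeal T := by
  have hσ := entries_sub_one_inertia he b hunr Pl.liesOver Pl.σ Pl.gen.mem
  obtain ⟨c, hc⟩ := hsc Pl.φ Pl.frob.mem_decompositionSubgroup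
  obtain ⟨a, ha⟩ := IsLocalRing.residue_surjective c
  have hφ := entries_sub_scalar he b hc (a := algebraMap O T a)
    (by rw [← ha, ResidueField.map_residue])
  simp only [placeSix, sixOf, Six.toSet, Set.mem_insert_iff, Set.mem_singleton_iff]
  rintro t (rfl | rfl | rfl | rfl | rfl | rfl)
  · refine Ideal.mul_mem_left _ _ ?_
    simpa using sub_mem (hσ 0 0) (hσ 1 1)
  · simpa using hσ 0 1
  · simpa using hσ 1 0
  · refine Ideal.mul_mem_left _ _ ?_
    simpa using sub_mem (hφ 0 0) (hφ 1 1)
  · simpa using hφ 0 1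
  · simpa using hφ 1 0

/-- **Generators.** The tangent bound turns into generators of the maximal ideal. -/
theorem exists_generators {p : ℕ} (hp : p.Prime) (hp2 : Odd p)
    (hpO : (p : O) ∈ maximalIdeal O) {ϖ : O} (hϖ : Irreducible ϖ)
    {loc : LocalType} {Smin S : Finset ℕ}
    {ρbar : ResidualGaloisRep k}
    (hres : Function.Surjective (IsLocalRing.residue T ∘ algebraMap O T))
    (ρ : GaloisRepAdic T)
    (he : ρ.residual.IsEquiv (ρbar.baseChangeAlong (ResidueField.map (algebraMap O T))))
    (hcond : Cond loc p Smin S ρ) (hadj : Algebra.adjoin O (Set.range ρ.trace) = ⊤)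
    {n : ℕ} (l : Fin n → ℕ) (hl : ∀ j, (l j).Prime ∧ l j ≠ p ∧ p ∣ l j - 1)
    (hunr : ∀ j, ρbar.IsUnramifiedAt (l j)) (Pl : ∀ j, Place p (l j))
    (hsc : ∀ j, ∀ τ ∈ (Pl j).A.decompositionSubgroup ℚ, ∃ c : k, ρbar.ρ τ = c • 1)
    {g : ℕ} (σ' : Fin g → Γℚ)
    (htan : ∀ ρ' : GaloisRepAdic (DualNumber k),
      ρ'.residual.IsEquiv (ρbar.baseChangeAlong ((IsLocalRing.residue (DualNumber k)).comp
        (algebraMap k (DualNumber k)))) → Cond loc p Smin S ρ' →
      (∀ j, ∀ τ ∈ (Pl j).A.decompositionSubgroup ℚ, ∃ c : k,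
        ρ'.ρ τ = algebraMap k (DualNumber k) c • 1) →
      (∀ j, TrivSqZeroExt.snd (ρ'.trace (σ' j)) = 0) →
        ∀ τ : Γℚ, TrivSqZeroExt.snd (ρ'.trace τ) = 0)
    (h : T) (hh : 2 * h = 1) (b : Module.Basis (Fin 2) T ρ.V) :
    ∃ x : Fin g → T, (∀ j, x j ∈ maximalIdeal T) ∧
      maximalIdeal T = Ideal.span (insert (algebraMap O T ϖ)
        (Set.range x ∪ ⋃ j, (placeSix h ρ b (Pl j)).toSet)) := by
  classical
  choose a ha using fun j => hres (IsLocalRing.residue T (ρ.trace (σ' j)))
  let x : Fin g → T := fun j => ρ.trace (σ' j) - algebraMap O T (a j)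
  have hxm : ∀ j, x j ∈ maximalIdeal T := fun j => Ideal.Quotient.eq.1 (ha j).symm
  refine ⟨x, hxm, ?_⟩
  set J := Ideal.span (insert (algebraMap O T ϖ)
    (Set.range x ∪ ⋃ j, (placeSix h ρ b (Pl j)).toSet))
  have hJm : J ≤ maximalIdeal T := Ideal.span_le.2 (by
    rintro t (rfl | ⟨j, rfl⟩ | ht)
    · exact map_nonunit (algebraMap O T) ϖ hϖ.not_isUnit
    · exact hxm j
    · obtain ⟨j, hj⟩ := Set.mem_iUnion.1 ht
      exact placeSix_mem h (Pl j) he (hunr j) (hsc j) t hj)
  have hϖJ : ∀ c ∈ maximalIdeal O, algebraMap O T c ∈ J := fun c hc => by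
    rw [hϖ.maximalIdeal_eq, Ideal.mem_span_singleton] at hc
    obtain ⟨w, rfl⟩ := hc
    rw [map_mul]
    exact Ideal.mul_mem_right _ _ (Ideal.subset_span (Set.mem_insert _ _))
  by_contra hne
  obtain ⟨f, hfs, hfJ, hfalg, hffst⟩ := exists_hom_dualNumber hres J hJm hϖJ (Ne.symm hne)
  haveI : IsLocalHom f := IsLocalHom.of_surjective f hfs
  haveI : Finite (DualNumber k) := inferInstanceAs (Finite (k × k))
  haveI : Finite (ResidueField (DualNumber k)) :=
    Finite.of_surjective _ IsLocalRing.residue_surjective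
  haveI : IsNoetherianRing (DualNumber k) := inferInstance
  let ρ' := ρ.baseChangeAlong f inferInstance
  have hcond' : Cond loc p Smin S ρ' := cond_baseChangeAlong f _ hfs hcond
  have h2 : (2 : k) ≠ 0 := isUnit_two_residue hp2 hpO
  -- the residual representation
  have hres' : ρ'.residual.IsEquiv (ρbar.baseChangeAlong ((IsLocalRing.residue (DualNumber k)).comp
      (algebraMap k (DualNumber k)))) := by
    let c₀ := Module.finBasisOfFinrankEq k ρbar.V ρbar.finrank_eq
    obtain ⟨b', hb'⟩ := exists_basis_residual ρ ρbar c₀ _ he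
    let j₀ := (IsLocalRing.residue (DualNumber k)).comp (algebraMap k (DualNumber k))
    letI : Algebra k (ResidueField (DualNumber k)) := j₀.toAlgebra
    refine residual_isEquiv_of_matrix _ _
      ((basisBaseChange f inferInstance ρ b').baseChange (ResidueField (DualNumber k)))
      (c₀.baseChange (ResidueField (DualNumber k))) fun τ i j => ?_
    change ((basisBaseChange f inferInstance ρ b').baseChange (ResidueField (DualNumber k))).repr
        (((ρ'.ρ τ).baseChange (ResidueField (DualNumber k)))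
          (((basisBaseChange f inferInstance ρ b').baseChange (ResidueField (DualNumber k))) j)) i =
      (c₀.baseChange (ResidueField (DualNumber k))).repr
        (((ρbar.ρ τ).baseChange (ResidueField (DualNumber k)))
          ((c₀.baseChange (ResidueField (DualNumber k))) j)) i
    rw [Module.Basis.baseChange_apply, Module.Basis.baseChange_apply, LinearMap.baseChange_tmul,
      LinearMap.baseChange_tmul, Module.Basis.baseChange_repr_tmul,
      Module.Basis.baseChange_repr_tmul, Algebra.smul_def, Algebra.smul_def, mul_one, mul_one,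
      ← matHom_apply, matHom_baseChange, RingHom.mapMatrix_apply, Matrix.map_apply]
    have h3 := congrFun (congrFun (hb' τ) i) j
    rw [RingHom.mapMatrix_apply, RingHom.mapMatrix_apply, Matrix.map_apply, Matrix.map_apply,
      ← hffst] at h3
    have h4 := (ResidueField.map (algebraMap O T)).injective h3
    change IsLocalRing.residue (DualNumber k) (f (matHom ρ b' τ i j)) =
      IsLocalRing.residue (DualNumber k) (algebraMap k (DualNumber k) (c₀.repr (ρbar.ρ τ (c₀ j)) i))
    rw [show c₀.repr (ρbar.ρ τ (c₀ j)) i = resMat ρbar c₀ τ i j from rfl, ← h4]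
    refine Ideal.Quotient.eq.2 ?_
    rw [IsLocalRing.mem_maximalIdeal, mem_nonunits_iff, TrivSqZeroExt.isUnit_iff_isUnit_fst]
    simp [TrivSqZeroExt.algebraMap_eq_inl]
  -- scalars at the places
  let b₁ := basisBaseChange f inferInstance ρ b
  have hscal : ∀ j, ∀ τ ∈ (Pl j).A.decompositionSubgroup ℚ, ∃ c : k,
      ρ'.ρ τ = algebraMap k (DualNumber k) c • 1 := by
    intro j
    obtain ⟨hlj, hljp, hdvd⟩ := hl j
    have hsix : ∀ t ∈ (placeSix h ρ b (Pl j)).toSet, f t = 0 := fun t ht =>
      hfJ t (Ideal.subset_span (Set.mem_insert_of_mem _ (Or.inr (Set.mem_iUnion.2 ⟨j, ht⟩))))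
    simp only [placeSix, sixOf, Six.toSet, Set.mem_insert_iff, Set.mem_singleton_iff,
      forall_eq_or_imp, forall_eq] at hsix
    obtain ⟨ha0, hb0, hc0, hA0, hB0, hC0⟩ := hsix
    let M := matHom ρ' b₁
    have hM : ∀ τ, M τ = f.mapMatrix (matHom ρ b τ) := matHom_baseChange f _ ρ b
    have hscalar : ∀ τ : Γℚ, f (h * (matHom ρ b τ 0 0 - matHom ρ b τ 1 1)) = 0 →
        f (matHom ρ b τ 0 1) = 0 → f (matHom ρ b τ 1 0) = 0 → ∀ N : ℕ, (N : k) ≠ 0 →
        LinearMap.det (ρ'.ρ τ) = (N : DualNumber k) →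
        ∃ c : k, M τ = algebraMap k (DualNumber k) c • 1 := by
      intro τ h0 h01 h10 N hN hdet
      have hdiag : M τ 0 0 = M τ 1 1 := by
        have h5 := congrArg (fun z => f 2 * z) h0
        simp only [← map_mul, mul_zero, ← mul_assoc, hh, one_mul, map_sub, sub_eq_zero] at h5
        rw [hM]; simpa using h5
      have hMτ : M τ = M τ 0 0 • 1 := by
        refine Matrix.ext fun i i' => ?_
        fin_cases i <;> fin_cases i' <;> simp [hdiag]
        · rw [hM]; simpa using h01
        · rw [hM]; simpa using h10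
      refine ⟨TrivSqZeroExt.fst (M τ 0 0), ?_⟩
      conv_lhs => rw [hMτ]
      congr 1
      rw [← det_matHom ρ' b₁, show matHom ρ' b₁ τ = M τ from rfl, hMτ, Matrix.det_smul,
        Matrix.det_one, mul_one, Fintype.card_fin, pow_two] at hdet
      rw [TrivSqZeroExt.algebraMap_eq_inl]
      refine TrivSqZeroExt.ext (by simp) ?_
      have hs := congrArg TrivSqZeroExt.snd hdet
      have hf := congrArg TrivSqZeroExt.fst hdet
      simp only [TrivSqZeroExt.snd_mul, smul_eq_mul, MulOpposite.smul_eq_mul_unop,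
        MulOpposite.unop_op, TrivSqZeroExt.snd_natCast, TrivSqZeroExt.fst_mul,
        TrivSqZeroExt.fst_natCast] at hs hf
      simp only [TrivSqZeroExt.snd_inl]
      have hc : TrivSqZeroExt.fst (M τ 0 0) ≠ 0 := fun hz => hN (by rw [← hf, hz, mul_zero])
      have h7 : 2 * (TrivSqZeroExt.fst (M τ 0 0) * TrivSqZeroExt.snd (M τ 0 0)) = 0 := by
        linear_combination hs
      exact (mul_eq_zero.1 ((mul_eq_zero.1 h7).resolve_left h2)).resolve_left hc
    have hlk : ((l j : ℕ) : k) ≠ 0 := by
      intro hz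
      obtain ⟨w, hw⟩ := hdvd
      have hlw : l j = p * w + 1 := by have := hlj.one_lt; omega
      have hpk : (p : k) = 0 := by
        rw [← map_natCast (IsLocalRing.residue O), IsLocalRing.residue_eq_zero_iff]
        exact hpO
      rw [hlw] at hz
      push_cast at hz
      rw [hpk, zero_mul, zero_add] at hz
      exact one_ne_zero hz
    obtain ⟨cσ, hcσ⟩ := hscalar (Pl j).σ ha0 hb0 hc0 1 (by simp) (by
      rw [Nat.cast_one]
      exact det_inertia hp hlj hljp (Pl j).liesOver hcond'.det (Pl j).gen.mem)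
    obtain ⟨cφ, hcφ⟩ := hscalar (Pl j).φ hA0 hB0 hC0 (l j) hlk
      (det_frobenius hp hlj hljp (Pl j).liesOver hcond'.det (Pl j).frob)
    intro τ hτ
    let U : Γℚ →* (Matrix (Fin 2) (Fin 2) (DualNumber k))ˣ := MonoidHom.toHomUnits M
    let Z : Subgroup (Matrix (Fin 2) (Fin 2) (DualNumber k))ˣ :=
      { carrier := {u | ∃ c : k,
          (u : Matrix (Fin 2) (Fin 2) (DualNumber k)) = algebraMap k (DualNumber k) c • 1}
        mul_mem' := by
          rintro u w ⟨c, hc⟩ ⟨e, he⟩
          exact ⟨c * e, by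
            rw [Units.val_mul, hc, he, smul_mul_assoc, one_mul, smul_smul, map_mul]⟩
        one_mem' := ⟨1, by simp⟩
        inv_mem' := by
          rintro u ⟨c, hc⟩
          refine ⟨c⁻¹, ?_⟩
          have hc0 : c ≠ 0 := fun hz => by
            rw [hz, map_zero, zero_smul] at hc
            exact u.ne_zero hc
          rw [Units.inv_eq_of_mul_eq_one_right]
          rw [hc, smul_mul_assoc, one_mul, smul_smul, ← map_mul, mul_inv_cancel₀ hc0, map_one,
            one_smul] }
    have hm2 : ∀ z ∈ maximalIdeal (DualNumber k) ^ 2, z = 0 := by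
      intro z hz
      rw [pow_two] at hz
      refine Submodule.mul_induction_on hz (fun u hu w hw => ?_) fun u w hu hw => by
        rw [hu, hw, add_zero]
      rw [IsLocalRing.mem_maximalIdeal, mem_nonunits_iff, TrivSqZeroExt.isUnit_iff_isUnit_fst,
        isUnit_iff_ne_zero, not_not] at hu hw
      refine TrivSqZeroExt.ext (by simp [hu]) (by simp [hu, hw])
    have hlevel : ∃ L : IntermediateField ℚ ℚ̄, FiniteDimensional ℚ L ∧
        ∀ τ : Γℚ, (∀ x ∈ L, τ x = x) → U τ = 1 := by
      obtain ⟨L, hL, hlev⟩ := exists_level ρ' b₁ 2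
      refine ⟨L, hL, fun τ' hτ' => Units.ext ?_⟩
      refine Matrix.ext fun i i' => ?_
      have h8 := congrFun (congrFun (hlev τ' hτ') i) i'
      rw [RingHom.mapMatrix_apply, Matrix.map_apply, ← map_one (Ideal.Quotient.mk _).mapMatrix,
        RingHom.mapMatrix_apply, Matrix.map_apply, Ideal.Quotient.mk_eq_mk_iff_sub_mem] at h8
      exact sub_eq_zero.1 (hm2 _ h8)
    have hppow : ∀ τ ∈ (Pl j).A.inertiaSubgroupIn ℚ, ∃ i : ℕ, U τ ^ (p ^ i) = 1 := by
      intro τ' hτ'
      refine ⟨1, Units.ext ?_⟩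
      have h9 : ∀ i i', (M τ' - 1) i i' ∈ maximalIdeal (DualNumber k) := fun i i' => by
        have h10 := map_nonunit f _
          (entries_sub_one_inertia he b (hunr j) (Pl j).liesOver τ' hτ' i i')
        rw [hM, ← map_one f.mapMatrix, ← map_sub]
        exact h10
      have hpD : (p : DualNumber k) ∈ maximalIdeal (DualNumber k) := hcond'.det.1
      refine Matrix.ext fun i i' => ?_
      rw [Units.val_pow_eq_pow_val, Units.val_one]
      exact sub_eq_zero.1 (hm2 _ (entries_pow_prime_pow _ hpD h9 1 i i'))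
    obtain ⟨-, -, hgen⟩ := (Pl j).tame _ U hlevel hppow
    have hle : Subgroup.closure {U (Pl j).σ, U (Pl j).φ} ≤ Z := (Subgroup.closure_le _).2 (by
      rintro u (rfl | rfl)
      · exact ⟨cσ, hcσ⟩
      · exact ⟨cφ, hcφ⟩)
    obtain ⟨c, hc⟩ := hle (hgen τ hτ)
    exact ⟨c, eq_smul_one_of_matHom (b := b₁) hc⟩
  have htr : ∀ τ, ρ'.trace τ = f (ρ.trace τ) := fun τ => by
    rw [← trace_matHom ρ' b₁, matHom_baseChange, ← trace_matHom ρ b]
    simp [Matrix.trace_fin_two]
  have hall := htan ρ' hres' hcond' hscal fun j => by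
    have h11 : f (x j) = 0 :=
      hfJ _ (Ideal.subset_span (Set.mem_insert_of_mem _ (Or.inl ⟨j, rfl⟩)))
    rw [map_sub, sub_eq_zero] at h11
    rw [htr, h11, hfalg, TrivSqZeroExt.snd_inl]
  let Sub : Subalgebra O T :=
    { carrier := {t | TrivSqZeroExt.snd (f t) = 0}
      mul_mem' := fun {u w} hu hw => by
        simp only [Set.mem_ofPred_eq] at hu hw ⊢
        simp [TrivSqZeroExt.snd_mul, hu, hw]
      add_mem' := fun {u w} hu hw => by
        simp only [Set.mem_ofPred_eq] at hu hw ⊢
        simp [hu, hw]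
      algebraMap_mem' := fun c => by simp [hfalg] }
  have htop : Algebra.adjoin O (Set.range ρ.trace) ≤ Sub := Algebra.adjoin_le (by
    rintro _ ⟨τ, rfl⟩
    have := hall τ
    rwa [htr] at this)
  obtain ⟨t, ht⟩ := hfs (TrivSqZeroExt.inr 1)
  have h12 : TrivSqZeroExt.snd (f t) = 0 := htop (hadj ▸ Algebra.mem_top)
  rw [ht, TrivSqZeroExt.snd_inr] at h12
  exact one_ne_zero h12

end FLTAgent.Lower
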