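import Mathlib
import Fermat.Agent.Lower.Core
import Fermat.Agent.Lower.Defs
import Fermat.Agent.Small.PowerSeriesParams
import Fermat.Agent.Deform.PowerSeries

/-!
# The power series ring as a parameter ring

For a discrete valuation ring `O`, `exists_paramRing` equips `O[[X_1, …, X_r]]` with the prime
element, parameters and chain of primes required by `ParamRing`; `levelIdeal_le_pow` puts the
level ideal of depth `n` inside the power `n + 1` of the maximal ideal, and the separatedness and
finiteness of quotients needed for the compactness argument are recorded.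
-/

set_option autoImplicit false
set_option linter.style.haveILetI false

noncomputable section

namespace FLTAgent.Lower

open IsLocalRing (maximalIdeal ResidueField)

variable {O : Type} [CommRing O] [IsDomain O] [IsDiscreteValuationRing O]

theorem ker_map_residue {ϖ : O} (hϖ : Irreducible ϖ) (r : ℕ) :
    RingHom.ker (MvPowerSeries.map (σ := Fin r) (IsLocalRing.residue O)) =
      Ideal.span {MvPowerSeries.C ϖ} := by
  ext f
  rw [RingHom.mem_ker, Ideal.mem_span_singleton]
  constructor
  · intro hf
    have h : ∀ x, ϖ ∣ MvPowerSeries.coeff x f := fun x => by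
      rw [← Ideal.mem_span_singleton, ← hϖ.maximalIdeal_eq, ← IsLocalRing.residue_eq_zero_iff,
        ← MvPowerSeries.coeff_map, hf, map_zero]
    choose g hg using h
    exact ⟨show MvPowerSeries (Fin r) O from g, MvPowerSeries.ext fun x => by
      rw [MvPowerSeries.coeff_C_mul]; exact hg x⟩
  · rintro ⟨g, rfl⟩
    rw [map_mul, MvPowerSeries.map_C, (IsLocalRing.residue_eq_zero_iff ϖ).2
      (by rw [hϖ.maximalIdeal_eq]; exact Ideal.mem_span_singleton_self ϖ), map_zero, zero_mul]

theorem isDomain_residueSeries (r : ℕ) : IsDomain (MvPowerSeries (Fin r) (ResidueField O)) :=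
  NoZeroDivisors.to_isDomain _

attribute [local instance] isDomain_residueSeries

theorem prime_C {ϖ : O} (hϖ : Irreducible ϖ) (r : ℕ) :
    Prime (MvPowerSeries.C ϖ : MvPowerSeries (Fin r) O) := by
  have h0 : (MvPowerSeries.C ϖ : MvPowerSeries (Fin r) O) ≠ 0 := fun h =>
    hϖ.ne_zero (MvPowerSeries.C_injective (by rw [h, map_zero]))
  refine (Ideal.span_singleton_prime h0).1 ?_
  rw [← ker_map_residue hϖ r]
  exact RingHom.ker_isPrime _

theorem X_not_mem_span_C {ϖ : O} (hϖ : Irreducible ϖ) {r : ℕ} (i : Fin r) :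
    (MvPowerSeries.X i : MvPowerSeries (Fin r) O) ∉ Ideal.span {MvPowerSeries.C ϖ} := by
  rw [← ker_map_residue hϖ r, RingHom.mem_ker, MvPowerSeries.map_X]
  intro h
  classical
  have := congrArg (MvPowerSeries.coeff (Finsupp.single i 1)) h
  rw [MvPowerSeries.coeff_index_single_self_X, map_zero] at this
  exact one_ne_zero this

theorem killHead_C (r : ℕ) (a : O) :
    FLTAgent.Small.killHead O r (MvPowerSeries.C a) = MvPowerSeries.C a := by
  simp [FLTAgent.Small.killHead_apply]

theorem exists_chain {ϖ : O} (hϖ : Irreducible ϖ) : ∀ r : ℕ,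
    ∃ p : Fin (r + 1) → Ideal (MvPowerSeries (Fin r) O), (∀ j, (p j).IsPrime) ∧ StrictMono p ∧
      p 0 = Ideal.span {MvPowerSeries.C ϖ} ∧ p (Fin.last r) = maximalIdeal _
  | 0 => by
    refine ⟨fun _ => Ideal.span {MvPowerSeries.C ϖ}, fun _ => ?_, fun i j h => absurd h (by omega), rfl, ?_⟩
    · rw [← ker_map_residue hϖ]; exact RingHom.ker_isPrime _
    · rw [← FLTAgent.Small.ofList_params (R := O) hϖ 0, FLTAgent.Small.params, List.ofFn_zero,
        List.nil_append, Ideal.ofList_singleton]
  | r + 1 => by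
    obtain ⟨p, hp, hmono, h0, htop⟩ := exists_chain hϖ r
    let κ := FLTAgent.Small.killHead O r
    have hκ : Function.Surjective κ := FLTAgent.Small.killHead_surjective O r
    have hX0 : MvPowerSeries.X 0 ∈ (p 0).comap κ := by
      have : κ (MvPowerSeries.X 0) = 0 := by
        rw [← RingHom.mem_ker, FLTAgent.Small.ker_killHead]
        exact Ideal.mem_span_singleton_self _
      rw [Ideal.mem_comap, this]
      exact zero_mem _
    have hlt : Ideal.span {MvPowerSeries.C ϖ} < (p 0).comap κ := by
      refine lt_of_le_of_ne ((Ideal.span_singleton_le_iff_mem _).2 ?_) fun h =>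
        X_not_mem_span_C hϖ 0 (h ▸ hX0)
      rw [Ideal.mem_comap, killHead_C, h0]
      exact Ideal.mem_span_singleton_self _
    have hcomap : StrictMono fun j => (p j).comap κ :=
      (Monotone.strictMono_of_injective (f := fun I => Ideal.comap κ I)
        (fun _ _ h => Ideal.comap_mono h) (Ideal.comap_injective_of_surjective κ hκ)).comp hmono
    refine ⟨Fin.cons (Ideal.span {MvPowerSeries.C ϖ}) fun j => (p j).comap κ, ?_, ?_, rfl, ?_⟩
    · refine Fin.cases ?_ fun j => ?_
      · rw [Fin.cons_zero, ← ker_map_residue hϖ]; exact RingHom.ker_isPrime _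
      · rw [Fin.cons_succ]; exact (hp j).comap κ
    · rw [Fin.strictMono_iff_lt_succ]
      intro i
      induction i using Fin.cases with
      | zero => simpa using hlt
      | succ i =>
        simpa only [← Fin.succ_castSucc, Fin.cons_succ] using hcomap (Fin.castSucc_lt_succ (i := i))
    · rw [← Fin.succ_last, Fin.cons_succ, htop]
      exact IsLocalRing.eq_maximalIdeal (Ideal.comap_isMaximal_of_surjective _ hκ)

/-- The parameters of `O[[X]]`. -/
theorem exists_paramRing {ϖ : O} (hϖ : Irreducible ϖ) (r : ℕ) :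
    ∃ PR : ParamRing (MvPowerSeries (Fin r) O) r,
      PR.π = MvPowerSeries.C ϖ ∧ PR.y = MvPowerSeries.X := by
  obtain ⟨p, hp, hmono, h0, htop⟩ := exists_chain hϖ r
  refine ⟨⟨MvPowerSeries.C ϖ, prime_C hϖ r, MvPowerSeries.X, ?_, p, hp, hmono, h0, htop⟩, rfl, rfl⟩
  rw [← FLTAgent.Small.ofList_params (R := O) hϖ r]
  refine Ideal.span_mono fun x hx => ?_
  rcases List.mem_append.1 hx with h | h
  · obtain ⟨i, rfl⟩ := List.mem_ofFn.1 h
    exact Set.mem_insert_of_mem _ ⟨i, rfl⟩
  · rw [List.mem_singleton.1 h]; exact Set.mem_insert _ _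

/-- `((1 + X)^(p^n) - 1)` lies deep in the maximal ideal. -/
theorem levelIdeal_le_pow {p : ℕ} (hp : (p : O) ∈ maximalIdeal O) (n r : ℕ) :
    levelIdeal p n r O ≤ maximalIdeal (MvPowerSeries (Fin r) O) ^ (n + 1) := by
  set m := maximalIdeal (MvPowerSeries (Fin r) O)
  have hpm : (p : MvPowerSeries (Fin r) O) ∈ m := by
    rw [IsLocalRing.mem_maximalIdeal, mem_nonunits_iff, MvPowerSeries.isUnit_iff_constantCoeff,
      map_natCast]
    exact hp
  refine Ideal.span_le.2 ?_
  rintro _ ⟨j, rfl⟩
  induction n with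
  | zero =>
    simp only [pow_zero, pow_one, zero_add, add_sub_cancel_left, SetLike.mem_coe]
    rw [IsLocalRing.mem_maximalIdeal, mem_nonunits_iff, MvPowerSeries.isUnit_iff_constantCoeff,
      MvPowerSeries.constantCoeff_X]
    exact not_isUnit_zero
  | succ n ih =>
    set u : MvPowerSeries (Fin r) O := (1 + MvPowerSeries.X j) ^ p ^ n
    have hgs : ∑ i ∈ Finset.range p, u ^ i ∈ m := by
      have h1 : u - 1 ∈ m := Ideal.pow_le_self (Nat.succ_ne_zero n) ih
      have h2 : ∑ i ∈ Finset.range p, u ^ i - (p : MvPowerSeries (Fin r) O) ∈ m := by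
        have : ∑ i ∈ Finset.range p, u ^ i - (p : MvPowerSeries (Fin r) O) =
            ∑ i ∈ Finset.range p, (u ^ i - 1 ^ i) := by
          simp [Finset.sum_sub_distrib]
        rw [this]
        exact Ideal.sum_mem _ fun i _ => Ideal.mem_of_dvd _ (sub_dvd_pow_sub_pow u 1 i) h1
      simpa using add_mem h2 hpm
    have : (1 + MvPowerSeries.X j : MvPowerSeries (Fin r) O) ^ p ^ (n + 1) - 1 =
        (∑ i ∈ Finset.range p, u ^ i) * (u - 1) := by
      rw [geom_sum_mul, pow_succ, pow_mul]
    simp only [SetLike.mem_coe] at ih ⊢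
    rw [this, pow_succ' m]
    exact Ideal.mul_mem_mul hgs ih

theorem isHausdorff_mvPowerSeries (r : ℕ) :
    IsHausdorff (maximalIdeal (MvPowerSeries (Fin r) O)) (MvPowerSeries (Fin r) O) :=
  ⟨fun x hx => by
    have h : x ∈ ⨅ n : ℕ, maximalIdeal (MvPowerSeries (Fin r) O) ^ n := by
      rw [Ideal.mem_iInf]
      intro n
      simpa [SModEq.zero, smul_eq_mul, Ideal.mul_top] using hx n
    rwa [Ideal.iInf_pow_eq_bot_of_isLocalRing _ (IsLocalRing.maximalIdeal.isMaximal _).ne_top,
      Ideal.mem_bot] at h⟩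

theorem finite_quotient_pow [Finite (ResidueField O)] (r n : ℕ) :
    Finite (MvPowerSeries (Fin r) O ⧸ maximalIdeal (MvPowerSeries (Fin r) O) ^ n) := by
  haveI : Finite (O ⧸ maximalIdeal O) := ‹Finite (ResidueField O)›
  haveI : Finite (MvPowerSeries (Fin r) O ⧸ maximalIdeal (MvPowerSeries (Fin r) O)) :=
    Finite.of_surjective
      (Ideal.Quotient.lift (maximalIdeal O)
        ((Ideal.Quotient.mk _).comp (MvPowerSeries.C (σ := Fin r) (R := O))) fun a ha => by
          rw [RingHom.comp_apply, Ideal.Quotient.eq_zero_iff_mem, IsLocalRing.mem_maximalIdeal,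
            mem_nonunits_iff, MvPowerSeries.isUnit_iff_constantCoeff, MvPowerSeries.constantCoeff_C]
          exact ha) (fun x => by
      obtain ⟨f, rfl⟩ := Ideal.Quotient.mk_surjective x
      refine ⟨Ideal.Quotient.mk _ (MvPowerSeries.constantCoeff f), ?_⟩
      rw [Ideal.Quotient.lift_mk, RingHom.comp_apply, Ideal.Quotient.mk_eq_mk_iff_sub_mem,
        IsLocalRing.mem_maximalIdeal, mem_nonunits_iff, MvPowerSeries.isUnit_iff_constantCoeff,
        map_sub, MvPowerSeries.constantCoeff_C, sub_self]
      exact not_isUnit_zero)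
  exact Ideal.finite_quotient_pow (IsNoetherian.noetherian _) n

end FLTAgent.Lower
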