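import Mathlib
import Fermat.Agent.Lower.Core
import Fermat.Agent.Lower.Params
import Fermat.Agent.Lower.Compact

/-!
# Patching by compactness

An `ApproxSystem` at depth `n` consists of matrices over power series satisfying the relations
`SystemRels` modulo the `n`-th power of the maximal ideal and reducing to the base action.
`exists_prime_of_approx`: if they exist at all depths, compactness (`exists_system`) gives an exact
system, `exists_prime_unramified` applies to it, and the resulting prime descends to a prime of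
the base ring over zero at which the place is unramified.
-/

set_option autoImplicit false
set_option linter.style.haveILetI false
set_option linter.unusedSimpArgs false

noncomputable section

namespace FLTAgent.Lower

open IsLocalRing (maximalIdeal ResidueField)
open MvPowerSeries (constantCoeff)

/-- Indices of generators: `g` global ones and six at each of `k + 1` places. -/
abbrev Gen (g k : ℕ) : Type := Fin g ⊕ (Fin (k + 1) × Fin 6)

/-- Indices of all variables: generators and the coefficients of the quadratic relations. -/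
abbrev Idx (r g k : ℕ) : Type := Gen g k ⊕ (Fin r × Option (Gen g k))

/-- The six generators at a place. -/
def sixAt {r g k : ℕ} {A : Type*} (N : Idx r g k → A) (l : Fin (k + 1)) : Six A :=
  ⟨N (.inl (.inr (l, 0))), N (.inl (.inr (l, 1))), N (.inl (.inr (l, 2))), N (.inl (.inr (l, 3))),
    N (.inl (.inr (l, 4))), N (.inl (.inr (l, 5)))⟩

/-- The constants of a system: `ϖ`, the possible `e`, the exponent of the minors, `κ`, `c₀`. -/
structure Consts (O : Type) where
  ϖ : O
  es : List O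
  N : ℕ
  κ : O
  c₀ : O

/-- The relations of a system of matrices over a quotient `R` of `O[[X]]`; `Nc` belongs to the
nontrivial characters, `N₁` to the trivial one. -/
structure SystemRels {O : Type} {R : Type} [CommRing R] {r g k d : ℕ} (ι : O → R)
    (y : Fin r → R) (cs : Consts O) (Nc N₁ : Idx r g k → Matrix (Fin d) (Fin d) R) : Prop where
  commc : ∀ u v, Nc u * Nc v = Nc v * Nc u
  comm₁ : ∀ u v, N₁ u * N₁ v = N₁ v * N₁ u
  cong : ∀ u, ∃ D, Nc u - N₁ u = ι cs.ϖ • D
  nil : ∀ v : Gen g k, ∃ D₀ : Matrix (Fin d) (Fin d) R, ∃ D : Fin r → Matrix (Fin d) (Fin d) R,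
    Nc (.inl v) ^ d = ι cs.ϖ • D₀ + ∑ i, y i • D i
  ysq : ∀ i, ∃ D, y i ^ 2 • (1 : Matrix (Fin d) (Fin d) R) =
    ι cs.ϖ • D + ∑ v : Gen g k, Nc (.inl v) * Nc (.inr (i, some v))
  quad : (cs.es.map fun e => (sixAt Nc 0).a * (sixAt Nc 0).a + (sixAt Nc 0).b * (sixAt Nc 0).c -
    ι e ^ 2 • (1 : Matrix (Fin d) (Fin d) R)).prod = 0
  minor₁ : ((sixAt Nc 0).b * (sixAt Nc 0).C - (sixAt Nc 0).c * (sixAt Nc 0).B) ^ cs.N = 0
  minor₂ : ((sixAt Nc 0).a * (sixAt Nc 0).B - (sixAt Nc 0).b * (sixAt Nc 0).A) ^ cs.N = 0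
  minor₃ : ((sixAt Nc 0).c * (sixAt Nc 0).A - (sixAt Nc 0).a * (sixAt Nc 0).C) ^ cs.N = 0
  quad' : ∀ l : Fin k, ∃ D, (sixAt Nc l.succ).a * (sixAt Nc l.succ).a +
    (sixAt Nc l.succ).b * (sixAt Nc l.succ).c = ι cs.ϖ • D
  minor₁' : ∀ l : Fin k, ∃ D, (sixAt Nc l.succ).b * (sixAt Nc l.succ).C -
    (sixAt Nc l.succ).c * (sixAt Nc l.succ).B = ι cs.ϖ • D
  minor₂' : ∀ l : Fin k, ∃ D, (sixAt Nc l.succ).a * (sixAt Nc l.succ).B -
    (sixAt Nc l.succ).b * (sixAt Nc l.succ).A = ι cs.ϖ • D
  minor₃' : ∀ l : Fin k, ∃ D, (sixAt Nc l.succ).c * (sixAt Nc l.succ).A -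
    (sixAt Nc l.succ).a * (sixAt Nc l.succ).C = ι cs.ϖ • D
  triv : ∀ v ∈ ({(sixAt N₁ 0).a, (sixAt N₁ 0).b, (sixAt N₁ 0).c} : Set (Matrix _ _ R)),
    v * (ι cs.κ • (ι cs.c₀ • 1 -
      4 • ((sixAt N₁ 0).A * (sixAt N₁ 0).A + (sixAt N₁ 0).B * (sixAt N₁ 0).C))) = 0

theorem SystemRels.map {O R R' : Type} [CommRing R] [CommRing R'] {r g k d : ℕ} {ι : O → R}
    {y : Fin r → R} {cs : Consts O} {Nc N₁ : Idx r g k → Matrix (Fin d) (Fin d) R}
    (h : SystemRels ι y cs Nc N₁) (f : R →+* R') :
    SystemRels (fun a => f (ι a)) (fun i => f (y i)) cs (fun u => f.mapMatrix (Nc u))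
      (fun u => f.mapMatrix (N₁ u)) := by
  have hs : ∀ (a : R) (D : Matrix (Fin d) (Fin d) R),
      f.mapMatrix (a • D) = f a • f.mapMatrix D := fun a D => by
    ext i j; simp [RingHom.mapMatrix_apply]
  have h1 : ∀ {a b : Matrix (Fin d) (Fin d) R}, a = b → f.mapMatrix a = f.mapMatrix b :=
    fun h => congrArg f.mapMatrix h
  refine ⟨fun u v => by simpa [map_mul] using h1 (h.commc u v),
    fun u v => by simpa [map_mul] using h1 (h.comm₁ u v), fun u => ?_, fun v => ?_, fun i => ?_,
    ?_, ?_, ?_, ?_, fun l => ?_, fun l => ?_, fun l => ?_, fun l => ?_, ?_⟩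
  · obtain ⟨D, hD⟩ := h.cong u
    exact ⟨f.mapMatrix D, by simpa only [map_sub, hs] using h1 hD⟩
  · obtain ⟨D₀, D, hD⟩ := h.nil v
    exact ⟨f.mapMatrix D₀, fun i => f.mapMatrix (D i), by
      simpa only [map_pow, map_add, map_sum, hs] using h1 hD⟩
  · obtain ⟨D, hD⟩ := h.ysq i
    exact ⟨f.mapMatrix D, by
      simpa only [map_add, map_sum, map_mul, map_one, map_pow, hs] using h1 hD⟩
  · simpa only [sixAt, map_list_prod, List.map_map, Function.comp_def, map_sub, map_add, map_mul,
      map_one, map_pow, map_zero, hs] using h1 h.quad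
  · simpa only [sixAt, map_pow, map_sub, map_mul, map_zero] using h1 h.minor₁
  · simpa only [sixAt, map_pow, map_sub, map_mul, map_zero] using h1 h.minor₂
  · simpa only [sixAt, map_pow, map_sub, map_mul, map_zero] using h1 h.minor₃
  · obtain ⟨D, hD⟩ := h.quad' l
    exact ⟨f.mapMatrix D, by simpa only [sixAt, map_add, map_mul, hs] using h1 hD⟩
  · obtain ⟨D, hD⟩ := h.minor₁' l
    exact ⟨f.mapMatrix D, by simpa only [sixAt, map_sub, map_mul, hs] using h1 hD⟩
  · obtain ⟨D, hD⟩ := h.minor₂' l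
    exact ⟨f.mapMatrix D, by simpa only [sixAt, map_sub, map_mul, hs] using h1 hD⟩
  · obtain ⟨D, hD⟩ := h.minor₃' l
    exact ⟨f.mapMatrix D, by simpa only [sixAt, map_sub, map_mul, hs] using h1 hD⟩
  · intro v hv
    simp only [sixAt, Set.mem_insert_iff, Set.mem_singleton_iff] at hv
    rcases hv with rfl | rfl | rfl
    · simpa only [sixAt, map_mul, map_sub, map_one, map_zero, map_nsmul, map_add, hs] using
        h1 (h.triv _ (Set.mem_insert _ _))
    · simpa only [sixAt, map_mul, map_sub, map_one, map_zero, map_nsmul, map_add, hs] using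
        h1 (h.triv _ (Set.mem_insert_of_mem _ (Set.mem_insert _ _)))
    · simpa only [sixAt, map_mul, map_sub, map_one, map_zero, map_nsmul, map_add, hs] using
        h1 (h.triv _ (Set.mem_insert_of_mem _ (Set.mem_insert_of_mem _ rfl)))

variable {O : Type} [CommRing O] [IsDomain O] [IsDiscreteValuationRing O]

local notation "S[" r "]" => MvPowerSeries (Fin r) O
local notation "𝔐[" r "]" => IsLocalRing.maximalIdeal (MvPowerSeries (Fin r) O)

theorem constantCoeff_mem_pow {r n : ℕ} {f : S[r]} (hf : f ∈ 𝔐[r] ^ n) :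
    constantCoeff f ∈ maximalIdeal O ^ n := by
  have h : 𝔐[r] ≤ (maximalIdeal O).comap constantCoeff := fun x hx => by
    rw [Ideal.mem_comap, IsLocalRing.mem_maximalIdeal, mem_nonunits_iff]
    exact fun hu => hx (MvPowerSeries.isUnit_iff_constantCoeff.2 hu)
  exact (Ideal.pow_right_mono h n).trans (Ideal.le_comap_pow _ n) hf

theorem eq_of_forall_map {r d : ℕ} {A B : Matrix (Fin d) (Fin d) S[r]}
    (h : ∀ n, (Ideal.Quotient.mk (𝔐[r] ^ n)).mapMatrix A =
      (Ideal.Quotient.mk (𝔐[r] ^ n)).mapMatrix B) : A = B := by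
  haveI := isHausdorff_mvPowerSeries (O := O) r
  ext1 i j
  rw [← sub_eq_zero]
  refine IsHausdorff.haus (I := 𝔐[r]) inferInstance _ fun n => ?_
  have := congrFun (congrFun (h n) i) j
  rw [RingHom.mapMatrix_apply, RingHom.mapMatrix_apply, Matrix.map_apply, Matrix.map_apply,
    Ideal.Quotient.mk_eq_mk_iff_sub_mem] at this
  simpa [SModEq.zero, Ideal.mul_top] using this

/-- A system at depth `n`: the relations modulo `𝔪ⁿ` and the comparison with the base. -/
def ApproxSystem {r g k d : ℕ} (cs : Consts O) {T₀ : Type} [CommRing T₀] [Algebra O T₀]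
    (Φ : T₀ →ₐ[O] Matrix (Fin d) (Fin d) O) (t : Fin 3 → T₀) (n : ℕ)
    (x : Bool × Idx r g k × Fin d × Fin d → S[r]) : Prop :=
  SystemRels (fun a => Ideal.Quotient.mk (𝔐[r] ^ n) (MvPowerSeries.C a))
      (fun i => Ideal.Quotient.mk (𝔐[r] ^ n) (MvPowerSeries.X i)) cs
      (fun u => (Ideal.Quotient.mk (𝔐[r] ^ n)).mapMatrix (Matrix.of fun i j => x (true, u, i, j)))
      (fun u => (Ideal.Quotient.mk (𝔐[r] ^ n)).mapMatrix (Matrix.of fun i j => x (false, u, i, j))) ∧
    (∀ u, ∃ s : T₀, ∀ i j, constantCoeff (x (false, u, i, j)) - Φ s i j ∈ maximalIdeal O ^ n) ∧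
    ∀ (v : Fin 3) i j, constantCoeff (x (false, .inl (.inr (0, Fin.castLE (by norm_num) v)), i, j))
      - Φ (t v) i j ∈ maximalIdeal O ^ n

/-- The patched system. -/
theorem exists_system [IsAdicComplete (maximalIdeal O) O] [Finite (ResidueField O)]
    {r g k d : ℕ} (cs : Consts O) {T₀ : Type} [CommRing T₀] [Algebra O T₀]
    (Φ : T₀ →ₐ[O] Matrix (Fin d) (Fin d) O) (t : Fin 3 → T₀)
    (h : ∀ n, ∃ x : Bool × Idx r g k × Fin d × Fin d → S[r], ApproxSystem cs Φ t n x) :
    ∃ x : Bool × Idx r g k × Fin d × Fin d → S[r], ∀ n, ApproxSystem cs Φ t n x := by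
  haveI : IsPrecomplete 𝔐[r] S[r] := FLTAgent.Deform.isPrecomplete_mvPowerSeries
  refine exists_forall_of_congruence 𝔐[r] (fun n => finite_quotient_pow r n) _ ?_ ?_ h
  · rintro n x ⟨h1, h2, h3⟩
    have hle : maximalIdeal O ^ (n + 1) ≤ maximalIdeal O ^ n := Ideal.pow_le_pow_right n.le_succ
    refine ⟨?_, fun u => ?_, fun v i j => hle (h3 v i j)⟩
    · have h4 := h1.map (Ideal.Quotient.factor (Ideal.pow_le_pow_right (I := 𝔐[r]) n.le_succ))
      simp only [Ideal.Quotient.factor_mk, RingHom.mapMatrix_apply, Matrix.map_map,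
        Function.comp_def] at h4
      simpa only [RingHom.mapMatrix_apply] using h4
    · obtain ⟨s, hs⟩ := h2 u
      exact ⟨s, fun i j => hle (hs i j)⟩
  · intro n x x' hxx' hx
    have e : ∀ b u, (Ideal.Quotient.mk (𝔐[r] ^ n)).mapMatrix
        (Matrix.of fun i j => x' (b, u, i, j)) =
        (Ideal.Quotient.mk (𝔐[r] ^ n)).mapMatrix (Matrix.of fun i j => x (b, u, i, j)) :=
      fun b u => by
        ext i j
        simp only [RingHom.mapMatrix_apply, Matrix.map_apply, Matrix.of_apply]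
        exact (Ideal.Quotient.mk_eq_mk_iff_sub_mem _ _).2 (by
          simpa using neg_mem (hxx' (b, u, i, j)))
    obtain ⟨h1, h2, h3⟩ := hx
    have hb : ∀ u i j (a : O), constantCoeff (x (false, u, i, j)) - a ∈ maximalIdeal O ^ n →
        constantCoeff (x' (false, u, i, j)) - a ∈ maximalIdeal O ^ n := fun u i j a ha => by
      have := sub_mem ha (constantCoeff_mem_pow (hxx' (false, u, i, j)))
      rwa [map_sub, sub_sub_sub_cancel_left] at this
    refine ⟨by simpa only [e] using h1, fun u => ?_, fun v i j => hb _ i j _ (h3 v i j)⟩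
    obtain ⟨s, hs⟩ := h2 u
    exact ⟨s, fun i j => hb u i j _ (hs i j)⟩

/-- The algebra map given by commuting matrices. -/
theorem exists_algHom_of_commute {R : Type} [CommRing R] {V : Type} {d : ℕ}
    (N : V → Matrix (Fin d) (Fin d) R) (h : ∀ u v, N u * N v = N v * N u) :
    ∃ φ : MvPolynomial V R →ₐ[R] Matrix (Fin d) (Fin d) R, ∀ v, φ (MvPolynomial.X v) = N v := by
  letI : CommRing (Algebra.adjoin R (Set.range N)) := Algebra.adjoinCommRingOfComm R (by
    rintro _ ⟨u, rfl⟩ _ ⟨v, rfl⟩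
    exact h u v)
  refine ⟨(Algebra.adjoin R (Set.range N)).val.comp
    (MvPolynomial.aeval fun v => ⟨N v, Algebra.subset_adjoin ⟨v, rfl⟩⟩), fun v => ?_⟩
  simp

/-- **Patching.** -/
theorem exists_prime_of_approx [IsAdicComplete (maximalIdeal O) O] [Finite (ResidueField O)]
    {r g k d : ℕ} (cs : Consts O) (hϖ : Irreducible cs.ϖ)
    (hes : ∀ e ∈ cs.es, e ≠ 0 ∧ ¬ IsUnit e) (hκ : cs.κ ≠ 0) (hc₀ : cs.ϖ ∣ cs.c₀) (h4 : IsUnit (4 : O))
    (hr : g + 3 * (k + 1) ≤ r) (hd : d ≠ 0)
    {T₀ : Type} [CommRing T₀] [Algebra O T₀] [Module.Finite O T₀]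
    (Φ : T₀ →ₐ[O] Matrix (Fin d) (Fin d) O) (t : Fin 3 → T₀)
    (h : ∀ n, ∃ x : Bool × Idx r g k × Fin d × Fin d → S[r], ApproxSystem cs Φ t n x) :
    ∃ Q : Ideal T₀, Q.IsPrime ∧ Q.comap (algebraMap O T₀) = ⊥ ∧ ∀ v, t v ∈ Q := by
  classical
  obtain ⟨x, hx⟩ := exists_system cs Φ t h
  let Nc : Idx r g k → Matrix (Fin d) (Fin d) S[r] := fun u =>
    Matrix.of fun i j => x (true, u, i, j)
  let N₁ : Idx r g k → Matrix (Fin d) (Fin d) S[r] := fun u =>
    Matrix.of fun i j => x (false, u, i, j)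
  have hmk : ∀ (n : ℕ) (a : S[r]) (D : Matrix (Fin d) (Fin d) S[r]),
      (Ideal.Quotient.mk (𝔐[r] ^ n)).mapMatrix (a • D) =
        Ideal.Quotient.mk (𝔐[r] ^ n) a • (Ideal.Quotient.mk (𝔐[r] ^ n)).mapMatrix D := fun n a D => by
    ext i j; simp [RingHom.mapMatrix_apply]
  obtain ⟨φc, hφc⟩ := exists_algHom_of_commute Nc fun u v => eq_of_forall_map fun n => by
    simpa only [map_mul] using (hx n).1.commc u v
  obtain ⟨φ₁, hφ₁⟩ := exists_algHom_of_commute N₁ fun u v => eq_of_forall_map fun n => by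
    simpa only [map_mul] using (hx n).1.comm₁ u v
  obtain ⟨PR, hPRπ, hPRy⟩ := exists_paramRing hϖ r
  haveI : IsDomain S[r] := NoZeroDivisors.to_isDomain _
  haveI : IsNoetherianRing S[r] := inferInstance
  let Xv : Idx r g k → (MvPolynomial (Idx r g k) S[r]) := MvPolynomial.X
  have hcstc : ∀ a : S[r], φc (algebraMap S[r] (MvPolynomial (Idx r g k) S[r]) a) = a • 1 := fun a => by
    rw [AlgHom.commutes, Algebra.algebraMap_eq_smul_one]
  have hcst₁ : ∀ a : S[r], φ₁ (algebraMap S[r] (MvPolynomial (Idx r g k) S[r]) a) = a • 1 := fun a => by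
    rw [AlgHom.commutes, Algebra.algebraMap_eq_smul_one]
  -- congruence modulo `π` and the other divisibility statements
  have hdiv : ∀ {α : Matrix (Fin d) (Fin d) S[r]}, (∀ n, ∃ D,
      (Ideal.Quotient.mk (𝔐[r] ^ n)).mapMatrix α =
        Ideal.Quotient.mk (𝔐[r] ^ n) (MvPowerSeries.C cs.ϖ) • D) → ∀ i j, PR.π ∣ α i j := by
    intro α hα i j
    rw [hPRπ, ← Ideal.mem_span_singleton]
    have h1 : ∀ n, α i j ∈ Ideal.span {MvPowerSeries.C cs.ϖ} ⊔ 𝔐[r] ^ n := fun n => by
      obtain ⟨D, hD⟩ := hα n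
      obtain ⟨w, hw⟩ := Ideal.Quotient.mk_surjective (D i j)
      have := congrFun (congrFun hD i) j
      rw [RingHom.mapMatrix_apply, Matrix.map_apply, Matrix.smul_apply, smul_eq_mul, ← hw,
        ← map_mul, Ideal.Quotient.mk_eq_mk_iff_sub_mem] at this
      refine Submodule.mem_sup.2 ⟨_, Ideal.mul_mem_right w _ (Ideal.mem_span_singleton_self _),
        _, this, by ring⟩
    set J : Ideal S[r] := Ideal.span {MvPowerSeries.C cs.ϖ}
    haveI : Nontrivial (S[r] ⧸ J) := Ideal.Quotient.nontrivial_iff.2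
      ((Ideal.span_singleton_prime PR.π_prime.ne_zero).2 (PR.π_prime) |> fun hp => by
        rw [hPRπ] at hp; exact hp.ne_top)
    haveI : IsLocalRing (S[r] ⧸ J) :=
      IsLocalRing.of_surjective' (Ideal.Quotient.mk J) Ideal.Quotient.mk_surjective
    haveI : IsHausdorff (IsLocalRing.maximalIdeal (S[r] ⧸ J)) (S[r] ⧸ J) := ⟨fun z hz => by
      have h2 : z ∈ ⨅ n : ℕ, IsLocalRing.maximalIdeal (S[r] ⧸ J) ^ n := by
        rw [Ideal.mem_iInf]
        intro n
        simpa [SModEq.zero, smul_eq_mul, Ideal.mul_top] using hz n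
      rwa [Ideal.iInf_pow_eq_bot_of_isLocalRing _ (IsLocalRing.maximalIdeal.isMaximal _).ne_top,
        Ideal.mem_bot] at h2⟩
    rw [← Ideal.Quotient.eq_zero_iff_mem]
    refine IsHausdorff.haus (I := IsLocalRing.maximalIdeal (S[r] ⧸ J)) inferInstance _ fun n => ?_
    simp only [SModEq.zero, smul_eq_mul, Ideal.mul_top]
    obtain ⟨a, ha, b, hb, hab⟩ := Submodule.mem_sup.1 (h1 n)
    have hle : (IsLocalRing.maximalIdeal S[r]).map (Ideal.Quotient.mk J) ≤
        IsLocalRing.maximalIdeal (S[r] ⧸ J) := by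
      haveI := IsLocalHom.of_surjective (Ideal.Quotient.mk J) Ideal.Quotient.mk_surjective
      exact Ideal.map_le_iff_le_comap.2 fun z hz => map_nonunit _ z hz
    rw [← hab, map_add, Ideal.Quotient.eq_zero_iff_mem.2 ha, zero_add]
    exact Ideal.pow_right_mono hle n (by rw [← Ideal.map_pow]; exact Ideal.mem_map_of_mem _ hb)
  have hquot : ∀ {α β : (MvPolynomial (Idx r g k) S[r])}, (∀ n, (Ideal.Quotient.mk (𝔐[r] ^ n)).mapMatrix (φc α) =
      (Ideal.Quotient.mk (𝔐[r] ^ n)).mapMatrix (φc β)) → φc α = φc β :=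
    fun h => eq_of_forall_map h
  have hC : ∀ a : O, algebraMap S[r] (MvPolynomial (Idx r g k) S[r]) (MvPowerSeries.C a) =
      MvPolynomial.C (MvPowerSeries.C a) := fun _ => rfl
  let gx : Fin g → (MvPolynomial (Idx r g k) S[r]) := fun j => Xv (.inl (.inl j))
  have hgens : ∀ v ∈ gens gx (fun l => sixAt Xv l.succ) (sixAt Xv 0),
      ∃ u : Gen g k, v = Xv (.inl u) := by
    rintro v ((⟨j, rfl⟩ | hv) | hv)
    · exact ⟨.inl j, rfl⟩
    · simp only [sixAt, Six.toSet, Set.mem_insert_iff, Set.mem_singleton_iff] at hv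
      rcases hv with rfl | rfl | rfl | rfl | rfl | rfl <;> exact ⟨_, rfl⟩
    · obtain ⟨l, hl⟩ := Set.mem_iUnion.1 hv
      simp only [sixAt, Six.toSet, Set.mem_insert_iff, Set.mem_singleton_iff] at hl
      rcases hl with rfl | rfl | rfl | rfl | rfl | rfl <;> exact ⟨_, rfl⟩
  have hgen_mem : ∀ u : Gen g k,
      Xv (.inl u) ∈ gens gx (fun l => sixAt Xv l.succ) (sixAt Xv 0) := by
    rintro (j | ⟨l, s⟩)
    · exact Or.inl (Or.inl ⟨j, rfl⟩)
    · induction l using Fin.cases with
      | zero =>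
        refine Or.inl (Or.inr ?_)
        fin_cases s <;> simp [sixAt, Six.toSet]
      | succ l =>
        refine Or.inr (Set.mem_iUnion.2 ⟨l, ?_⟩)
        fin_cases s <;> simp [sixAt, Six.toSet]
  have hrel : CharRels PR φc gx (fun l => sixAt Xv l.succ) (sixAt Xv 0)
      (cs.es.map MvPowerSeries.C) cs.N := by
    refine ⟨fun v hv => ?_, fun i => ?_, ?_, ?_, ?_, ?_, fun l => ?_, fun l => ?_, fun l => ?_,
      fun l => ?_⟩
    · obtain ⟨u, rfl⟩ := hgens v hv
      refine ⟨d, fun i j => ?_⟩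
      obtain ⟨D₀, D, hD⟩ := (hx 1).1.nil u
      have := congrFun (congrFun hD i) j
      rw [← map_pow, RingHom.mapMatrix_apply, Matrix.map_apply] at this
      have hz : ∀ {a : S[r]}, a ∈ 𝔐[r] → Ideal.Quotient.mk (𝔐[r] ^ 1) a = 0 := fun ha =>
        Ideal.Quotient.eq_zero_iff_mem.2 (by rwa [pow_one])
      have hϖm : (MvPowerSeries.C cs.ϖ : S[r]) ∈ 𝔐[r] := by
        rw [IsLocalRing.mem_maximalIdeal, mem_nonunits_iff, MvPowerSeries.isUnit_iff_constantCoeff,
          MvPowerSeries.constantCoeff_C]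
        exact hϖ.not_isUnit
      have hXm : ∀ l, (MvPowerSeries.X l : S[r]) ∈ 𝔐[r] := fun l => by
        rw [IsLocalRing.mem_maximalIdeal, mem_nonunits_iff, MvPowerSeries.isUnit_iff_constantCoeff,
          MvPowerSeries.constantCoeff_X]
        exact not_isUnit_zero
      simp only [hz hϖm, hz (hXm _), zero_smul, Finset.sum_const_zero, add_zero, Matrix.zero_apply,
        Ideal.Quotient.eq_zero_iff_mem, pow_one] at this
      rw [map_pow, hφc]
      exact this
    · refine ⟨∑ v : Gen g k, Xv (.inl v) * Xv (.inr (i, some v)),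
        Ideal.sum_mem _ fun v _ => Ideal.mul_mem_right _ _
          (Ideal.subset_span (Set.mem_insert_of_mem _ (hgen_mem v))), hdiv fun n => ?_⟩
      obtain ⟨D, hD⟩ := (hx n).1.ysq i
      refine ⟨D, ?_⟩
      simp only [map_sub, map_sum, map_mul, map_pow, hcstc, hφc, Xv, hPRy]
      rw [← sub_eq_iff_eq_add] at hD
      simpa only [Nc, hmk, map_one, map_pow, smul_pow, one_pow, map_mul, pow_two, smul_mul_assoc,
        mul_smul_comm, mul_one, smul_smul, one_mul] using hD
    · refine (hquot (β := 0) fun n => ?_).trans (map_zero φc)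
      have := (hx n).1.quad
      simp only [sixAt] at this
      simp only [sixAt, map_list_prod, List.map_map, Function.comp_def, map_zero, map_sub, map_add,
        map_mul, map_pow, pow_two, hcstc, hφc, Xv, Nc, hmk, map_one, smul_mul_assoc, one_mul,
        mul_smul_comm, mul_one, smul_smul] at this ⊢
      exact this
    · refine (hquot (β := 0) fun n => ?_).trans (map_zero φc)
      have := (hx n).1.minor₁
      simp only [sixAt] at this
      simp only [sixAt, map_zero, map_pow, map_sub, map_mul, hφc, Xv]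
      exact this
    · refine (hquot (β := 0) fun n => ?_).trans (map_zero φc)
      have := (hx n).1.minor₂
      simp only [sixAt] at this
      simp only [sixAt, map_zero, map_pow, map_sub, map_mul, hφc, Xv]
      exact this
    · refine (hquot (β := 0) fun n => ?_).trans (map_zero φc)
      have := (hx n).1.minor₃
      simp only [sixAt] at this
      simp only [sixAt, map_zero, map_pow, map_sub, map_mul, hφc, Xv]
      exact this
    · exact hdiv fun n => (by
        obtain ⟨D, hD⟩ := (hx n).1.quad' l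
        simp only [sixAt] at hD
        exact ⟨D, by simpa only [sixAt, map_add, map_mul, pow_two, hφc, Xv] using hD⟩)
    · exact hdiv fun n => (by
        obtain ⟨D, hD⟩ := (hx n).1.minor₁' l
        simp only [sixAt] at hD
        exact ⟨D, by simpa only [sixAt, map_sub, map_mul, hφc, Xv] using hD⟩)
    · exact hdiv fun n => (by
        obtain ⟨D, hD⟩ := (hx n).1.minor₂' l
        simp only [sixAt] at hD
        exact ⟨D, by simpa only [sixAt, map_sub, map_mul, hφc, Xv] using hD⟩)
    · exact hdiv fun n => (by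
        obtain ⟨D, hD⟩ := (hx n).1.minor₃' l
        simp only [sixAt] at hD
        exact ⟨D, by simpa only [sixAt, map_sub, map_mul, hφc, Xv] using hD⟩)
  -- congruence of the two homomorphisms
  let πR : S[r] →+* S[r] ⧸ Ideal.span {PR.π} := Ideal.Quotient.mk _
  have hcong : ∀ α i j, PR.π ∣ φc α i j - φ₁ α i j := by
    have heq : ∀ α : (MvPolynomial (Idx r g k) S[r]), πR.mapMatrix (φc α) = πR.mapMatrix (φ₁ α) := by
      intro α
      induction α using MvPolynomial.induction_on with
      | C a =>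
        rw [← MvPolynomial.algebraMap_eq, AlgHom.commutes, AlgHom.commutes]
      | add a b ha hb => rw [map_add, map_add, map_add, map_add, ha, hb]
      | mul_X a u ha =>
        rw [map_mul, map_mul, map_mul, map_mul, ha, hφc, hφ₁]
        congr 1
        ext i j
        simp only [RingHom.mapMatrix_apply, Matrix.map_apply]
        rw [Ideal.Quotient.mk_eq_mk_iff_sub_mem, Ideal.mem_span_singleton]
        refine hdiv (α := Nc u - N₁ u) (fun n => ?_) i j
        obtain ⟨D, hD⟩ := (hx n).1.cong u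
        exact ⟨D, by rw [map_sub]; exact hD⟩
    intro α i j
    have := congrFun (congrFun (heq α) i) j
    simpa [πR, Ideal.Quotient.mk_eq_mk_iff_sub_mem, Ideal.mem_span_singleton] using this
  haveI : (RingHom.ker (constantCoeff (σ := Fin r) (R := O))).IsPrime := RingHom.ker_isPrime _
  have hes' : ∀ e ∈ cs.es.map (MvPowerSeries.C (σ := Fin r) (R := O)),
      ∃ (u₀ : S[r]ˣ) (N : ℕ), N ≠ 0 ∧ e ^ 2 = u₀ * PR.π ^ N := by
    intro e he
    obtain ⟨e₀, he₀, rfl⟩ := List.mem_map.1 he
    obtain ⟨N, u, hu⟩ := IsDiscreteValuationRing.eq_unit_mul_pow_irreducible (hes e₀ he₀).1 hϖ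
    have hN : N ≠ 0 := fun h0 => (hes e₀ he₀).2 (by simp [hu, h0])
    refine ⟨Units.map (MvPowerSeries.C (σ := Fin r) (R := O)).toMonoidHom (u ^ 2), N * 2,
      by omega, ?_⟩
    rw [hPRπ, hu]
    simp [map_mul, map_pow, mul_pow, pow_mul]
  obtain ⟨Q, hQ, hkQ, hQc, haQ, hbQ, hcQ⟩ := exists_prime_unramified (φ₁ := φ₁) hrel hr hd hes'
    (by simpa [map_ofNat] using h4.map (MvPowerSeries.C (σ := Fin r) (R := O))) hcong
    (κ := MvPowerSeries.C cs.κ) (c₀ := MvPowerSeries.C cs.c₀)
    (fun h0 => hκ (MvPowerSeries.C_injective (by rw [h0, map_zero])))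
    (by rw [hPRπ]; exact map_dvd _ hc₀)
    (by
      intro v hv
      refine eq_of_forall_map fun n => ?_
      simp only [sixAt, Set.mem_insert_iff, Set.mem_singleton_iff] at hv
      rw [map_zero]
      rcases hv with rfl | rfl | rfl
      · have := (hx n).1.triv _ (Set.mem_insert _ _)
        simp only [sixAt] at this
        simp only [sixAt, map_mul, map_sub, map_add, pow_two, hcst₁, hφ₁, Xv, N₁,
          smul_mul_assoc, one_mul, hmk, map_one, map_ofNat, mul_smul_comm, mul_one, smul_smul]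
        simpa only [nsmul_eq_mul, Nat.cast_ofNat, mul_smul_comm, mul_one, smul_smul] using this
      · have := (hx n).1.triv _ (Set.mem_insert_of_mem _ (Set.mem_insert _ _))
        simp only [sixAt] at this
        simp only [sixAt, map_mul, map_sub, map_add, pow_two, hcst₁, hφ₁, Xv, N₁,
          smul_mul_assoc, one_mul, hmk, map_one, map_ofNat, mul_smul_comm, mul_one, smul_smul]
        simpa only [nsmul_eq_mul, Nat.cast_ofNat, mul_smul_comm, mul_one, smul_smul] using this
      · have := (hx n).1.triv _ (Set.mem_insert_of_mem _ (Set.mem_insert_of_mem _ rfl))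
        simp only [sixAt] at this
        simp only [sixAt, map_mul, map_sub, map_add, pow_two, hcst₁, hφ₁, Xv, N₁,
          smul_mul_assoc, one_mul, hmk, map_one, map_ofNat, mul_smul_comm, mul_one, smul_smul]
        simpa only [nsmul_eq_mul, Nat.cast_ofNat, mul_smul_comm, mul_one, smul_smul] using this)
    (RingHom.ker (constantCoeff (σ := Fin r) (R := O)))
  -- descend to the base
  let ε : S[r] →+* O := constantCoeff
  let φ₀ : (MvPolynomial (Idx r g k) S[r]) →+* Matrix (Fin d) (Fin d) O :=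
    (RingHom.mapMatrix (m := Fin d) ε).comp φ₁.toRingHom
  have hk0 : RingHom.ker φ₀ ≤ Q := fun α hα => by
    haveI := hQ
    refine mem_of_entries φ₁ Q hkQ (RingHom.ker ε) hQc.ge fun i j => ?_
    have h0 : φ₀ α = 0 := RingHom.mem_ker.1 hα
    have h1 := congrFun (congrFun h0 i) j
    exact RingHom.mem_ker.2 h1
  have hrange : ∀ α : (MvPolynomial (Idx r g k) S[r]), ∃ s : T₀, Φ s = φ₀ α := by
    intro α
    induction α using MvPolynomial.induction_on with
    | C a =>
      refine ⟨algebraMap O T₀ (ε a), ?_⟩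
      rw [AlgHom.commutes]
      simp only [φ₀, RingHom.comp_apply, AlgHom.toRingHom_eq_coe, RingHom.coe_coe,
        ← MvPolynomial.algebraMap_eq, AlgHom.commutes]
      ext i j
      simp [Matrix.algebraMap_matrix_apply, apply_ite ε]
    | add a b ha hb =>
      obtain ⟨s, hs⟩ := ha
      obtain ⟨s', hs'⟩ := hb
      exact ⟨s + s', by rw [map_add, map_add, hs, hs']⟩
    | mul_X a u ha =>
      obtain ⟨s, hs⟩ := ha
      have hu' : ε.mapMatrix (N₁ u) ∈ (Φ.toLinearMap.range : Submodule O _) := by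
        let W := Matrix (Fin d) (Fin d) O ⧸ Φ.toLinearMap.range
        haveI : IsHausdorff (maximalIdeal O) W := IsHausdorff.of_isLocalRing _ _
          (IsLocalRing.maximalIdeal.isMaximal O).ne_top
        rw [← Submodule.Quotient.mk_eq_zero]
        refine IsHausdorff.haus (I := maximalIdeal O) inferInstance _ fun n => ?_
        rw [SModEq.zero]
        obtain ⟨w, hw⟩ := (hx n).2.1 u
        have h1 : ε.mapMatrix (N₁ u) - Φ w ∈
            maximalIdeal O ^ n • (⊤ : Submodule O (Matrix (Fin d) (Fin d) O)) := by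
          set D := ε.mapMatrix (N₁ u) - Φ w with hD
          rw [Matrix.matrix_eq_sum_single D]
          refine Submodule.sum_mem _ fun i _ => Submodule.sum_mem _ fun j _ => ?_
          have he' : Matrix.single i j (D i j) = D i j • Matrix.single i j (1 : O) := by
            rw [Matrix.smul_single, smul_eq_mul, mul_one]
          rw [he']
          exact Submodule.smul_mem_smul (hw i j) Submodule.mem_top
        have h2 := Submodule.mem_map_of_mem (f := Φ.toLinearMap.range.mkQ) h1
        rw [Submodule.map_smul'', Submodule.map_top, Submodule.range_mkQ, map_sub,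
          (Submodule.Quotient.mk_eq_zero _ (x := Φ w)).2 ⟨w, rfl⟩ |> fun h =>
            (show Φ.toLinearMap.range.mkQ (Φ w) = 0 from h), sub_zero] at h2
        exact h2
      obtain ⟨w, hw⟩ := hu'
      refine ⟨s * w, ?_⟩
      rw [map_mul, map_mul, hs, show Φ w = ε.mapMatrix (N₁ u) from hw]
      simp [φ₀, hφ₁]
  -- transport the prime to `T₀`
  let I₀ : Ideal T₀ := RingHom.ker Φ
  choose γf hγf using hrange
  have hI₀ : ∀ {s s' : T₀}, Φ s = Φ s' → Ideal.Quotient.mk I₀ s = Ideal.Quotient.mk I₀ s' :=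
    fun h => by
      rw [Ideal.Quotient.mk_eq_mk_iff_sub_mem, RingHom.mem_ker, map_sub, h, sub_self]
  let γ : (MvPolynomial (Idx r g k) S[r]) →+* T₀ ⧸ I₀ :=
    { toFun := fun α => Ideal.Quotient.mk I₀ (γf α)
      map_one' := by rw [← map_one (Ideal.Quotient.mk I₀)]; exact hI₀ (by simp [hγf])
      map_mul' := fun a b => by
        rw [← map_mul (Ideal.Quotient.mk I₀)]; exact hI₀ (by simp [hγf])
      map_zero' := by rw [← map_zero (Ideal.Quotient.mk I₀)]; exact hI₀ (by simp [hγf])
      map_add' := fun a b => by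
        rw [← map_add (Ideal.Quotient.mk I₀)]; exact hI₀ (by simp [hγf]) }
  have hγker : RingHom.ker γ ≤ Q := fun α hα => hk0 (by
    have h0 : γf α ∈ I₀ := Ideal.Quotient.eq_zero_iff_mem.1 hα
    rw [RingHom.mem_ker] at h0 ⊢
    rw [← hγf α, h0])
  have hconst : ∀ a : O, γ (MvPolynomial.C (MvPowerSeries.C a)) =
      Ideal.Quotient.mk I₀ (algebraMap O T₀ a) := fun a => hI₀ (by
    rw [hγf, AlgHom.commutes]
    simp only [φ₀, RingHom.comp_apply, AlgHom.toRingHom_eq_coe, RingHom.coe_coe,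
      ← MvPolynomial.algebraMap_eq, AlgHom.commutes]
    ext i j
    simp [Matrix.algebraMap_matrix_apply, apply_ite ε, ε])
  letI : Algebra (MvPolynomial (Idx r g k) S[r]) (T₀ ⧸ I₀) := γ.toAlgebra
  haveI : Algebra.IsIntegral (MvPolynomial (Idx r g k) S[r]) (T₀ ⧸ I₀) := ⟨fun z => by
    obtain ⟨s, rfl⟩ := Ideal.Quotient.mk_surjective z
    obtain ⟨q, hq, hq0⟩ := Algebra.IsIntegral.isIntegral (R := O) s
    refine ⟨q.map ((MvPolynomial.C).comp MvPowerSeries.C), hq.map _, ?_⟩
    rw [Polynomial.eval₂_map]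
    have : (algebraMap (MvPolynomial (Idx r g k) S[r]) (T₀ ⧸ I₀)).comp ((MvPolynomial.C).comp MvPowerSeries.C) =
        (Ideal.Quotient.mk I₀).comp (algebraMap O T₀) := RingHom.ext fun a => hconst a
    rw [this, ← Polynomial.hom_eval₂, hq0, map_zero]⟩
  haveI := hQ
  obtain ⟨Q', -, hQ', hQ'c⟩ := Ideal.exists_ideal_over_prime_of_isIntegral Q
    (⊥ : Ideal (T₀ ⧸ I₀)) (fun α hα => hγker hα)
  refine ⟨Q'.comap (Ideal.Quotient.mk I₀), Ideal.IsPrime.comap _, ?_, ?_⟩
  · rw [eq_bot_iff]
    intro a ha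
    have h1 : MvPolynomial.C (MvPowerSeries.C a) ∈ Q := by
      rw [← hQ'c, Ideal.mem_comap]
      change γ _ ∈ Q'
      rw [hconst]
      exact ha
    have h2 := hQc.le h1
    rw [RingHom.mem_ker, MvPowerSeries.constantCoeff_C] at h2
    rw [Ideal.mem_bot]
    exact h2
  · intro v
    have h1 : ε.mapMatrix (N₁ (.inl (.inr (0, Fin.castLE (by norm_num) v)))) = Φ (t v) := by
      ext1 i j
      haveI : IsHausdorff (maximalIdeal O) O := inferInstance
      rw [← sub_eq_zero]
      refine IsHausdorff.haus (I := maximalIdeal O) inferInstance _ fun n => ?_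
      simpa [SModEq.zero, smul_eq_mul, Ideal.mul_top, N₁, ε] using (hx n).2.2 v i j
    have h2 : Xv (.inl (.inr (0, Fin.castLE (by norm_num) v))) ∈ Q := by
      fin_cases v
      · exact haQ
      · exact hbQ
      · exact hcQ
    rw [← hQ'c, Ideal.mem_comap] at h2
    change γ _ ∈ Q' at h2
    rw [Ideal.mem_comap]
    convert h2 using 1
    exact hI₀ (by rw [hγf, ← h1]; simp [φ₀, hφ₁, Xv])

end FLTAgent.Lower
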