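import Mathlib
import Fermat.Agent.Lower.Gen
import Fermat.Agent.Lower.Limit
import Fermat.Agent.Deform.MatRep
import Fermat.Agent.GalCommon.Dickson

/-!
# From a level to an approximate system of matrices

`approx_of_level`: a `Level` with auxiliary primes of depth `n` gives an `ApproxSystem` at that
depth, in the sense of `Lower.Limit`: the generators of `exists_generators` act through the two
actions `Ψ₁`, `Ψc`, and the relations at the places are `charRels`, `auxRels` and `trivRels`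
(from the identities of `Lower.Mat2`).
-/

set_option autoImplicit false
set_option linter.unusedSectionVars false
set_option linter.unusedVariables false
set_option linter.style.haveILetI false

noncomputable section

namespace FLTAgent.Lower

open IsLocalRing (maximalIdeal ResidueField)
open scoped TensorProduct

local notation "ℚ̄" => AlgebraicClosure ℚ
local notation "Γℚ" => (AlgebraicClosure ℚ ≃ₐ[ℚ] AlgebraicClosure ℚ)

variable {O : Type} [CommRing O] [IsDomain O] [IsDiscreteValuationRing O]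
  [IsAdicComplete (maximalIdeal O) O] [Finite (ResidueField O)]

/-- An entry of six elements. -/
def Six.get {P : Type*} (s : Six P) (j : Fin 6) : P := ![s.a, s.b, s.c, s.A, s.B, s.C] j

theorem Six.toSet_subset_range {P : Type*} (s : Six P) : s.toSet ⊆ Set.range s.get := by
  rintro x hx
  simp only [Six.toSet, Set.mem_insert_iff, Set.mem_singleton_iff] at hx
  rcases hx with rfl | rfl | rfl | rfl | rfl | rfl
  exacts [⟨0, rfl⟩, ⟨1, rfl⟩, ⟨2, rfl⟩, ⟨3, rfl⟩, ⟨4, rfl⟩, ⟨5, rfl⟩]

theorem trace_baseChangeAlong {T B : Type} [CommRing T] [IsLocalRing T] [CommRing B] [IsLocalRing B]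
    (f : T →+* B) (hf : IsLocalHom f) (ρ : GaloisRepAdic T) (τ : Γℚ) :
    (ρ.baseChangeAlong f hf).trace τ = f (ρ.trace τ) := by
  let b := Module.finBasisOfFinrankEq T ρ.V ρ.finrank_eq
  rw [← trace_matHom _ (basisBaseChange f hf ρ b), matHom_baseChange, ← trace_matHom ρ b]
  simp [Matrix.trace_fin_two]

theorem range_le_adjoin_trace {M : ℕ} [NeZero M] {p : ℕ}
    {ρbar : ResidualGaloisRep (ResidueField O)} (B : Base p M ρbar) :
    Algebra.adjoin O (Set.range B.H.ρ.trace) = ⊤ := by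
  rw [eq_top_iff, ← B.H.adjoin_range_π]
  refine Algebra.adjoin_le ?_
  rintro _ ⟨⟨t, ht⟩, rfl⟩
  induction ht using Algebra.adjoin_induction with
  | mem x hx =>
    rcases hx with ⟨ℓ, hℓ, hℓN, hℓS, rfl⟩ | ⟨q, hqN, hq, hqS, rfl⟩
    · obtain ⟨A, hA, σ, hσ⟩ := FLTAgent.GalCommon.exists_place_frobenius hℓ
      have h1 := B.H.charpoly_frob ℓ hℓ hℓN hℓS A hA σ hσ
      have h2 : B.H.π (CuspForm.heckeAlgebra.T hℓ hℓN hℓS) = B.H.ρ.trace σ := by
        have hc := congrArg (fun P => Polynomial.coeff P 1) h1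
        simp only [Polynomial.coeff_add, Polynomial.coeff_sub, Polynomial.coeff_X_pow,
          Polynomial.coeff_C_mul_X, Polynomial.coeff_C, if_true, show (1 : ℕ) ≠ 2 by decide,
          one_ne_zero, if_false, zero_sub, add_zero] at hc
        rw [GaloisRepAdic.trace, FLTAgent.GalCommon.trace_eq_neg_coeff_one B.H.ρ.finrank_eq, hc,
          neg_neg]
      exact Algebra.subset_adjoin ⟨σ, h2.symm⟩
    · refine absurd ?_ hqS
      rw [Finset.mem_coe, Finset.mem_insert, Nat.mem_primeFactors]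
      exact Or.inr ⟨hq, hqN, NeZero.ne M⟩
  | algebraMap r =>
    rw [show (⟨_, Subalgebra.algebraMap_mem _ r⟩ : CuspForm.heckeAlgebra M 2 _) =
      ((r : ℤ) : CuspForm.heckeAlgebra M 2 (↑(insert p M.primeFactors) : Set ℕ)) from
        Subtype.ext (by simp [eq_intCast]), map_intCast]
    exact intCast_mem _ r
  | add x y hx hy ihx ihy =>
    rw [show (⟨x + y, add_mem hx hy⟩ : CuspForm.heckeAlgebra M 2
      (↑(insert p M.primeFactors) : Set ℕ)) = ⟨x, hx⟩ + ⟨y, hy⟩ from rfl, map_add]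
    exact add_mem ihx ihy
  | mul x y hx hy ihx ihy =>
    rw [show (⟨x * y, mul_mem hx hy⟩ : CuspForm.heckeAlgebra M 2
      (↑(insert p M.primeFactors) : Set ℕ)) = ⟨x, hx⟩ * ⟨y, hy⟩ from rfl, map_mul]
    exact mul_mem ihx ihy

theorem pow_eq_zero_of_mem_maximalIdeal {T : Type} [CommRing T] [IsLocalRing T] {R : Type} [Ring R]
    [Finite R] (f : T →+* R) {v : T} (hv : v ∈ maximalIdeal T) : IsNilpotent (f v) := by
  obtain ⟨a, b, hne, hab⟩ := Finite.exists_ne_map_eq_of_infinite fun i : ℕ => f v ^ i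
  wlog hlt : a < b generalizing a b
  · exact this b a hne.symm hab.symm (lt_of_le_of_ne (not_lt.1 hlt) hne.symm)
  refine ⟨a, ?_⟩
  have hu : IsUnit (1 - v ^ (b - a)) := IsLocalRing.isUnit_one_sub_self_of_mem_nonunits _
    (Ideal.pow_mem_of_mem _ hv (b - a) (by omega))
  have h0 : f v ^ a * f (1 - v ^ (b - a)) = 0 := by
    rw [map_sub, map_one, map_pow, mul_sub, mul_one, ← pow_add,
      Nat.add_sub_cancel' hlt.le, hab, sub_self]
  exact ((hu.map f).mul_left_eq_zero).1 h0

theorem pow_card_eq_zero_of_isNilpotent {K : Type} [Field K] {d : ℕ} {M : Matrix (Fin d) (Fin d) K}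
    (h : IsNilpotent M) : M ^ d = 0 := by
  have h1 : IsNilpotent (M.charpoly - Polynomial.X ^ Fintype.card (Fin d)) :=
    Matrix.isNilpotent_charpoly_sub_pow_of_isNilpotent h
  have h2 : M.charpoly = Polynomial.X ^ d := by
    simpa only [Fintype.card_fin] using sub_eq_zero.1 h1.eq_zero
  simpa [h2] using Matrix.aeval_self_charpoly M

/-- The coefficients of `x ^ n` in terms of `x` and `1` when `x * x = τ x - 1`. -/
def powCoeff (R : Type) [CommRing R] : ℕ → Polynomial R × Polynomial R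
  | 0 => (0, 1)
  | n + 1 => (Polynomial.X * (powCoeff R n).1 + (powCoeff R n).2, -(powCoeff R n).1)

theorem pow_eq_powCoeff {R S A : Type} [CommRing R] [CommRing S] [Algebra R S] [Ring A]
    [Algebra S A] {x : A} {τ : S} (h : x * x = τ • x - 1) (n : ℕ) :
    x ^ n = Polynomial.aeval τ (powCoeff R n).1 • x +
      Polynomial.aeval τ (powCoeff R n).2 • (1 : A) := by
  induction n with
  | zero => simp [powCoeff]
  | succ n ih =>
    rw [pow_succ, ih, add_mul, smul_mul_assoc, h, smul_mul_assoc, one_mul, powCoeff]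
    simp only [map_add, map_mul, map_neg, Polynomial.aeval_X]
    module

open scoped Classical in
/-- The possible eigenvalues of an inertia element at a place of norm `q`. -/
def charRoots (O : Type) [CommRing O] [IsDomain O] [IsDiscreteValuationRing O] (q : ℕ) :
    Finset O :=
  (Polynomial.nthRootsFinset (q - 1) (1 : O)).filter fun c => c ≠ 1 ∧ c - 1 ∈ maximalIdeal O

theorem mem_charRoots {q : ℕ} (hq : 2 ≤ q) {c : O} :
    c ∈ charRoots O q ↔ c ^ (q - 1) = 1 ∧ c ≠ 1 ∧ c - 1 ∈ maximalIdeal O := by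
  classical
  rw [charRoots, Finset.mem_filter, Polynomial.mem_nthRootsFinset (by omega)]

theorem charRoots_spec {hO : O} (hh : 2 * hO = 1) {q : ℕ} (hq : 2 ≤ q) {c : O}
    (hc : c ∈ charRoots O q) :
    c * c ^ (q - 2) = 1 ∧ c ≠ c ^ (q - 2) ∧ c ^ q = c ∧ (c ^ (q - 2)) ^ q = c ^ (q - 2) ∧
      hO * (c - c ^ (q - 2)) ≠ 0 ∧ ¬ IsUnit (hO * (c - c ^ (q - 2))) := by
  obtain ⟨hc1, hne, hm⟩ := (mem_charRoots hq).1 hc
  have hcc : c * c ^ (q - 2) = 1 := by
    rw [← pow_succ', show q - 2 + 1 = q - 1 by omega, hc1]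
  have hcq : c ^ q = c := by
    rw [show q = q - 1 + 1 by omega, pow_succ, hc1, one_mul]
  have hne' : c ≠ c ^ (q - 2) := by
    intro h
    rw [← h] at hcc
    rcases mul_self_eq_one_iff.1 hcc with h1 | h1
    · exact hne h1
    · refine (IsLocalRing.mem_maximalIdeal _).1 hm ?_
      rw [h1, show (-1 : O) - 1 = -2 by norm_num]
      exact (IsUnit.of_mul_eq_one hO hh).neg
  have hh0 : hO ≠ 0 := fun h => one_ne_zero (α := O) (by rw [← hh, h, mul_zero])
  refine ⟨hcc, hne', hcq, by rw [← pow_mul, mul_comm, pow_mul, hcq],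
    mul_ne_zero hh0 (sub_ne_zero.2 hne'), fun hu => ?_⟩
  have h1 : c ^ (q - 2) - 1 ∈ maximalIdeal O :=
    Ideal.mem_of_dvd _ (sub_one_dvd_pow_sub_one c (q - 2)) hm
  have h2 : c - c ^ (q - 2) ∈ maximalIdeal O := by simpa using sub_mem hm h1
  exact (IsLocalRing.mem_maximalIdeal _).1 (Ideal.mul_mem_left _ hO h2) hu

/-- The constants of the system at `q`. -/
def constsOf (ϖ h : O) (q : ℕ) : Consts O :=
  ⟨ϖ, (charRoots O q).toList.map fun c => h * (c - c ^ (q - 2)), (charRoots O q).card,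
    2 * (1 - (q : O)) * (q : O), (1 - (q : O)) ^ 2⟩

/-- The entries of the trace-zero part of `ρ₀` at the place of `q`. -/
def baseEntries {p M : ℕ} [NeZero M] {ρbar : ResidualGaloisRep (ResidueField O)} (h : O)
    {q : ℕ} (B : Base p M ρbar) (b₀ : Module.Basis (Fin 2) B.T₀ B.H.ρ.V) (P₀ : Place p q)
    (v : Fin 3) : B.T₀ :=
  (placeSix (algebraMap O B.T₀ h) B.H.ρ b₀ P₀).get (Fin.castLE (by norm_num) v)

theorem natCast_sub_one_mem {p l : ℕ} (hp : p.Prime) (hpO : (p : O) ∈ maximalIdeal O)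
    (hl : l.Prime ∧ l ≠ p ∧ p ∣ l - 1) : (l : O) - 1 ∈ maximalIdeal O := by
  obtain ⟨w, hw⟩ := hl.2.2
  have hlw : l = p * w + 1 := by have := hl.1.one_lt; omega
  rw [hlw]
  push_cast
  simpa using Ideal.mul_mem_right (w : O) _ hpO

section Relations

variable {T : Type} [CommRing T] [Algebra O T] {A : Type} [CommRing A] {d : ℕ}
  (Ψ : T →+* Matrix (Fin d) (Fin d) A) {ι : O → A}

theorem mk_ker_eq_of_eq {z w : T} (h : Ψ z = Ψ w) :
    Ideal.Quotient.mk (RingHom.ker Ψ) z = Ideal.Quotient.mk (RingHom.ker Ψ) w :=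
  (Ideal.Quotient.mk_eq_mk_iff_sub_mem _ _).2 (by rw [RingHom.mem_ker, map_sub, h, sub_self])

theorem eq_of_mk_ker {z w : T}
    (h : Ideal.Quotient.mk (RingHom.ker Ψ) z = Ideal.Quotient.mk (RingHom.ker Ψ) w) : Ψ z = Ψ w := by
  rw [← sub_eq_zero, ← map_sub, ← RingHom.mem_ker, ← Ideal.Quotient.eq_zero_iff_mem, map_sub, h,
    sub_self]

/-- The relations at the place with nontrivial characters. -/
theorem charRels {hO : O} (hh : 2 * hO = 1) {h : T} (hh' : h = algebraMap O T hO)
    {R : Finset O} {l : ℕ}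
    (hR : ∀ c ∈ R, c * c ^ (l - 2) = 1 ∧ c ≠ c ^ (l - 2) ∧ c ^ l = c ∧
      (c ^ (l - 2)) ^ l = c ^ (l - 2))
    {S Φ : Matrix (Fin 2) (Fin 2) T}
    (hprod : Ψ (∏ c ∈ R, (S.trace - algebraMap O T (c + c ^ (l - 2)))) = 0)
    (hdet : S.det = 1) (hrel : Φ * S = S ^ l * Φ) :
    Ψ (R.toList.map fun c => (sixOf h S Φ).a ^ 2 + (sixOf h S Φ).b * (sixOf h S Φ).c -
      algebraMap O T ((hO * (c - c ^ (l - 2))) ^ 2)).prod = 0 ∧
    Ψ (((sixOf h S Φ).b * (sixOf h S Φ).C - (sixOf h S Φ).c * (sixOf h S Φ).B) ^ R.card) = 0 ∧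
    Ψ (((sixOf h S Φ).a * (sixOf h S Φ).B - (sixOf h S Φ).b * (sixOf h S Φ).A) ^ R.card) = 0 ∧
    Ψ (((sixOf h S Φ).c * (sixOf h S Φ).A - (sixOf h S Φ).a * (sixOf h S Φ).C) ^ R.card) = 0 := by
  classical
  subst hh'
  have hhT : 2 * algebraMap O T hO = 1 := by
    rw [← map_ofNat (algebraMap O T) 2, ← map_mul, hh, map_one]
  refine ⟨?_, ?_⟩
  · rw [Finset.prod_map_toList, sq_add_mul_eq hhT S Φ, hdet, Finset.prod_congr rfl fun c hc =>
      show (algebraMap O T hO * S.trace) ^ 2 - 1 - algebraMap O T ((hO * (c - c ^ (l - 2))) ^ 2) =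
        (S.trace - algebraMap O T (c + c ^ (l - 2))) *
          (algebraMap O T hO ^ 2 * (S.trace + algebraMap O T (c + c ^ (l - 2)))) by
      have h1 : hO ^ 2 * (c + c ^ (l - 2)) ^ 2 = (hO * (c - c ^ (l - 2))) ^ 2 + 1 := by
        linear_combination 4 * hO ^ 2 * (hR c hc).1 + (2 * hO + 1) * hh
      have h2 := congrArg (algebraMap O T) h1
      simp only [map_mul, map_add, map_sub, map_pow, map_one] at h2 ⊢
      linear_combination h2]
    rw [Finset.prod_mul_distrib, map_mul, hprod, zero_mul]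
  let P : Polynomial O := ∏ t ∈ R.image (fun c => c + c ^ (l - 2)), (Polynomial.X - Polynomial.C t)
  let I : Ideal T := Ideal.span {Polynomial.aeval S.trace P}
  have hkill : ∀ z ∈ I, Ψ (z ^ R.card) = 0 := fun z hz => by
    obtain ⟨w, rfl⟩ := Ideal.mem_span_singleton'.1 hz
    obtain ⟨v, hv⟩ : (∏ c ∈ R, (S.trace - algebraMap O T (c + c ^ (l - 2)))) ∣
        Polynomial.aeval S.trace P ^ R.card := by
      rw [← Finset.prod_const]
      refine Finset.prod_dvd_prod_of_dvd _ _ fun c hc => ?_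
      simp only [P, map_prod, map_sub, Polynomial.aeval_X, Polynomial.aeval_C]
      exact Finset.dvd_prod_of_mem (fun t => S.trace - algebraMap O T t)
        (Finset.mem_image_of_mem _ hc)
    rw [mul_pow, hv, map_mul, map_mul, hprod, zero_mul, mul_zero]
  have hvan : ∀ f : Polynomial O, (∀ c ∈ R, f.eval (c + c ^ (l - 2)) = 0) →
      Polynomial.aeval S.trace f ∈ I := fun f hf => by
    refine Ideal.mem_span_singleton.2 (map_dvd _ ?_)
    rcases eq_or_ne f 0 with rfl | hf0
    · exact dvd_zero _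
    refine (Multiset.prod_X_sub_C_dvd_iff_le_roots hf0 _).2 ?_
    refine (Multiset.le_iff_subset (Finset.nodup _)).2 fun t ht => ?_
    obtain ⟨c, hc, rfl⟩ := Finset.mem_image.1 (Finset.mem_def.2 ht)
    exact (Polynomial.mem_roots hf0).2 (hf c hc)
  let q := Ideal.Quotient.mk I
  have hpow : q.mapMatrix (S ^ l) = q.mapMatrix S := by
    rw [pow_eq_powCoeff (R := O) (mul_self_eq_smul_sub_one hdet) l]
    have hroot : ∀ c ∈ R, ((powCoeff O l).1 - 1).eval (c + c ^ (l - 2)) = 0 ∧
        (powCoeff O l).2.eval (c + c ^ (l - 2)) = 0 := fun c hc => by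
      obtain ⟨hcc, hne, hc1, hc2⟩ := hR c hc
      set c' := c ^ (l - 2)
      have e1 := pow_eq_powCoeff (R := O) (x := c) (τ := c + c')
        (by rw [smul_eq_mul]; linear_combination -hcc) l
      have e2 := pow_eq_powCoeff (R := O) (x := c') (τ := c + c')
        (by rw [smul_eq_mul]; linear_combination -hcc) l
      rw [hc1] at e1
      rw [hc2] at e2
      simp only [smul_eq_mul, mul_one, Polynomial.coe_aeval_eq_eval] at e1 e2
      have h1 : ((powCoeff O l).1.eval (c + c') - 1) * (c - c') = 0 := by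
        linear_combination e2 - e1
      have h1' := (mul_eq_zero.1 h1).resolve_right (sub_ne_zero.2 hne)
      refine ⟨by rw [Polynomial.eval_sub, Polynomial.eval_one]; exact h1', ?_⟩
      linear_combination -e1 - c * h1'
    have m1 := hvan _ fun c hc => (hroot c hc).1
    have m2 := hvan _ fun c hc => (hroot c hc).2
    ext i j
    rw [RingHom.mapMatrix_apply, RingHom.mapMatrix_apply, Matrix.map_apply, Matrix.map_apply,
      Ideal.Quotient.mk_eq_mk_iff_sub_mem, Matrix.add_apply, Matrix.smul_apply, Matrix.smul_apply,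
      smul_eq_mul, smul_eq_mul]
    rw [map_sub, map_one] at m1
    convert add_mem (I.mul_mem_right (S i j) m1)
      (I.mul_mem_right ((1 : Matrix (Fin 2) (Fin 2) T) i j) m2) using 1
    ring
  have hcm : q.mapMatrix Φ * q.mapMatrix S = q.mapMatrix S * q.mapMatrix Φ := by
    rw [← map_mul, hrel, map_mul, hpow]
  have hm := minors_of_commute (h := q (algebraMap O T hO))
    (by rw [← map_ofNat q 2, ← map_mul, hhT, map_one]) hcm
  rw [sixOf_map] at hm
  obtain ⟨h1, h2, h3⟩ := hm
  simp only [Six.map, ← map_mul] at h1 h2 h3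
  exact ⟨hkill _ ((Ideal.Quotient.mk_eq_mk_iff_sub_mem _ _).1 h1),
    hkill _ ((Ideal.Quotient.mk_eq_mk_iff_sub_mem _ _).1 h2),
    hkill _ ((Ideal.Quotient.mk_eq_mk_iff_sub_mem _ _).1 h3)⟩

/-- The relations modulo `ϖ` at the other places. -/
theorem auxRels {h : T} (hhT : 2 * h = 1) {ϖ : O} (hϖ : Irreducible ϖ)
    (hΨalg : ∀ a, Ψ (algebraMap O T a) = ι a • 1) {l : ℕ} (hl : (l : O) - 1 ∈ maximalIdeal O)
    {S Φ : Matrix (Fin 2) (Fin 2) T} (htr : Ψ S.trace = 2) (hdet : S.det = 1)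
    (hrel : Φ * S = S ^ l * Φ) :
    (∃ D, Ψ ((sixOf h S Φ).a * (sixOf h S Φ).a + (sixOf h S Φ).b * (sixOf h S Φ).c) = ι ϖ • D) ∧
    (∃ D, Ψ ((sixOf h S Φ).b * (sixOf h S Φ).C - (sixOf h S Φ).c * (sixOf h S Φ).B) = ι ϖ • D) ∧
    (∃ D, Ψ ((sixOf h S Φ).a * (sixOf h S Φ).B - (sixOf h S Φ).b * (sixOf h S Φ).A) = ι ϖ • D) ∧
    ∃ D, Ψ ((sixOf h S Φ).c * (sixOf h S Φ).A - (sixOf h S Φ).a * (sixOf h S Φ).C) = ι ϖ • D := by
  let I : Ideal T := RingHom.ker Ψ ⊔ Ideal.span {algebraMap O T ϖ}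
  let q := Ideal.Quotient.mk I
  have hout : ∀ z : T, q z = 0 → ∃ D, Ψ z = ι ϖ • D := fun z hz => by
    obtain ⟨κ, hκ, y, hy, rfl⟩ := Submodule.mem_sup.1 (Ideal.Quotient.eq_zero_iff_mem.1 hz)
    obtain ⟨w, rfl⟩ := Ideal.mem_span_singleton'.1 hy
    exact ⟨Ψ w, by rw [map_add, RingHom.mem_ker.1 hκ, zero_add, map_mul, hΨalg, mul_smul_comm,
      mul_one]⟩
  have hdet' : (q.mapMatrix S).det = 1 := by rw [← RingHom.map_det, hdet, map_one]
  have htr' : (q.mapMatrix S).trace = 2 := by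
    have h1 : q S.trace = q 2 := (Ideal.Quotient.mk_eq_mk_iff_sub_mem _ _).2
      (Ideal.mem_sup_left (by rw [RingHom.mem_ker, map_sub, htr, map_ofNat, sub_self]))
    rw [map_ofNat] at h1
    rw [← h1]
    simp [Matrix.trace_fin_two, q]
  have hl1 : ((l : ℕ) : T ⧸ I) = 1 := by
    rw [hϖ.maximalIdeal_eq, Ideal.mem_span_singleton'] at hl
    obtain ⟨w, hw⟩ := hl
    rw [← sub_eq_zero, ← map_natCast q, ← map_one q, ← map_sub, Ideal.Quotient.eq_zero_iff_mem]
    refine Ideal.mem_sup_right (Ideal.mem_span_singleton'.2 ⟨algebraMap O T w, ?_⟩)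
    rw [← map_mul, hw, map_sub, map_natCast, map_one]
  have hpow : q.mapMatrix S ^ l = q.mapMatrix S := by
    rw [pow_eq_of_trace_two hdet' htr' l, hl1, one_smul, sub_self, zero_smul, sub_zero]
  have hcm : q.mapMatrix Φ * q.mapMatrix S = q.mapMatrix S * q.mapMatrix Φ := by
    rw [← map_mul, hrel, map_mul, map_pow, hpow]
  have hq2 : 2 * q h = 1 := by rw [← map_ofNat q 2, ← map_mul, hhT, map_one]
  have hm := minors_of_commute hq2 hcm
  have hs := sq_add_mul_eq hq2 (q.mapMatrix S) (q.mapMatrix Φ)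
  rw [sixOf_map] at hm hs
  rw [htr', hdet', mul_comm (q h) 2, hq2, one_pow, sub_self] at hs
  obtain ⟨h1, h2, h3⟩ := hm
  simp only [Six.map, ← map_mul] at h1 h2 h3
  refine ⟨hout _ ?_, hout _ ?_, hout _ ?_, hout _ ?_⟩
  · simpa [Six.map, pow_two] using hs
  · rw [map_sub, h1, sub_self]
  · rw [map_sub, h2, sub_self]
  · rw [map_sub, h3, sub_self]

/-- The relation of the trivial character. -/
theorem trivRels {h : T} (hhT : 2 * h = 1) (hΨalg : ∀ a, Ψ (algebraMap O T a) = ι a • 1) {q : ℕ}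
    {S Φ : Matrix (Fin 2) (Fin 2) T} (htr : Ψ S.trace = 2) (hdet : S.det = 1)
    (hdetΦ : Φ.det = (q : T)) (hrel : Φ * S = S ^ q * Φ) :
    ∀ w ∈ ({Ψ (sixOf h S Φ).a, Ψ (sixOf h S Φ).b, Ψ (sixOf h S Φ).c} : Set _),
      w * (ι (2 * (1 - (q : O)) * (q : O)) • (ι ((1 - (q : O)) ^ 2) • 1 -
        4 • (Ψ (sixOf h S Φ).A * Ψ (sixOf h S Φ).A +
          Ψ (sixOf h S Φ).B * Ψ (sixOf h S Φ).C))) = 0 := by
  let π := Ideal.Quotient.mk (RingHom.ker Ψ)
  have hdet' : (π.mapMatrix S).det = 1 := by rw [← RingHom.map_det, hdet, map_one]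
  have hdetΦ' : (π.mapMatrix Φ).det = (q : T ⧸ RingHom.ker Ψ) := by
    rw [← RingHom.map_det, hdetΦ, map_natCast]
  have htr' : (π.mapMatrix S).trace = 2 := by
    have h1 : π S.trace = π 2 := mk_ker_eq_of_eq Ψ (by rw [htr, map_ofNat])
    rw [map_ofNat] at h1
    rw [← h1]
    simp [Matrix.trace_fin_two, π]
  have key := triv_rel (h := π h) (by rw [← map_ofNat π 2, ← map_mul, hhT, map_one]) q hdet' htr'
    hdetΦ' (by rw [← map_mul, hrel, map_mul, map_pow])
  rw [sixOf_map] at key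
  have hmain : ∀ z : T, π z ∈ ({π (sixOf h S Φ).a, π (sixOf h S Φ).b, π (sixOf h S Φ).c} : Set _) →
      Ψ z * (ι (2 * (1 - (q : O)) * (q : O)) • (ι ((1 - (q : O)) ^ 2) • 1 -
        4 • (Ψ (sixOf h S Φ).A * Ψ (sixOf h S Φ).A +
          Ψ (sixOf h S Φ).B * Ψ (sixOf h S Φ).C))) = 0 := fun z hz => by
    have h0 := key _ hz
    simp only [Six.map] at h0
    rw [← hΨalg ((1 - (q : O)) ^ 2), nsmul_eq_mul, ← one_mul (Ψ (algebraMap O T _) - _),
      ← smul_mul_assoc, ← hΨalg, Nat.cast_ofNat, ← map_ofNat Ψ 4]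
    simp only [← map_mul, ← map_add, ← map_sub]
    rw [← map_zero Ψ]
    refine eq_of_mk_ker Ψ ?_
    rw [map_zero]
    simp only [map_mul, map_sub, map_add, map_one, map_natCast, map_ofNat, pow_two] at h0 ⊢
    linear_combination h0
  intro w hw
  simp only [Set.mem_insert_iff, Set.mem_singleton_iff] at hw
  rcases hw with rfl | rfl | rfl <;> exact hmain _ (by simp)

end Relations

set_option maxHeartbeats 1000000 in
-- one long assembly of the relations
/-- **Level to system.** -/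
theorem approx_of_level {p : ℕ} (hp : p.Prime) (hp2 : Odd p) (hpO : (p : O) ∈ maximalIdeal O)
    {ϖ : O} (hϖ : Irreducible ϖ) {hO : O} (hh : 2 * hO = 1)
    {M : ℕ} [NeZero M] {ρbar : ResidualGaloisRep (ResidueField O)}
    {loc : LocalType} {Smin Saux : Finset ℕ} (B : Base p M ρbar)
    (b₀ : Module.Basis (Fin 2) B.T₀ B.H.ρ.V)
    {k : ℕ} (ls : Fin (k + 1) → ℕ) (hls : ∀ j, ls j ∈ Saux) (hls0 : ∀ j : Fin k, ls j.succ ≠ ls 0)
    (hgood : GoodResidual p Smin Saux ρbar) (Pl : ∀ j, Place p (ls j))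
    {n r : ℕ} {Qv : Fin r → ℕ} (L : Level loc Smin Saux B (ls 0) (Pl 0).A (Pl 0).σ n Qv)
    {g : ℕ} (σ' : Fin g → Γℚ)
    (htan : ∀ ρ' : GaloisRepAdic (DualNumber (ResidueField O)),
      ρ'.residual.IsEquiv (ρbar.baseChangeAlong
        ((IsLocalRing.residue (DualNumber (ResidueField O))).comp
          (algebraMap (ResidueField O) (DualNumber (ResidueField O))))) →
      Cond loc p Smin (ramSet p Smin Saux Qv) ρ' →
      (∀ j, ∀ τ ∈ (Pl j).A.decompositionSubgroup ℚ, ∃ c : ResidueField O,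
        ρ'.ρ τ = algebraMap (ResidueField O) (DualNumber (ResidueField O)) c • 1) →
      (∀ j, TrivSqZeroExt.snd (ρ'.trace (σ' j)) = 0) →
        ∀ τ : Γℚ, TrivSqZeroExt.snd (ρ'.trace τ) = 0) :
    ∃ x : Bool × Idx r g k × Fin B.d × Fin B.d → MvPowerSeries (Fin r) O,
      ApproxSystem (constsOf ϖ hO (ls 0)) B.Φ (baseEntries hO B b₀ (Pl 0)) n x := by
  classical
  haveI : IsNoetherianRing L.T := IsNoetherianRing.of_finite O L.T
  haveI : Finite (ResidueField L.T) :=
    Finite.of_surjective (ResidueField.map (algebraMap O L.T)) fun z => by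
      obtain ⟨a, rfl⟩ := L.residue_surjective z
      exact ⟨IsLocalRing.residue O a, by simp [ResidueField.map_residue]⟩
  have hl : ∀ j, (ls j).Prime ∧ ls j ≠ p ∧ p ∣ ls j - 1 := fun j =>
    ⟨(hgood.aux_prime _ (hls j)).1, (hgood.aux_prime _ (hls j)).2.1, hgood.one_mod _ (hls j)⟩
  have hunr : ∀ j, ρbar.IsUnramifiedAt (ls j) := fun j =>
    hgood.unramified _ (hl j).1 (hgood.aux_prime _ (hls j)).2.2 (hl j).2.1
  -- `π` is surjective, so the basis lifts
  have hπ : Function.Surjective L.π := by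
    rw [← AlgHom.range_eq_top, eq_top_iff, ← range_le_adjoin_trace B]
    refine Algebra.adjoin_le ?_
    rintro _ ⟨τ, rfl⟩
    refine ⟨L.ρ.trace τ, ?_⟩
    rw [← FLTAgent.Deform.trace_eq_of_isEquiv L.π_isEquiv τ, trace_baseChangeAlong]
    rfl
  obtain ⟨e⟩ := L.π_isEquiv
  letI : Algebra L.T B.T₀ := (L.π : L.T →+* B.T₀).toAlgebra
  haveI : IsLocalHom (algebraMap L.T B.T₀) := L.π_isLocalHom
  let b₀' : Module.Basis (Fin 2) B.T₀ (B.T₀ ⊗[L.T] L.ρ.V) := b₀.map e.toLinearEquiv.symm
  obtain ⟨b, hb⟩ := exists_lift_basis (T := L.T) (B := B.T₀) hπ L.ρ.finrank_eq b₀'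
  have hmat : ∀ τ, (L.π : L.T →+* B.T₀).mapMatrix (matHom L.ρ b τ) = matHom B.H.ρ b₀ τ := fun τ => by
    rw [← matHom_baseChange (L.π : L.T →+* B.T₀) L.π_isLocalHom L.ρ b τ]
    ext i j
    rw [matHom_apply, matHom_apply]
    have hbc : ∀ s, (basisBaseChange (L.π : L.T →+* B.T₀) L.π_isLocalHom L.ρ b) s =
        e.toLinearEquiv.symm (b₀ s) := fun s => by
      refine (Module.Basis.baseChange_apply B.T₀ b s).trans ((hb s).trans ?_)
      rfl
    have hrepr : ∀ z, (basisBaseChange (L.π : L.T →+* B.T₀) L.π_isLocalHom L.ρ b).repr z i =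
        b₀.repr (e.toLinearEquiv z) i := fun z => by
      have hE : basisBaseChange (L.π : L.T →+* B.T₀) L.π_isLocalHom L.ρ b =
          b₀.map e.toLinearEquiv.symm := Module.Basis.eq_of_apply_eq fun s => by rw [hbc]; rfl
      rw [hE]; rfl
    rw [hrepr, hbc, e.map_apply, LinearEquiv.apply_symm_apply]
  -- generators
  set h : L.T := algebraMap O L.T hO
  have hhT : 2 * h = 1 := by rw [← map_ofNat (algebraMap O L.T) 2, ← map_mul, hh, map_one]
  obtain ⟨x₀, -, hspan⟩ := exists_generators hp hp2 hpO hϖ L.residue_surjective L.ρ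
    L.residual_isEquiv L.cond L.adjoin_trace ls hl hunr Pl
    (fun j => hgood.scalar _ (hls j) _ (Pl j).liesOver) σ' htan h hhT b
  let six : Fin (k + 1) → Six L.T := fun j => placeSix h L.ρ b (Pl j)
  let genT : Gen g k → L.T := Sum.elim x₀ fun js => (six js.1).get js.2
  have hspan' : maximalIdeal L.T ≤
      Ideal.span (Set.range fun o : Option (Gen g k) => o.elim (algebraMap O L.T ϖ) genT) := by
    rw [hspan]
    refine Ideal.span_mono ?_
    rintro t (rfl | ⟨j, rfl⟩ | ht)
    · exact ⟨none, rfl⟩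
    · exact ⟨some (.inl j), rfl⟩
    · obtain ⟨j, hj⟩ := Set.mem_iUnion.1 ht
      obtain ⟨s, rfl⟩ := Six.toSet_subset_range _ hj
      exact ⟨some (.inr (j, s)), rfl⟩
  have hgenm : ∀ v, genT v ∈ maximalIdeal L.T := fun v => by
    rw [hspan]
    refine Ideal.subset_span (Set.mem_insert_of_mem _ ?_)
    rcases v with j | ⟨j, s⟩
    · exact Or.inl ⟨j, rfl⟩
    · refine Or.inr (Set.mem_iUnion.2 ⟨j, ?_⟩)
      change (placeSix h L.ρ b (Pl j)).get s ∈ _
      fin_cases s <;> simp [Six.get, Six.toSet]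
  choose tw htw htweq using L.tw_rel
  choose β hβ using fun i => (Submodule.mem_span_range_iff_exists_fun _).1 (hspan' (htw i))
  -- the two actions modulo `𝔪ⁿ`
  let Sr := MvPowerSeries (Fin r) O
  let m := maximalIdeal (MvPowerSeries (Fin r) O)
  have hlev : levelIdeal p n r O ≤ m ^ n :=
    (levelIdeal_le_pow hpO n r).trans (Ideal.pow_le_pow_right n.le_succ)
  let F : MvPowerSeries (Fin r) O ⧸ levelIdeal p n r O →+* MvPowerSeries (Fin r) O ⧸ m ^ n :=
    Ideal.Quotient.factor hlev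
  let mk : MvPowerSeries (Fin r) O →+* MvPowerSeries (Fin r) O ⧸ m ^ n := Ideal.Quotient.mk _
  let Ψ : Bool → (L.T →+* Matrix (Fin B.d) (Fin B.d) (MvPowerSeries (Fin r) O ⧸ m ^ n)) := fun s =>
    F.mapMatrix.comp (bif s then L.Ψc.toRingHom else L.Ψ₁.toRingHom)
  have hΨalg : ∀ s a, Ψ s (algebraMap O L.T a) = mk (MvPowerSeries.C a) • 1 := fun s a => by
    cases s <;> simp only [Ψ, cond_false, cond_true, RingHom.comp_apply, AlgHom.toRingHom_eq_coe,
      RingHom.coe_coe, AlgHom.commutes] <;>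
    · rw [Matrix.smul_one_eq_diagonal, Matrix.algebraMap_eq_diagonal, RingHom.mapMatrix_apply,
        Matrix.diagonal_map (map_zero F)]
      rfl
  let u : Fin r → MvPowerSeries (Fin r) O := fun i => 1 + MvPowerSeries.X i
  let N : Bool → Idx r g k → Matrix (Fin B.d) (Fin B.d) (MvPowerSeries (Fin r) O ⧸ m ^ n) :=
    fun s v => Sum.elim (fun v => Ψ s (genT v)) (fun io => mk (u io.1) • Ψ s (β io.1 io.2)) v
  let x : Bool × Idx r g k × Fin B.d × Fin B.d → MvPowerSeries (Fin r) O := fun z =>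
    Function.surjInv Ideal.Quotient.mk_surjective (N z.1 z.2.1 z.2.2.1 z.2.2.2)
  have hx : ∀ s v, mk.mapMatrix (Matrix.of fun i j => x (s, v, i, j)) = N s v := fun s v => by
    ext i j
    simp only [RingHom.mapMatrix_apply, Matrix.map_apply, Matrix.of_apply, x]
    exact Function.surjInv_eq Ideal.Quotient.mk_surjective _
  have hcomm : ∀ s v w, N s v * N s w = N s w * N s v := fun s v w => by
    have hc : ∀ a b : L.T, Ψ s a * Ψ s b = Ψ s b * Ψ s a := fun a b => by
      rw [← map_mul, mul_comm, map_mul]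
    rcases v with v | v <;> rcases w with w | w <;>
      simp only [N, Sum.elim_inl, Sum.elim_inr, smul_mul_assoc, mul_smul_comm]
    · exact hc _ _
    · rw [hc]
    · rw [hc]
    · rw [hc, smul_comm]
  have baseCompat : ∀ (v : Idx r g k) i j,
      MvPowerSeries.constantCoeff (x (false, v, i, j)) -
        B.Φ (L.π (Sum.elim genT (fun io => β io.1 io.2) v)) i j ∈ maximalIdeal O ^ n := by
    intro v i j
    obtain ⟨f0, hf0⟩ := Ideal.Quotient.mk_surjective
      (L.Ψ₁ (Sum.elim genT (fun io => β io.1 io.2) v) i j)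
    obtain ⟨w, hw1, hw2⟩ : ∃ w : MvPowerSeries (Fin r) O,
        MvPowerSeries.constantCoeff w = MvPowerSeries.constantCoeff f0 ∧ N false v i j = mk w := by
      rcases v with v | ⟨i', o⟩
      · exact ⟨f0, rfl, (congrArg F hf0.symm).trans rfl⟩
      · refine ⟨u i' * f0, by simp [u], ?_⟩
        change mk (u i') * F (L.Ψ₁ (β i' o) i j) = _
        rw [show L.Ψ₁ (β i' o) i j = Ideal.Quotient.mk _ f0 from hf0.symm, map_mul]
        rfl
    rw [← L.base_eq _ i j f0 hf0, ← hw1, ← map_sub]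
    refine constantCoeff_mem_pow ?_
    rw [← Ideal.Quotient.mk_eq_mk_iff_sub_mem]
    exact (congrFun (congrFun (hx false v) i) j).trans hw2
  refine ⟨x, ?_, ?_, ?_⟩
  · -- the relations
    have hx' : ∀ s v, (Ideal.Quotient.mk (maximalIdeal (MvPowerSeries (Fin r) O) ^ n)).mapMatrix
      (Matrix.of fun i j => x (s, v, i, j)) = N s v := hx
    simp only [hx']
    have hsix : ∀ s (j : Fin (k + 1)), sixAt (N s) j = (six j).map (Ψ s) := fun s j => rfl
    have hT_ : ∀ j, (matHom L.ρ b (Pl j).φ) * (matHom L.ρ b (Pl j).σ) =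
        (matHom L.ρ b (Pl j).σ) ^ ls j * matHom L.ρ b (Pl j).φ := fun j =>
      tame_relation (Pl j).tame L.cond.det.1
        (entries_sub_one_inertia L.residual_isEquiv b (hunr j) (Pl j).liesOver)
    have hdetσ : ∀ j, (matHom L.ρ b (Pl j).σ).det = 1 := fun j => by
      rw [det_matHom]
      exact det_inertia hp (hl j).1 (hl j).2.1 (Pl j).liesOver L.cond.det (Pl j).gen.mem
    have hdetφ : ∀ j, (matHom L.ρ b (Pl j).φ).det = (ls j : L.T) := fun j => by
      rw [det_matHom]
      exact det_frobenius hp (hl j).1 (hl j).2.1 (Pl j).liesOver L.cond.det (Pl j).frob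
    -- Ψc-traces
    have htrc : Ψ true (∏ c ∈ charRoots O (ls 0), ((matHom L.ρ b (Pl 0).σ).trace -
        algebraMap O L.T (c + c ^ (ls 0 - 2)))) = 0 := by
      obtain ⟨s, hs, hs0⟩ := L.trace_q (Pl 0).liesOver
      have hsub : s ⊆ charRoots O (ls 0) := fun c hc =>
        (mem_charRoots (hl 0).1.two_le).2 (hs c hc)
      have h0 : Ψ true (∏ c ∈ s, (L.ρ.trace (Pl 0).σ -
          algebraMap O L.T (c + c ^ (ls 0 - 2)))) = 0 := by
        change F.mapMatrix (L.Ψc _) = 0
        rw [hs0, map_zero]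
      rw [trace_matHom, ← Finset.prod_sdiff hsub, map_mul, h0, mul_zero]
    have htr1 : ∀ j, Ψ false ((matHom L.ρ b (Pl j).σ).trace) = 2 := fun j => by
      rw [trace_matHom]
      simp only [Ψ, cond_false, RingHom.comp_apply, AlgHom.toRingHom_eq_coe, RingHom.coe_coe,
        L.trace_one _ (hls j) _ (Pl j).liesOver _ (Pl j).gen.mem, map_ofNat]
    have htraux : ∀ j : Fin k, Ψ true ((matHom L.ρ b (Pl j.succ).σ).trace) = 2 := fun j => by
      rw [trace_matHom]
      simp only [Ψ, cond_true, RingHom.comp_apply, AlgHom.toRingHom_eq_coe, RingHom.coe_coe,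
        L.trace_aux _ (hls _) (hls0 j) _ (Pl j.succ).liesOver _ (Pl j.succ).gen.mem, map_ofNat]
    have hone : ∀ j, (six j).a ^ 2 + (six j).b * (six j).c =
        (h * (matHom L.ρ b (Pl j).σ).trace) ^ 2 - 1 := fun j =>
      (sq_add_mul_eq hhT _ (matHom L.ρ b (Pl j).φ)).trans (by rw [hdetσ j])
    have hgenΨ : ∀ j (s : Fin 6), N true (.inl (.inr (j, s))) = Ψ true ((six j).get s) :=
      fun j s => rfl
    obtain ⟨hquad, hmin₁, hmin₂, hmin₃⟩ := charRels (Ψ true) hh (h := h) rfl
      (R := charRoots O (ls 0)) (l := ls 0)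
      (fun c hc => let h' := charRoots_spec hh (hl 0).1.two_le hc
        ⟨h'.1, h'.2.1, h'.2.2.1, h'.2.2.2.1⟩)
      (S := matHom L.ρ b (Pl 0).σ) (Φ := matHom L.ρ b (Pl 0).φ) htrc (hdetσ 0) (hT_ 0)
    have hD : ∀ t : L.T, ∃ D, Ψ true t - Ψ false t = mk (MvPowerSeries.C ϖ) • D := fun t => by
      have hd : ∀ i j, ∃ w, F (L.Ψc t i j - L.Ψ₁ t i j) = mk (MvPowerSeries.C ϖ) * w := fun i j => by
        have h1 := L.congr_mod t i j
        rw [hϖ.maximalIdeal_eq, Ideal.map_span, Set.image_singleton,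
          Ideal.mem_span_singleton] at h1
        obtain ⟨w, hw⟩ := h1
        exact ⟨F w, by rw [hw, map_mul]; rfl⟩
      choose D hD using hd
      refine ⟨Matrix.of D, ?_⟩
      ext i j
      simp only [Ψ, cond_true, cond_false, RingHom.comp_apply, AlgHom.toRingHom_eq_coe,
        RingHom.coe_coe, Matrix.sub_apply, RingHom.mapMatrix_apply, Matrix.map_apply,
        Matrix.smul_apply, Matrix.of_apply, smul_eq_mul, ← map_sub, hD]
    refine ⟨hcomm true, hcomm false, fun v => ?_, fun v => ?_, fun i => ?_, ?_, ?_, ?_, ?_,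
      fun j => ?_, fun j => ?_, fun j => ?_, fun j => ?_, ?_⟩
    · -- congruence
      rcases v with v | ⟨i, o⟩
      · exact hD _
      · obtain ⟨D, hD'⟩ := hD (β i o)
        refine ⟨mk (u i) • D, ?_⟩
        change mk (u i) • Ψ true (β i o) - mk (u i) • Ψ false (β i o) = _
        rw [← smul_sub, hD', smul_comm]
        rfl
    · -- nilpotence
      let ρk : MvPowerSeries (Fin r) O ⧸ levelIdeal p n r O →+* ResidueField O :=
        Ideal.Quotient.lift _ ((IsLocalRing.residue O).comp MvPowerSeries.constantCoeff) (by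
          intro a ha
          have ha' : a ∈ maximalIdeal (MvPowerSeries (Fin r) O) :=
            Ideal.pow_le_self (Nat.succ_ne_zero n) (levelIdeal_le_pow hpO n r ha)
          rw [RingHom.comp_apply, IsLocalRing.residue_eq_zero_iff, IsLocalRing.mem_maximalIdeal,
            mem_nonunits_iff]
          exact fun hu => ha' (MvPowerSeries.isUnit_iff_constantCoeff.2 hu))
      haveI : Finite (Matrix (Fin B.d) (Fin B.d) (ResidueField O)) := inferInstance
      have hnilk := pow_card_eq_zero_of_isNilpotent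
        (pow_eq_zero_of_mem_maximalIdeal (ρk.mapMatrix.comp L.Ψc.toRingHom) (hgenm v))
      rw [← map_pow] at hnilk
      have hent : ∀ i j, ∃ D₀ : MvPowerSeries (Fin r) O ⧸ m ^ n, ∃ D : Fin r → _,
          (Ψ true (genT v ^ B.d)) i j =
            mk (MvPowerSeries.C ϖ) * D₀ + ∑ l, mk (MvPowerSeries.X l) * D l := fun i j => by
        obtain ⟨f, hf⟩ := Ideal.Quotient.mk_surjective (L.Ψc (genT v ^ B.d) i j)
        have hfk : (IsLocalRing.residue O) (MvPowerSeries.constantCoeff f) = 0 := by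
          have h1 : ρk (L.Ψc (genT v ^ B.d) i j) = 0 := congrFun (congrFun hnilk i) j
          rwa [← hf] at h1
        have hfm : f ∈ maximalIdeal (MvPowerSeries (Fin r) O) := by
          rw [IsLocalRing.mem_maximalIdeal, mem_nonunits_iff,
            MvPowerSeries.isUnit_iff_constantCoeff]
          exact (IsLocalRing.residue_eq_zero_iff _).1 hfk
        obtain ⟨PR, hπR, hyR⟩ := exists_paramRing (O := O) hϖ r
        have h2 := PR.gen hfm
        rw [hπR, hyR, Ideal.mem_span_insert] at h2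
        obtain ⟨a, z, hz, rfl⟩ := h2
        obtain ⟨cz, rfl⟩ := (Submodule.mem_span_range_iff_exists_fun _).1 hz
        refine ⟨mk a, fun l => mk (cz l), ?_⟩
        change F (L.Ψc (genT v ^ B.d) i j) = _
        rw [← hf, Ideal.Quotient.factor_mk]
        simp only [mk, map_add, map_mul, map_sum, smul_eq_mul, mul_comm]
      choose D₀ D hD using hent
      refine ⟨Matrix.of D₀, fun l => Matrix.of fun i j => D i j l, ?_⟩
      change Ψ true (genT v) ^ B.d = _
      rw [← map_pow]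
      ext i j
      simp only [hD, Matrix.add_apply, Matrix.smul_apply, Matrix.sum_apply, Matrix.of_apply,
        smul_eq_mul]
      rfl
    · -- the quadratic relations
      have h0 := congrArg F.mapMatrix (htweq i)
      simp only [map_mul, RingHom.mapMatrix_apply, Matrix.scalar_apply,
        Matrix.diagonal_map (map_zero F), F, Ideal.Quotient.factor_mk] at h0
      have h1 : Ψ false (tw i) * (mk (u i) • (1 : Matrix (Fin B.d) (Fin B.d) _)) =
          mk (MvPowerSeries.X i ^ 2) • 1 := by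
        rw [Matrix.smul_one_eq_diagonal, Matrix.smul_one_eq_diagonal]
        exact h0
      rw [mul_smul_comm, mul_one, map_pow] at h1
      obtain ⟨D, hD'⟩ := hD (tw i)
      refine ⟨mk (u i) • Ψ true (β i none) - mk (u i) • D, ?_⟩
      have hsum : mk (u i) • Ψ true (tw i) = mk (MvPowerSeries.C ϖ) • (mk (u i) • Ψ true (β i none)) +
          ∑ v, Ψ true (genT v) * (mk (u i) • Ψ true (β i (some v))) := by
        rw [← hβ i, Fintype.sum_option, map_add (Ψ true), map_sum (Ψ true), smul_add,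
          Finset.smul_sum]
        simp only [Option.elim_none, Option.elim_some, smul_eq_mul, map_mul, hΨalg]
        refine congrArg₂ (· + ·) ?_ (Finset.sum_congr rfl fun v _ => ?_)
        · rw [mul_smul_comm, mul_one, smul_comm]
        · rw [mul_smul_comm, ← map_mul, ← map_mul, mul_comm]
      rw [eq_add_of_sub_eq hD', smul_add, h1, smul_comm] at hsum
      change mk (MvPowerSeries.X i) ^ 2 • 1 = mk (MvPowerSeries.C ϖ) •
        (mk (u i) • Ψ true (β i none) - mk (u i) • D) +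
          ∑ v, Ψ true (genT v) * (mk (u i) • Ψ true (β i (some v)))
      rw [smul_sub, sub_add_eq_add_sub, ← hsum]
      abel
    · -- the quadric
      rw [hsix, show six 0 = sixOf h (matHom L.ρ b (Pl 0).σ) (matHom L.ρ b (Pl 0).φ) from rfl]
      rw [map_list_prod, List.map_map] at hquad
      simp only [constsOf, List.map_map, Function.comp_def, Six.map] at hquad ⊢
      simp only [map_sub (Ψ true), hΨalg] at hquad
      simpa only [map_sub, map_add, map_mul, map_pow, pow_two, smul_mul_assoc, one_mul,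
        mul_smul_comm, mul_one, smul_smul, mk] using hquad
    all_goals try (rw [hsix]; simp only [Six.map, ← map_mul, ← map_add, ← map_sub])
    · -- minors at `q`
      rw [← map_pow]
      exact hmin₁
    · rw [← map_pow]
      exact hmin₂
    · rw [← map_pow]
      exact hmin₃
    · exact (auxRels (Ψ true) (h := h) hhT hϖ (hΨalg true) (natCast_sub_one_mem hp hpO (hl j.succ))
        (htraux j) (hdetσ j.succ) (hT_ j.succ)).1
    · exact (auxRels (Ψ true) (h := h) hhT hϖ (hΨalg true) (natCast_sub_one_mem hp hpO (hl j.succ))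
        (htraux j) (hdetσ j.succ) (hT_ j.succ)).2.1
    · exact (auxRels (Ψ true) (h := h) hhT hϖ (hΨalg true) (natCast_sub_one_mem hp hpO (hl j.succ))
        (htraux j) (hdetσ j.succ) (hT_ j.succ)).2.2.1
    · exact (auxRels (Ψ true) (h := h) hhT hϖ (hΨalg true) (natCast_sub_one_mem hp hpO (hl j.succ))
        (htraux j) (hdetσ j.succ) (hT_ j.succ)).2.2.2
    · intro w hw
      have hsx : six 0 = sixOf h (matHom L.ρ b (Pl 0).σ) (matHom L.ρ b (Pl 0).φ) := rfl
      rw [hsx] at hw ⊢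
      have h3 := trivRels (Ψ false) (h := h) hhT (hΨalg false) (htr1 0) (hdetσ 0) (hdetφ 0) (hT_ 0) w hw
      simp only [constsOf, mk, map_mul, map_add] at h3 ⊢
      exact h3
  · -- comparison with the base
    exact fun v => ⟨_, fun i j => baseCompat v i j⟩
  · intro v i j
    have h1 := baseCompat (.inl (.inr (0, Fin.castLE (by norm_num) v))) i j
    have h2 : L.π ((six 0).get (Fin.castLE (by norm_num) v)) = baseEntries hO B b₀ (Pl 0) v := by
      rw [baseEntries, placeSix, ← hmat, ← hmat,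
        show algebraMap O B.T₀ hO = (L.π : L.T →+* B.T₀) h from (L.π.commutes hO).symm, sixOf_map]
      fin_cases v <;> rfl
    rw [← h2]
    exact h1

end FLTAgent.Lower
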