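import Fermat.Agent.EllP.Unramified
import Fermat.Agent.GalCommon.Frobenius
import Fermat.Agent.Lower.Defs

/-!
# Facts about decomposition groups for the tame pair

`cycPow p l` is the power of the mod `l` cyclotomic character detecting the subfield of degree `p`
of `ℚ(μ_l)`; `exists_isInertiaGen` gives an inertia element moving it.  `exists_decomposition_eq`:
on a finite Galois extension an element of the decomposition group is a power of a Frobenius
element times an inertia element.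
-/

set_option autoImplicit false
set_option linter.style.haveILetI false

noncomputable section

open scoped Pointwise

namespace FLTAgent.Lower

local notation "ℚ̄" => AlgebraicClosure ℚ
local notation "Γℚ" => (AlgebraicClosure ℚ ≃ₐ[ℚ] AlgebraicClosure ℚ)

theorem card_rootsOfUnity_Qb (l : ℕ) [Fact l.Prime] :
    Nat.card (rootsOfUnity l ℚ̄) = l := by
  haveI : NeZero (l : ℚ̄) := ⟨Nat.cast_ne_zero.mpr (Fact.out : l.Prime).ne_zero⟩
  exact HasEnoughRootsOfUnity.natCard_rootsOfUnity ℚ̄ l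

/-- The mod `l` cyclotomic character raised to the power `(l - 1) / p`. -/
def cycPow (p l : ℕ) [Fact l.Prime] : Γℚ →* (ZMod l)ˣ :=
  haveI : NeZero l := ⟨(Fact.out : l.Prime).ne_zero⟩
  (powMonoidHom ((l - 1) / p)).comp ((modularCyclotomicCharacter ℚ̄ (card_rootsOfUnity_Qb l)).comp
    (MonoidHom.mk' (fun σ : Γℚ => (σ : ℚ̄ ≃+* ℚ̄)) fun _ _ => rfl))

theorem cycPow_apply_eq {p l : ℕ} [Fact l.Prime] {σ : Γℚ} {μ : ℚ̄} (hμ : IsPrimitiveRoot μ l)
    {a : ℕ} (ha : σ μ = μ ^ a) : (cycPow p l σ : ZMod l) = (a : ZMod l) ^ ((l - 1) / p) := by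
  haveI : NeZero l := ⟨(Fact.out : l.Prime).ne_zero⟩
  haveI : NeZero (l : ℚ̄) := ⟨Nat.cast_ne_zero.mpr (Fact.out : l.Prime).ne_zero⟩
  show (((modularCyclotomicCharacter ℚ̄ (card_rootsOfUnity_Qb l) (σ : ℚ̄ ≃+* ℚ̄) : (ZMod l)ˣ)
    ^ ((l - 1) / p) : (ZMod l)ˣ) : ZMod l) = _
  rw [Units.val_pow_eq_pow_val]
  congr 1
  set u := modularCyclotomicCharacter ℚ̄ (card_rootsOfUnity_Qb l) (σ : ℚ̄ ≃+* ℚ̄)
  have hs := modularCyclotomicCharacter.spec ℚ̄ (card_rootsOfUnity_Qb l) (σ : ℚ̄ ≃+* ℚ̄)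
    hμ.toRootsOfUnity.2
  have h : μ ^ (u : ZMod l).val = μ ^ a := by
    rw [← ha]
    exact hs.symm
  have h2 := (hμ.isOfFinOrder (Fact.out : l.Prime).ne_zero).pow_eq_pow_iff_modEq.mp h
  rw [← hμ.eq_orderOf, ← ZMod.natCast_eq_natCast_iff, ZMod.natCast_zmod_val] at h2
  exact h2

theorem cycPow_pow_eq_one {p l : ℕ} [Fact l.Prime] (hdvd : p ∣ l - 1) (σ : Γℚ) :
    cycPow p l σ ^ p = 1 := by
  show (_ ^ ((l - 1) / p) : (ZMod l)ˣ) ^ p = 1
  rw [← pow_mul, Nat.div_mul_cancel hdvd]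
  exact ZMod.units_pow_card_sub_one_eq_one l _

/-- Some inertia element at `l` moves the subfield of degree `p` of `ℚ(μ_l)`. -/
theorem exists_isInertiaGen {p l : ℕ} (hp : p.Prime) (hl : l.Prime) (hdvd : p ∣ l - 1)
    (A : ValuationSubring ℚ̄) (hA : A.LiesOverPrime l) : ∃ σ, IsInertiaGen p l A σ := by
  haveI : Fact l.Prime := ⟨hl⟩
  haveI : NeZero l := ⟨hl.ne_zero⟩
  haveI : NeZero (l : ℚ̄) := ⟨Nat.cast_ne_zero.mpr hl.ne_zero⟩
  haveI := GalCommon.normal_Qbar
  obtain ⟨ζ, hζ⟩ := HasEnoughRootsOfUnity.exists_primitiveRoot ℚ̄ l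
  suffices h : ∃ σ ∈ A.inertiaSubgroupIn ℚ, cycPow p l σ ≠ 1 by
    obtain ⟨σ, hσ, hne⟩ := h
    exact ⟨σ, hσ, fun μ hμ a ha h1 => hne (Units.ext (by rw [cycPow_apply_eq hμ ha, h1, Units.val_one]))⟩
  by_contra hcon
  push Not at hcon
  let F : IntermediateField ℚ ℚ̄ := IntermediateField.adjoin ℚ {ζ}
  haveI : FiniteDimensional ℚ F :=
    IntermediateField.adjoin.finiteDimensional (Algebra.IsIntegral.isIntegral ζ)
  have hfix : ∀ σ : Γℚ, σ ζ = ζ → cycPow p l σ = 1 := fun σ h => Units.ext (by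
    rw [cycPow_apply_eq hζ (a := 1) (by rw [pow_one]; exact h), Nat.cast_one, one_pow,
      Units.val_one])
  have hU : (cycPow p l).ker = ⊤ := EllP.eq_top_of_inertia_le _ F
    (fun σ hσ => hfix σ ((IntermediateField.mem_fixingSubgroup_iff F σ).mp hσ ζ
      (IntermediateField.mem_adjoin_simple_self ℚ ζ)))
    fun q hq A' hA' τ hτ => by
      rw [MonoidHom.mem_ker]
      by_cases hql : q = l
      · subst hql
        obtain ⟨g, rfl⟩ := GalCommon.exists_smul_eq_of_liesOverPrime hl hA hA'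
        have h1 := GalCommon.mem_inertia_conj hτ g⁻¹
        rw [inv_smul_smul] at h1
        have h2 := hcon _ h1
        rwa [map_mul, map_mul, mul_right_comm, ← map_mul, ← map_mul, mul_inv_cancel, one_mul] at h2
      · exact hfix τ (GalCommon.inertia_apply_of_pow_eq_one hq hA'
          (fun h => hql ((Nat.prime_dvd_prime_iff_eq hq hl).mp h)) hτ hζ.pow_eq_one)
  -- a lift of a generator
  obtain ⟨g, hg⟩ := IsCyclic.exists_ofOrder_eq_natCard (α := (ZMod l)ˣ)
  have hcard : Nat.card (ZMod l)ˣ = l - 1 := by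
    rw [Nat.card_eq_fintype_card, ZMod.card_units]
  have hcop : (g : ZMod l).val.Coprime l := by
    have := (ZMod.val_coe_unit_coprime g)
    exact this
  obtain ⟨σ, hσ⟩ := minpoly.exists_algEquiv_of_root' (K := ℚ) (x := ζ ^ (g : ZMod l).val) (y := ζ)
    (Algebra.IsAlgebraic.isAlgebraic ζ) (by
      rw [← Polynomial.cyclotomic_eq_minpoly_rat hζ hl.pos, Polynomial.aeval_def,
        ← Polynomial.eval_map, Polynomial.map_cyclotomic]
      exact (Polynomial.isRoot_cyclotomic_iff).mpr (hζ.pow_of_coprime _ hcop))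
  have h3 : cycPow p l σ = 1 := MonoidHom.mem_ker.mp (hU ▸ Subgroup.mem_top σ)
  have h4 := cycPow_apply_eq (p := p) hζ hσ
  rw [h3, ZMod.natCast_zmod_val, ← Units.val_pow_eq_pow_val] at h4
  have h5 := orderOf_dvd_of_pow_eq_one (Units.ext h4.symm)
  rw [hg, hcard] at h5
  have hl1 : 0 < l - 1 := by have := hl.two_le; omega
  have hpos : 0 < (l - 1) / p := Nat.div_pos (Nat.le_of_dvd hl1 hdvd) hp.pos
  exact absurd (Nat.le_of_dvd hpos h5) (not_le.mpr (Nat.div_lt_self hl1 hp.one_lt))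

/-- An automorphism of a field of characteristic `l` moves an element of finite field type to a
Frobenius conjugate. -/
theorem exists_ringEquiv_eq_pow {l : ℕ} [Fact l.Prime] {k : Type*} [Field k] [CharP k l]
    (τ : k ≃+* k) {g : k} {f : ℕ} (hf : 0 < f) (hg : g ^ (l ^ f) = g) :
    ∃ i, τ g = g ^ (l ^ i) := by
  classical
  haveI : NeZero f := ⟨hf.ne'⟩
  set Q : Polynomial k :=
    ∏ i : ZMod f, (Polynomial.X - Polynomial.C (g ^ (l ^ i.val))) with hQ
  haveI : ExpChar k l := .prime Fact.out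
  have hper : ∀ i : ZMod f, (g ^ (l ^ i.val)) ^ l = g ^ (l ^ (i + 1).val) := by
    intro i
    rw [← pow_mul, ← pow_succ]
    have hmul : ∀ m : ℕ, g ^ (l ^ (m * f)) = g := by
      intro m
      induction m with
      | zero => simp
      | succ m ih => rw [add_mul, one_mul, pow_add, pow_mul, ih, hg]
    have h1 : (i + 1).val = (i.val + 1) % f := by
      rw [ZMod.val_add, ZMod.val_one_eq_one_mod, Nat.add_mod_mod]
    conv_lhs => rw [← Nat.div_add_mod' (i.val + 1) f, pow_add, pow_mul, hmul]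
    rw [h1]
  have hfr : Q.map (frobenius k l) = Q := by
    rw [hQ, Polynomial.map_prod]
    refine Fintype.prod_equiv (Equiv.addRight (1 : ZMod f)) _ _ fun i => ?_
    rw [Polynomial.map_sub, Polynomial.map_X, Polynomial.map_C, frobenius_def, hper]
    rfl
  have hτ : Q.map (τ : k →+* k) = Q := by
    ext n
    rw [Polynomial.coeff_map]
    have h1 : Q.coeff n ∈ (⊥ : Subfield k) := by
      rw [Subfield.mem_bot_iff_pow_eq_self k l]
      conv_rhs => rw [← hfr, Polynomial.coeff_map, frobenius_def]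
    have h2 : (⊥ : Subfield k) ≤ RingHom.eqLocusField (τ : k →+* k) (RingHom.id k) := bot_le
    exact h2 h1
  have h0 : Q.eval g = 0 := by
    rw [hQ, Polynomial.eval_prod]
    exact Finset.prod_eq_zero (Finset.mem_univ (0 : ZMod f)) (by simp)
  have h1 : Q.eval (τ g) = 0 := by
    conv_lhs => rw [← hτ]
    show (Q.map (τ : k →+* k)).eval ((τ : k →+* k) g) = 0
    rw [Polynomial.eval_map, Polynomial.eval₂_hom, h0, map_zero]
  rw [hQ, Polynomial.eval_prod, Finset.prod_eq_zero_iff] at h1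
  obtain ⟨i, -, hi⟩ := h1
  exact ⟨i.val, by simpa [sub_eq_zero] using hi⟩

/-- On a finite Galois extension a decomposition element is a power of a Frobenius element times an
inertia element. -/
theorem exists_decomposition_eq {l : ℕ} (hl : l.Prime) {A : ValuationSubring ℚ̄}
    (hA : A.LiesOverPrime l) {φ : Γℚ} (hφ : A.IsFrobeniusAt φ l)
    (L : IntermediateField ℚ ℚ̄) [FiniteDimensional ℚ L] [IsGalois ℚ L] {τ : Γℚ}
    (hτ : τ ∈ A.decompositionSubgroup ℚ) :
    ∃ (k : ℕ), ∃ i ∈ A.inertiaSubgroupIn ℚ, ∀ x ∈ L, τ x = (φ ^ k * i) x := by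
  classical
  haveI : Fact l.Prime := ⟨hl⟩
  haveI := GalCommon.charP_residueField hl hA
  haveI : NumberField L := ⟨⟩
  set D := A.decompositionSubgroup ℚ
  set kA := IsLocalRing.ResidueField A
  let r : NumberField.RingOfIntegers L →+* kA :=
    (IsLocalRing.residue A).comp ((EllP.intInclusion A).comp
      (algebraMap (NumberField.RingOfIntegers L) (NumberField.RingOfIntegers ℚ̄)))
  -- the residue field of `L`
  haveI hfin : Finite r.range := by
    let P := RingHom.ker r
    have hP0 : P ≠ ⊥ := by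
      intro h
      have h1 : ((l : NumberField.RingOfIntegers L)) ∈ P := by
        rw [RingHom.mem_ker, map_natCast, CharP.cast_eq_zero]
      rw [h, Ideal.mem_bot] at h1
      exact hl.ne_zero (by exact_mod_cast h1)
    haveI := Ideal.finiteQuotientOfFreeOfNeBot P hP0
    exact Finite.of_equiv _ (RingHom.quotientKerEquivRange r).toEquiv
  haveI : Fintype r.range := Fintype.ofFinite _
  let : Field r.range := Fintype.fieldOfDomain _
  haveI : CharP r.range l := inferInstance
  obtain ⟨u, hu⟩ := IsCyclic.exists_generator (α := (r.range)ˣ)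
  obtain ⟨f, hf⟩ := FiniteField.card r.range l
  have hg : (((u : r.range) : kA)) ^ (l ^ (f : ℕ)) = ((u : r.range) : kA) := by
    rw [← SubmonoidClass.coe_pow, ← hf.2, FiniteField.pow_card]
  let τD : D := ⟨τ, hτ⟩
  let φD : D := ⟨φ, hφ.mem_decompositionSubgroup⟩
  obtain ⟨k, hk⟩ := exists_ringEquiv_eq_pow (l := l)
    (MulSemiringAction.toRingEquiv D kA τD) (g := ((u : r.range) : kA)) f.pos hg
  rw [MulSemiringAction.toRingEquiv_apply_apply] at hk
  have hall : ∀ y : r.range, τD • (y : kA) = (y : kA) ^ (l ^ k) := by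
    intro y
    rcases eq_or_ne y 0 with rfl | hy
    · rw [ZeroMemClass.coe_zero, smul_zero, zero_pow (pow_ne_zero _ hl.ne_zero)]
    obtain ⟨m, hm⟩ := (mem_powers_iff_mem_zpowers (x := u) (y := Units.mk0 y hy)).mpr (hu _)
    have hy' : (y : kA) = ((u : r.range) : kA) ^ m := by
      rw [← SubmonoidClass.coe_pow, ← Units.val_pow_eq_pow_val]
      exact congrArg (fun z : (r.range)ˣ => ((z : r.range) : kA)) hm.symm
    rw [hy', smul_pow', hk, ← pow_mul, ← pow_mul, mul_comm]
  have hfrob : ∀ (j : ℕ) (y : kA), φD ^ j • y = y ^ (l ^ j) := by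
    intro j
    induction j with
    | zero => intro y; simp
    | succ j ih =>
      intro y
      rw [pow_succ, mul_smul, hφ.smul_residue_eq, ih, ← pow_mul, pow_succ' l]
  set ψ : D := (φD ^ k)⁻¹ * τD
  have hψ : ∀ a : NumberField.RingOfIntegers L, ψ • r a = r a := fun a => by
    rw [mul_smul, hall ⟨r a, a, rfl⟩, ← hfrob, inv_smul_smul]
  set ψL : L ≃ₐ[ℚ] L := (ψ : Γℚ).restrictNormal L
  have hψL : ∀ x : L, (ψ : Γℚ) (x : ℚ̄) = ((ψL x : L) : ℚ̄) :=
    fun x => ((ψ : Γℚ).restrictNormal_commutes L x).symm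
  obtain ⟨i, hi, hix⟩ := EllP.exists_inertia_lift L (EllP.centre A) ψL (fun a => by
    show ψL • a - a ∈ (EllP.centre A).under _
    rw [Ideal.under_def, Ideal.mem_comap, EllP.centre, Ideal.mem_comap,
      ← Ideal.Quotient.eq_zero_iff_mem]
    show r (ψL • a - a) = 0
    rw [map_sub, sub_eq_zero]
    refine Eq.trans ?_ (hψ a)
    show IsLocalRing.residue A _ = ψ • IsLocalRing.residue A _
    rw [EllP.residue_smul_decomposition]
    exact congrArg _ (Subtype.ext (hψL a).symm))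
  refine ⟨k, i, (EllP.mem_inertiaSubgroupIn_iff hl hA).mpr hi, fun x hx => ?_⟩
  rw [AlgEquiv.mul_apply, hix ⟨x, hx⟩, ← hψL, ← AlgEquiv.mul_apply]
  congr 1
  show τ = φ ^ k * (((φD ^ k)⁻¹ * τD : D) : Γℚ)
  simp [φD, τD]

end FLTAgent.Lower
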